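import Fermat.Agent.ThreePrimes.Circle

/-!
# The theorem of Vinogradov

The asymptotic formula for all `N ≥ 2`, and the removal of the prime powers.
-/

set_option autoImplicit false

noncomputable section

namespace FA.ThreePrimes

open Finset Complex ArithmeticFunction
open scoped Real

/-- Three weights. -/
def triple (f g h : ℕ → ℝ) (N : ℕ) : ℝ :=
  ∑ i ∈ Icc 1 N, ∑ j ∈ Icc 1 N, ∑ k ∈ Icc 1 N, if i + j + k = N then f i * g j * h k else 0

theorem triple_cast (N : ℕ) :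
    tripleSum (fun n => (Λ n : ℂ)) N = ((triple (Λ ·) (Λ ·) (Λ ·) N : ℝ) : ℂ) := by
  simp only [tripleSum, triple, Complex.ofReal_sum]
  refine sum_congr rfl fun i _ => sum_congr rfl fun j _ => sum_congr rfl fun k _ => ?_
  split_ifs <;> simp

theorem triple_swap (f g h : ℕ → ℝ) (N : ℕ) : triple f g h N = triple f h g N := by
  refine sum_congr rfl fun i _ => ?_
  rw [sum_comm]
  refine sum_congr rfl fun k _ => sum_congr rfl fun j _ => ?_
  rw [show i + j + k = i + k + j by ring, mul_right_comm]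

theorem triple_nonneg {f g h : ℕ → ℝ} (hf : ∀ n, 0 ≤ f n) (hg : ∀ n, 0 ≤ g n)
    (hh : ∀ n, 0 ≤ h n) (N : ℕ) : 0 ≤ triple f g h N := by
  refine sum_nonneg fun i _ => sum_nonneg fun j _ => sum_nonneg fun k _ => ?_
  split_ifs
  exacts [mul_nonneg (mul_nonneg (hf i) (hg j)) (hh k), le_rfl]

theorem triple_le {f g h : ℕ → ℝ} (hf : ∀ n, 0 ≤ f n) (hg : ∀ n, 0 ≤ g n) {N : ℕ} {B : ℝ}
    (hB0 : 0 ≤ B) (hB : ∀ n ∈ Icc 1 N, h n ≤ B) :
    triple f g h N ≤ (∑ i ∈ Icc 1 N, f i) * (∑ j ∈ Icc 1 N, g j) * B := by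
  rw [sum_mul_sum, sum_mul]
  refine sum_le_sum fun i _ => ?_
  rw [sum_mul]
  refine sum_le_sum fun j _ => ?_
  have hfg : 0 ≤ f i * g j := mul_nonneg (hf i) (hg j)
  rw [← sum_filter]
  refine (sum_le_card_nsmul _ _ (f i * g j * B) fun k hk => ?_).trans ?_
  · rw [mem_filter] at hk
    exact mul_le_mul_of_nonneg_left (hB k hk.1) hfg
  · rw [nsmul_eq_mul]
    refine mul_le_of_le_one_left (mul_nonneg hfg hB0) ?_
    refine Nat.cast_le_one.2 (card_le_one.2 fun x hx y hy => ?_)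
    rw [mem_filter] at hx hy
    omega

/-- **The asymptotic formula.** -/
theorem exists_asymptotic (e : ℕ) : ∃ C : ℝ, 0 < C ∧ ∀ N : ℕ, 2 ≤ N →
    |triple (Λ ·) (Λ ·) (Λ ·) N - singularSeries N * ((N : ℝ) ^ 2 / 2)| ≤
      C * ((N : ℝ) ^ 2 / Real.log N ^ e) := by
  obtain ⟨C, N₀, hC, h⟩ := exists_asymptotic_large e
  obtain ⟨Cs, hCs, hser⟩ := exists_singular_tail
  obtain ⟨L, hL⟩ : ∃ L : ℝ, L = (Real.log N₀ + 1) ^ e := ⟨_, rfl⟩
  have hL0 : 0 < L := hL ▸ pow_pos (by linarith [Real.log_natCast_nonneg N₀]) e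
  refine ⟨C + (216 * (N₀ + 1) + Cs) * L, by positivity, fun N hN => ?_⟩
  obtain ⟨E, hE⟩ : ∃ E : ℝ, E = (N : ℝ) ^ 2 / Real.log N ^ e := ⟨_, rfl⟩
  rw [← hE]
  have hl : 0 < Real.log N := Real.log_pos (by exact_mod_cast hN)
  have hE0 : 0 ≤ E := by rw [hE]; positivity
  rcases le_or_gt N₀ N with hle | hlt
  · have h1 := h N hle
    rw [triple_cast, ← Complex.ofReal_sub, Complex.norm_real, Real.norm_eq_abs, ← hE] at h1
    have : 0 ≤ (216 * ((N₀ : ℝ) + 1) + Cs) * L * E := by positivity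
    linarith
  · have hN0 : (N : ℝ) ≤ N₀ := Nat.cast_le.2 hlt.le
    have hΛ : ∀ n : ℕ, 0 ≤ Λ n := fun n => vonMangoldt_nonneg
    have h1 : triple (Λ ·) (Λ ·) (Λ ·) N ≤ 216 * ((N₀ : ℝ) + 1) * (N : ℝ) ^ 2 := by
      have hs : ∑ n ∈ Icc 1 N, Λ n ≤ 6 * N := sum_vonMangoldt_le N
      refine (triple_le hΛ hΛ (B := 6 * N) (by positivity) fun n hn =>
        (single_le_sum (fun i _ => hΛ i) hn).trans hs).trans ?_
      refine (mul_le_mul_of_nonneg_right (mul_le_mul hs hs (sum_nonneg fun i _ => hΛ i)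
        (by positivity)) (by positivity)).trans ?_
      have := mul_le_mul_of_nonneg_left (show (N : ℝ) ≤ N₀ + 1 by linarith)
        (show (0 : ℝ) ≤ 216 * (N : ℝ) ^ 2 by positivity)
      linarith
    have h2 : |singularSeries N * ((N : ℝ) ^ 2 / 2)| ≤ Cs * (N : ℝ) ^ 2 := by
      rw [abs_mul, abs_of_nonneg (show (0 : ℝ) ≤ (N : ℝ) ^ 2 / 2 by positivity)]
      exact mul_le_mul (hser N 0).2 (by linarith [sq_nonneg (N : ℝ)]) (by positivity) hCs.le
    have h3 : (N : ℝ) ^ 2 ≤ L * E := by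
      rw [hE, mul_div_assoc', le_div_iff₀ (by positivity), mul_comm L]
      refine mul_le_mul_of_nonneg_left (hL ▸ pow_le_pow_left₀ hl.le ?_ e) (sq_nonneg _)
      linarith [Real.log_le_log (show (0 : ℝ) < N by positivity) hN0]
    refine (abs_sub _ _).trans ((add_le_add ((abs_of_nonneg
      (triple_nonneg hΛ hΛ hΛ N)).le.trans h1) h2).trans ?_)
    have h4 := mul_le_mul_of_nonneg_left h3 (show 0 ≤ 216 * ((N₀ : ℝ) + 1) + Cs by positivity)
    have : 0 ≤ C * E := by positivity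
    linarith

/-- `Λ` off the primes. -/
def powerPart (n : ℕ) : ℝ := if n.Prime then 0 else Λ n

theorem powerPart_nonneg (n : ℕ) : 0 ≤ powerPart n := by
  unfold powerPart
  split_ifs
  exacts [le_rfl, vonMangoldt_nonneg]

theorem sum_powerPart_le {N : ℕ} (hN : 1 ≤ N) :
    ∑ n ∈ Icc 1 N, powerPart n ≤ 2 * √(N : ℝ) * Real.log N := by
  refine le_trans (le_of_eq ?_) ((le_abs_self _).trans
    (Chebyshev.abs_psi_sub_theta_le_sqrt_mul_log (x := N) (by exact_mod_cast hN)))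
  rw [Chebyshev.psi, Chebyshev.theta, Nat.floor_natCast, sum_filter, ← sum_sub_distrib]
  refine sum_congr rfl fun n _ => ?_
  unfold powerPart
  split_ifs with hp
  · rw [vonMangoldt_apply_prime hp, sub_self]
  · rw [sub_zero]

/-- **Vinogradov's theorem.** -/
theorem exists_three_primes : ∃ N₀ : ℕ, ∀ N : ℕ, N₀ ≤ N → Odd N →
    ∃ p q r : ℕ, p.Prime ∧ q.Prime ∧ r.Prime ∧ p + q + r = N := by
  obtain ⟨C, hC, h⟩ := exists_asymptotic 1
  obtain ⟨K, hK, hpow⟩ := exists_log_pow_le 3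
  refine ⟨max 2 (⌈Real.exp (4 * (C + 36 * K) + 1)⌉₊), fun N hN hodd => ?_⟩
  by_contra hno
  push Not at hno
  have hN2 : 2 ≤ N := le_trans (le_max_left _ _) hN
  have hN1 : (1 : ℝ) ≤ N := by exact_mod_cast (show 1 ≤ N by omega)
  obtain ⟨l, hl⟩ : ∃ l, l = Real.log N := ⟨_, rfl⟩
  have hbig : 4 * (C + 36 * K) + 1 ≤ l := by
    rw [hl, Real.le_log_iff_exp_le (by linarith)]
    exact (Nat.le_ceil _).trans (Nat.cast_le.2 (le_trans (le_max_right _ _) hN))
  have hl0 : 0 < l := by linarith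
  have hΛ : ∀ n : ℕ, 0 ≤ Λ n := fun n => vonMangoldt_nonneg
  have hmax : ∀ n ∈ Icc 1 N, Λ n ≤ l := fun n hn => by
    rw [mem_Icc] at hn
    rw [hl]
    exact vonMangoldt_le_log.trans
      (Real.log_le_log (Nat.cast_pos.2 hn.1) (Nat.cast_le.2 hn.2))
  have hsplit : triple (Λ ·) (Λ ·) (Λ ·) N ≤ triple powerPart (Λ ·) (Λ ·) N +
      triple (Λ ·) powerPart (Λ ·) N + triple (Λ ·) (Λ ·) powerPart N := by
    simp only [triple, ← sum_add_distrib]
    refine sum_le_sum fun i _ => sum_le_sum fun j _ => sum_le_sum fun k _ => ?_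
    split_ifs with hsum
    · have e1 := mul_nonneg (mul_nonneg (powerPart_nonneg i) (hΛ j)) (hΛ k)
      have e2 := mul_nonneg (mul_nonneg (hΛ i) (powerPart_nonneg j)) (hΛ k)
      have e3 := mul_nonneg (mul_nonneg (hΛ i) (hΛ j)) (powerPart_nonneg k)
      by_cases hi : i.Prime
      · by_cases hj : j.Prime
        · have hk : ¬ k.Prime := fun hk => hno i j k hi hj hk hsum
          rw [show powerPart k = Λ k from if_neg hk]
          linarith
        · rw [show powerPart j = Λ j from if_neg hj]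
          linarith
      · rw [show powerPart i = Λ i from if_neg hi]
        linarith
    · norm_num
  have hone : ∀ T : ℝ, T ≤ (∑ i ∈ Icc 1 N, powerPart i) * (∑ j ∈ Icc 1 N, Λ j) * l →
      T ≤ 12 * K * ((N : ℝ) ^ 2 / l) := by
    intro T hT
    refine hT.trans ?_
    calc (∑ i ∈ Icc 1 N, powerPart i) * (∑ j ∈ Icc 1 N, Λ j) * l
        ≤ (2 * √(N : ℝ) * l) * (6 * N) * l :=
          mul_le_mul_of_nonneg_right (mul_le_mul (hl ▸ sum_powerPart_le (by omega))
            (sum_vonMangoldt_le N) (sum_nonneg fun j _ => hΛ j) (by positivity)) hl0.le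
      _ = 12 * N * √(N : ℝ) * (l ^ 3 / l) := by field_simp; ring
      _ ≤ 12 * N * √(N : ℝ) * (K * √(N : ℝ) / l) := mul_le_mul_of_nonneg_left
          (div_le_div_of_nonneg_right (hl ▸ hpow N hN1) hl0.le) (by positivity)
      _ = 12 * K * ((N : ℝ) * (√(N : ℝ) * √(N : ℝ)) / l) := by ring
      _ = _ := by rw [Real.mul_self_sqrt (Nat.cast_nonneg N), sq]
  have t1 : triple powerPart (Λ ·) (Λ ·) N ≤ 12 * K * ((N : ℝ) ^ 2 / l) :=
    hone _ (triple_le powerPart_nonneg hΛ hl0.le hmax)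
  have t2 : triple (Λ ·) powerPart (Λ ·) N ≤ 12 * K * ((N : ℝ) ^ 2 / l) :=
    hone _ (((triple_le hΛ powerPart_nonneg hl0.le hmax)).trans (le_of_eq (by ring)))
  have t3 : triple (Λ ·) (Λ ·) powerPart N ≤ 12 * K * ((N : ℝ) ^ 2 / l) := by
    rw [triple_swap]
    exact hone _ (((triple_le hΛ powerPart_nonneg hl0.le hmax)).trans (le_of_eq (by ring)))
  have hlow := (abs_le.1 (h N hN2)).1
  rw [pow_one, ← hl] at hlow
  have hS := mul_le_mul_of_nonneg_right (half_le_singularSeries hodd)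
    (show 0 ≤ (N : ℝ) ^ 2 / 2 by positivity)
  have hkey : (N : ℝ) ^ 2 / 4 ≤ (C + 36 * K) * ((N : ℝ) ^ 2 / l) := by linarith
  have hfin : (N : ℝ) ^ 2 / 4 * l ≤ (C + 36 * K) * (N : ℝ) ^ 2 := by
    have := mul_le_mul_of_nonneg_right hkey hl0.le
    rwa [mul_assoc, div_mul_cancel₀ _ hl0.ne'] at this
  have hN2' : 0 < (N : ℝ) ^ 2 := by positivity
  nlinarith

end FA.ThreePrimes
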