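import Fermat.Agent.ThreePrimes.Major
import Mathlib.NumberTheory.DiophantineApproximation.Basic

/-!
# The circle method on the points `h / (3 N)`

`∑_{n₁ + n₂ + n₃ = N} Λ n₁ Λ n₂ Λ n₃ = 𝔖 N N² / 2 + O (N² / (log N) ^ e)` for every `e`.
-/

set_option autoImplicit false

noncomputable section

namespace FA.ThreePrimes

open Finset Complex ArithmeticFunction
open scoped Real

theorem nearDist_sub_sub_le (x y z : ℝ) :
    nearDist (x - y) ≤ nearDist (z - x) + nearDist (z - y) := by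
  refine (nearDist_le_abs_sub _ (round (z - y) - round (z - x))).trans ?_
  unfold nearDist
  have h := abs_sub ((z - y) - (round (z - y) : ℝ)) ((z - x) - (round (z - x) : ℝ))
  rw [show (z - y) - (round (z - y) : ℝ) - ((z - x) - (round (z - x) : ℝ)) =
    x - y - ((round (z - y) : ℝ) - (round (z - x) : ℝ)) by ring] at h
  push_cast
  linarith

/-- The pairs `(q, r)` with `q ≤ P`. -/
def arcCentres (P : ℕ) : Finset (Σ _ : ℕ, ℕ) := (Icc 1 P).sigma unitResidues

/-- The centre. -/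
def centre (z : Σ _ : ℕ, ℕ) : ℝ := (z.2 : ℝ) / z.1

theorem mem_arcCentres {P : ℕ} {z : Σ _ : ℕ, ℕ} : z ∈ arcCentres P ↔
    (1 ≤ z.1 ∧ z.1 ≤ P) ∧ z.2 < z.1 ∧ z.1.Coprime z.2 := by
  simp [arcCentres, unitResidues, mem_sigma]

theorem inv_mul_le_nearDist_centre {P : ℕ} {z w : Σ _ : ℕ, ℕ} (hz : z ∈ arcCentres P)
    (hw : w ∈ arcCentres P) (hne : z ≠ w) :
    1 / ((P : ℝ) * P) ≤ nearDist (centre z - centre w) := by
  obtain ⟨q, r⟩ := z
  obtain ⟨q', r'⟩ := w
  rw [mem_arcCentres] at hz hw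
  obtain ⟨⟨hq, hqP⟩, hr, hc⟩ := hz
  obtain ⟨⟨hq', hqP'⟩, hr', hc'⟩ := hw
  simp only at hq hqP hr hc hq' hqP' hr' hc'
  obtain ⟨k, hk⟩ : ∃ k, k = round (centre ⟨q, r⟩ - centre ⟨q', r'⟩) := ⟨_, rfl⟩
  have hnum : (r : ℤ) * q' - r' * q - k * (q * q') ≠ 0 := by
    intro h
    have d1 : q ∣ q' := by
      have : (q : ℤ) ∣ (r : ℤ) * q' := ⟨r' + k * q', by linarith⟩
      exact hc.dvd_of_dvd_mul_left (Int.natCast_dvd_natCast.1 (by exact_mod_cast this))
    have d2 : q' ∣ q := by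
      have : (q' : ℤ) ∣ (r' : ℤ) * q := ⟨r - k * q, by linarith⟩
      exact hc'.dvd_of_dvd_mul_left (Int.natCast_dvd_natCast.1 (by exact_mod_cast this))
    obtain rfl := Nat.dvd_antisymm d1 d2
    have h1 : (r : ℤ) - r' = k * q :=
      mul_right_cancel₀ (Int.natCast_ne_zero.2 (by omega : q ≠ 0)) (by linarith)
    rcases lt_trichotomy k 0 with hk0 | hk0 | hk0
    · nlinarith
    · rw [hk0, zero_mul] at h1
      exact hne (by rw [show r = r' by omega])
    · nlinarith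
  rw [nearDist, ← hk]
  have hq0 : (0 : ℝ) < q := Nat.cast_pos.2 hq
  have hq0' : (0 : ℝ) < q' := Nat.cast_pos.2 hq'
  have e : centre ⟨q, r⟩ - centre ⟨q', r'⟩ - (k : ℝ) =
      (((r : ℤ) * q' - r' * q - k * (q * q') : ℤ) : ℝ) / ((q : ℝ) * q') := by
    simp only [centre]
    push_cast
    field_simp
  rw [e, abs_div, abs_of_pos (mul_pos hq0 hq0')]
  refine div_le_div₀ (abs_nonneg _) ?_ (mul_pos hq0 hq0')
    (mul_le_mul (Nat.cast_le.2 hqP) (Nat.cast_le.2 hqP') hq0'.le (Nat.cast_nonneg P))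
  rw [← Int.cast_abs]
  exact_mod_cast Int.one_le_abs hnum

/-- The arc about the centre `z`. -/
def arc (M : ℕ) (δ : ℝ) (z : Σ _ : ℕ, ℕ) : Finset ℕ :=
  (range M).filter fun h => nearDist ((h : ℝ) / M - centre z) ≤ δ

theorem sum_clip_grid_le {M : ℕ} [NeZero M] (c : ℝ) {Z : ℝ} (hZ : 0 ≤ Z) :
    ∑ h ∈ range M, clip Z ((h : ℝ) / M - c) ≤ 5 * Z + 2 * M * (1 + Real.log M) := by
  refine le_trans (le_of_eq (sum_congr rfl fun h _ => ?_))
    (sum_clip_period_le (q := M) (a := 1) (by simp) (-c) (δ := fun _ => 0) (fun r _ => by simp) hZ)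
  congr 1
  push_cast
  ring

theorem card_arc_le {M : ℕ} [NeZero M] {δ : ℝ} (hδ : 0 < δ) (z : Σ _ : ℕ, ℕ) :
    ((arc M δ z).card : ℝ) ≤ 5 + 4 * M * δ * (1 + Real.log M) := by
  have hZ : 0 < 1 / (2 * δ) := by positivity
  have h : ((arc M δ z).card : ℝ) * (1 / (2 * δ)) ≤
      5 * (1 / (2 * δ)) + 2 * M * (1 + Real.log M) := by
    refine le_trans ?_ ((sum_le_sum_of_subset_of_nonneg
      (filter_subset (fun h : ℕ => nearDist ((h : ℝ) / M - centre z) ≤ δ) (range M))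
      fun i _ _ => clip_nonneg hZ.le _).trans (sum_clip_grid_le (centre z) hZ.le))
    refine le_trans (le_of_eq ?_) (card_nsmul_le_sum _ _ (1 / (2 * δ)) fun i hi => ?_)
    · rw [nsmul_eq_mul, arc]
    · rw [mem_filter] at hi
      unfold clip
      split_ifs with h0
      · exact le_rfl
      · refine le_min le_rfl (one_div_le_one_div_of_le ?_ (by linarith [hi.2]))
        linarith [lt_of_le_of_ne (nearDist_nonneg ((i : ℝ) / M - centre z)) (Ne.symm h0)]
  have h2 := mul_le_mul_of_nonneg_right h (show 0 ≤ 2 * δ by linarith)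
  rw [mul_assoc, one_div, inv_mul_cancel₀ (by linarith), mul_one] at h2
  refine h2.trans (le_of_eq ?_)
  field_simp
  ring

theorem norm_cube_sub_le {x y : ℂ} {R : ℝ} (hx : ‖x‖ ≤ R) (hy : ‖y‖ ≤ R) :
    ‖x ^ 3 - y ^ 3‖ ≤ 3 * R ^ 2 * ‖x - y‖ := by
  have hR : 0 ≤ R := (norm_nonneg x).trans hx
  rw [show x ^ 3 - y ^ 3 = (x - y) * (x * x + x * y + y * y) by ring, norm_mul,
    mul_comm (3 * R ^ 2)]
  refine mul_le_mul_of_nonneg_left ((norm_add₃_le).trans ?_) (norm_nonneg _)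
  simp only [norm_mul]
  have h1 := mul_le_mul hx hx (norm_nonneg _) hR
  have h2 := mul_le_mul hx hy (norm_nonneg _) hR
  have h3 := mul_le_mul hy hy (norm_nonneg _) hR
  linarith

/-- The main summand. -/
def mainSummand (N : ℕ) (x : ℝ) : ℂ := geomSum N x ^ 3 * eAdd (-(N * x))

theorem geomSum_sub_intCast (N : ℕ) (x : ℝ) (k : ℤ) : geomSum N (x - k) = geomSum N x := by
  refine sum_congr rfl fun n _ => ?_
  rw [show (n : ℝ) * (x - k) = n * x + ((-(n * k) : ℤ) : ℝ) by push_cast; ring, eAdd_add_intCast]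

theorem sum_mainSummand_grid {N M : ℕ} (hM : 3 * N ≤ M) (θ : ℝ) :
    ∑ h ∈ range M, mainSummand N ((h : ℝ) / M + θ) = M * tripleSum (fun _ => 1) N := by
  rw [← sum_cube_grid (fun _ => (1 : ℂ)) hM θ]
  refine sum_congr rfl fun h _ => ?_
  simp only [mainSummand, geomSum, trigSum, one_mul]
  rfl

theorem sum_nat_pred (n : ℕ) (hn : 1 ≤ n) :
    2 * (∑ m ∈ range n, (((m - 1 : ℕ) : ℕ) : ℝ)) + 3 * n = (n : ℝ) ^ 2 + 2 := by
  induction n, hn using Nat.le_induction with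
  | base => norm_num
  | succ k hk ih =>
    rw [sum_range_succ, Nat.cast_sub hk]
    push_cast
    linarith

theorem abs_tripleSum_one_sub_le {N : ℕ} (hN : 1 ≤ N) :
    ‖tripleSum (fun _ => 1) N - ((N : ℝ) ^ 2 / 2 : ℝ)‖ ≤ 2 * N := by
  have e : tripleSum (fun _ => 1) N = ((∑ m ∈ range N, (((m - 1 : ℕ) : ℕ) : ℝ) : ℝ) : ℂ) := by
    rw [← sum_range_reflect (fun m => (((m - 1 : ℕ) : ℕ) : ℝ)) N, tripleSum,
      show Icc 1 N = Ico 1 (N + 1) by ext; simp, sum_Ico_eq_sum_range, Nat.add_sub_cancel,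
      Complex.ofReal_sum]
    refine sum_congr rfl fun i hi => ?_
    rw [mem_range] at hi
    rw [Complex.ofReal_natCast, show (((N - 1 - i - 1 : ℕ) : ℕ) : ℂ) =
      ∑ _j ∈ range (N - 1 - i - 1), (1 : ℂ) by simp,
      show Ico 1 (N + 1) = Icc 1 N by ext; simp]
    rw [← sum_filter_add_sum_filter_not (Icc 1 N) (fun j => 1 + i + j < N)]
    have hz : ∀ j ∈ (Icc 1 N).filter (fun j => ¬(1 + i + j < N)),
        (∑ k ∈ Icc 1 N, if 1 + i + j + k = N then (1 : ℂ) * 1 * 1 else 0) = 0 := by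
      intro j hj
      rw [mem_filter] at hj
      refine sum_eq_zero fun k hk => ?_
      rw [mem_Icc] at hk
      rw [if_neg (by omega)]
    rw [sum_eq_zero hz, add_zero, show (Icc 1 N).filter (fun j => 1 + i + j < N) =
      Icc 1 (N - 1 - i - 1) by ext; simp; omega]
    rw [show Icc 1 (N - 1 - i - 1) = Ico (0 + 1) (N - 1 - i - 1 + 1) by ext; simp,
      ← sum_Ico_add', ← range_eq_Ico]
    refine sum_congr rfl fun j hj => ?_
    rw [mem_range] at hj
    rw [sum_eq_single (N - (1 + i + (j + 1)))]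
    · rw [if_pos (by omega)]
      norm_num
    · intro k _ hk
      rw [if_neg (by omega)]
    · intro h
      exact absurd (mem_Icc.2 ⟨by omega, by omega⟩) h
  have h := sum_nat_pred N hN
  have hN' : (1 : ℝ) ≤ N := by exact_mod_cast hN
  rw [e, ← Complex.ofReal_sub, Complex.norm_real, Real.norm_eq_abs, abs_le]
  constructor <;> linarith

theorem twist_eq_trigSum (α : ℝ) (N : ℕ) :
    twist α Λ N = trigSum (fun n => (Λ n : ℂ)) N α := rfl

theorem norm_twist_le (α : ℝ) (N : ℕ) : ‖twist α Λ N‖ ≤ 6 * N := by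
  refine (norm_sum_le _ _).trans (le_of_eq_of_le (sum_congr rfl fun n _ => ?_)
    (sum_vonMangoldt_le N))
  rw [norm_mul, norm_eAdd, mul_one, Complex.norm_real, Real.norm_eq_abs,
    abs_of_nonneg vonMangoldt_nonneg]

theorem moebiusR_cube (q : ℕ) : moebiusR q ^ 3 = moebiusR q := by
  rcases ArithmeticFunction.moebius_eq_or q with h | h | h <;>
    simp [moebiusR, intCoe_apply, h] <;> norm_num

theorem exists_log_pow_le' (n : ℕ) : ∃ K : ℝ, 0 < K ∧ ∀ x : ℝ, 1 ≤ x →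
    Real.log x ^ n ≤ K * x ^ (1 / 5 : ℝ) := by
  obtain ⟨K, hK, h⟩ := exists_log_pow_le n
  refine ⟨(5 / 2) ^ n * K, by positivity, fun x hx => ?_⟩
  have h1 := h (x ^ (2 / 5 : ℝ)) (Real.one_le_rpow hx (by norm_num))
  rw [Real.log_rpow (by linarith), Real.sqrt_eq_rpow, ← Real.rpow_mul (by linarith),
    show (2 / 5 : ℝ) * (1 / 2) = 1 / 5 by norm_num] at h1
  calc Real.log x ^ n = (5 / 2) ^ n * (2 / 5 * Real.log x) ^ n := by
        rw [← mul_pow]
        ring_nf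
    _ ≤ (5 / 2) ^ n * (K * x ^ (1 / 5 : ℝ)) := mul_le_mul_of_nonneg_left h1 (by positivity)
    _ = _ := by ring

/-- **The minor arcs.** -/
theorem exists_minor_le (b : ℕ) : ∃ C : ℝ, 0 < C ∧ ∀ (N P : ℕ) (α : ℝ), 1 ≤ Real.log N →
    Real.log N ^ (2 * b) ≤ N → P = ⌊Real.log N ^ (2 * b)⌋₊ →
    (∀ z ∈ arcCentres P, Real.log N ^ (2 * b) / N < nearDist (α - centre z)) →
      ‖twist α Λ N‖ ≤ C * ((N : ℝ) * Real.log N ^ 4 / Real.log N ^ b) := by
  obtain ⟨K, hK, hpow⟩ := exists_log_pow_le' b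
  refine ⟨350 * (2 + K) * 16, by positivity, fun N P α hl hPN hP hout => ?_⟩
  have hN : 0 < N := by
    rcases Nat.eq_zero_or_pos N with rfl | h
    · norm_num at hl
    · exact h
  have hN1 : (1 : ℝ) ≤ N := by exact_mod_cast hN
  obtain ⟨l, hlr⟩ : ∃ l, l = Real.log N := ⟨_, rfl⟩
  rw [← hlr] at hl hPN hP hout ⊢
  obtain ⟨R, hR⟩ : ∃ R, R = l ^ (2 * b) := ⟨_, rfl⟩
  rw [← hR] at hPN hP hout
  have hR1 : 1 ≤ R := hR ▸ one_le_pow₀ hl
  obtain ⟨n, hn⟩ : ∃ n, n = ⌊(N : ℝ) / R⌋₊ := ⟨_, rfl⟩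
  have hn0 : 0 < n := hn ▸ Nat.floor_pos.2 ((one_le_div (by linarith)).2 hPN)
  obtain ⟨ρ, hρ, hρn⟩ := Real.exists_rat_abs_sub_le_and_den_le α hn0
  obtain ⟨q, hq⟩ : ∃ q, q = ρ.den := ⟨_, rfl⟩
  have : NeZero q := ⟨hq ▸ ρ.den_ne_zero⟩
  have hq0 : (0 : ℝ) < q := Nat.cast_pos.2 (NeZero.pos q)
  have hρv : (ρ : ℝ) = (ρ.num : ℝ) / q := by rw [hq, Rat.cast_def]
  rw [hρv, ← hq] at hρ
  have hunit : IsUnit (ρ.num : ZMod q) := by
    rw [ZMod.coe_int_isUnit_iff_isCoprime, isCoprime_comm, Int.isCoprime_iff_nat_coprime, hq]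
    simpa using ρ.reduced
  have hn1 : (N : ℝ) / R ≤ (n : ℝ) + 1 := hn ▸ (Nat.lt_floor_add_one _).le
  have hqR : R < q := by
    by_contra hle
    rw [not_lt] at hle
    obtain ⟨r, hr⟩ : ∃ r, r = (ρ.num : ZMod q).val := ⟨_, rfl⟩
    have hmem : (⟨q, r⟩ : Σ _ : ℕ, ℕ) ∈ arcCentres P := by
      refine mem_arcCentres.2 ⟨⟨NeZero.pos q, hP ▸ Nat.le_floor hle⟩, hr ▸ ZMod.val_lt _, ?_⟩
      have h1 : IsUnit ((r : ℕ) : ZMod q) := by rwa [hr, ZMod.natCast_zmod_val]
      exact ((ZMod.isUnit_iff_coprime r q).1 h1).symm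
    obtain ⟨m, hm⟩ : (q : ℤ) ∣ ρ.num - r := by
      rw [← ZMod.intCast_zmod_eq_zero_iff_dvd, hr]
      push_cast
      rw [ZMod.natCast_zmod_val, sub_self]
    have h2 : nearDist (α - centre ⟨q, r⟩) ≤ R / N := by
      refine (nearDist_le_abs_sub _ m).trans ?_
      have e : α - centre ⟨q, r⟩ - (m : ℝ) = α - (ρ.num : ℝ) / q := by
        have h3 : (ρ.num : ℝ) - r = q * m := by exact_mod_cast hm
        simp only [centre]
        field_simp
        linarith
      rw [e]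
      refine hρ.trans ?_
      rw [div_le_div_iff₀ (by positivity) (Nat.cast_pos.2 hN), one_mul]
      have h4 : (N : ℝ) ≤ R * ((n : ℝ) + 1) := by
        rw [div_le_iff₀ (by linarith)] at hn1
        linarith
      refine h4.trans (mul_le_mul_of_nonneg_left ?_ (by linarith))
      refine le_mul_of_one_le_right (by positivity) ?_
      exact_mod_cast NeZero.pos q
    exact absurd (hout _ hmem) (not_lt.2 h2)
  have hqn : (q : ℝ) ≤ (n : ℝ) + 1 := by
    have : (q : ℝ) ≤ n := Nat.cast_le.2 (hq ▸ hρn)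
    linarith
  have hqq : (q : ℝ) ^ 2 ≤ ((n : ℝ) + 1) * q := by
    rw [sq]
    exact mul_le_mul_of_nonneg_right hqn hq0.le
  have hα : |α - (ρ.num : ℝ) / q| ≤ 1 / (q : ℝ) ^ 2 :=
    hρ.trans (one_div_le_one_div_of_le (by positivity) hqq)
  refine (norm_vonMangoldt_twist_le hunit hα).trans ?_
  have hl0 : 0 < l := by linarith
  have hsR : √R = l ^ b := by rw [hR, pow_mul', Real.sqrt_sq (by positivity)]
  have t1 : (N : ℝ) / √(q : ℝ) ≤ N / l ^ b :=
    div_le_div_of_nonneg_left (Nat.cast_nonneg N) (by positivity)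
      (hsR ▸ Real.sqrt_le_sqrt hqR.le)
  have t2 : √((N : ℝ) * q) ≤ N / l ^ b := by
    have h1 : (q : ℝ) ≤ N / R :=
      (Nat.cast_le.2 (hq ▸ hρn)).trans (hn ▸ Nat.floor_le (by positivity))
    refine (Real.sqrt_le_sqrt (mul_le_mul_of_nonneg_left h1 (Nat.cast_nonneg N))).trans ?_
    rw [mul_div_assoc', Real.sqrt_div (by positivity), Real.sqrt_mul_self (Nat.cast_nonneg N), hsR]
  have t3 : (N : ℝ) ^ (4 / 5 : ℝ) ≤ K * (N / l ^ b) := by
    rw [mul_div_assoc', le_div_iff₀ (by positivity)]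
    calc (N : ℝ) ^ (4 / 5 : ℝ) * l ^ b ≤ (N : ℝ) ^ (4 / 5 : ℝ) * (K * (N : ℝ) ^ (1 / 5 : ℝ)) :=
          mul_le_mul_of_nonneg_left (hlr ▸ hpow N hN1) (by positivity)
      _ = _ := by
          rw [mul_left_comm, ← Real.rpow_add (by linarith)]
          norm_num
  have t4 : logOne N ^ 4 ≤ 16 * l ^ 4 := by
    refine (pow_le_pow_left₀ (by linarith [one_le_logOne N]) (show logOne N ≤ 2 * l by
      rw [logOne, ← hlr]; linarith) 4).trans (le_of_eq (by ring))
  calc 350 * ((N : ℝ) / √(q : ℝ) + (N : ℝ) ^ (4 / 5 : ℝ) + √((N : ℝ) * q)) * logOne N ^ 4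
      ≤ 350 * ((2 + K) * (N / l ^ b)) * (16 * l ^ 4) := by
        refine mul_le_mul (by linarith) t4 (pow_nonneg (by linarith [one_le_logOne N]) 4) ?_
        positivity
    _ = _ := by ring

/-- **The asymptotic formula**, for large `N`. -/
theorem exists_asymptotic_large (e : ℕ) : ∃ (C : ℝ) (N₀ : ℕ), 0 < C ∧ ∀ N : ℕ, N₀ ≤ N →
    ‖tripleSum (fun n => (Λ n : ℂ)) N - ((singularSeries N * ((N : ℝ) ^ 2 / 2) : ℝ) : ℂ)‖ ≤
      C * ((N : ℝ) ^ 2 / Real.log N ^ e) := by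
  obtain ⟨b, hb⟩ : ∃ b, b = 2 * e + 6 := ⟨_, rfl⟩
  obtain ⟨C₁, hC₁, hmin⟩ := exists_minor_le b
  obtain ⟨C₂, hC₂, hmaj⟩ := exists_major_approx (2 * b) (7 * b + 2)
  obtain ⟨Cs, hCs, hser⟩ := exists_singular_tail
  obtain ⟨K, hK, hpow⟩ := exists_log_pow_le (6 * b)
  obtain ⟨K', hK', hpow'⟩ := exists_log_pow_le e
  obtain ⟨Z₀, hZ₀⟩ : ∃ Z₀ : ℝ, Z₀ = 4 * ∑' q : ℕ, (q : ℝ) ^ (-(3 / 2) : ℝ) := ⟨_, rfl⟩
  have hZ₀0 : 0 ≤ Z₀ := hZ₀ ▸ mul_nonneg (by norm_num) (tsum_nonneg fun q => by positivity)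
  refine ⟨6 * C₁ + 1500 * C₂ + 20 * Z₀ + 2 * Cs * K' + Cs,
    max (⌈(2 * K + 1) ^ 2⌉₊) 8, by positivity, fun N hN => ?_⟩
  have hN8 : 8 ≤ N := le_trans (le_max_right _ _) hN
  have hN0 : 0 < N := by omega
  have hN1 : (1 : ℝ) ≤ N := by exact_mod_cast hN0
  obtain ⟨l, hl⟩ : ∃ l, l = Real.log N := ⟨_, rfl⟩
  have hl2 : 2 ≤ l := by
    rw [hl, Real.le_log_iff_exp_le (by linarith), show (2 : ℝ) = ((2 : ℕ) : ℝ) * 1 by norm_num,
      Real.exp_nat_mul]
    have h8 : (8 : ℝ) ≤ N := by exact_mod_cast hN8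
    have h3 : Real.exp 1 ≤ 2.7182818286 := Real.exp_one_lt_d9.le
    refine le_trans ?_ h8
    nlinarith [Real.exp_pos 1]
  have hl1 : 1 ≤ l := by linarith
  have hl0 : 0 < l := by linarith
  rw [← hl]
  obtain ⟨R, hR⟩ : ∃ R, R = l ^ (2 * b) := ⟨_, rfl⟩
  have hR1 : 1 ≤ R := hR ▸ one_le_pow₀ hl1
  have hR3 : 2 * R ^ 3 < N := by
    have h1 : (2 * K + 1) ^ 2 ≤ (N : ℝ) :=
      (Nat.le_ceil _).trans (Nat.cast_le.2 (le_trans (le_max_left _ _) hN))
    have h2 : 2 * K < √(N : ℝ) := by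
      rw [Real.lt_sqrt (by positivity)]
      nlinarith
    rw [hR, ← pow_mul, show 2 * b * 3 = 6 * b by ring]
    calc 2 * l ^ (6 * b) ≤ 2 * K * √(N : ℝ) := by
          rw [mul_assoc]
          exact mul_le_mul_of_nonneg_left (hl ▸ hpow N hN1) two_pos.le
      _ < √(N : ℝ) * √(N : ℝ) := mul_lt_mul_of_pos_right h2 (Real.sqrt_pos.2 (by linarith))
      _ = N := Real.mul_self_sqrt (Nat.cast_nonneg N)
  have hRN : R ≤ N := by
    have : R ≤ R ^ 3 := le_self_pow₀ hR1 (by norm_num)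
    linarith
  obtain ⟨P, hP⟩ : ∃ P, P = ⌊R⌋₊ := ⟨_, rfl⟩
  have hPR : (P : ℝ) ≤ R := hP ▸ Nat.floor_le (by linarith)
  obtain ⟨M, hM⟩ : ∃ M, M = 3 * N := ⟨_, rfl⟩
  have : NeZero M := ⟨by omega⟩
  have hM' : (M : ℝ) = 3 * N := by rw [hM]; push_cast; ring
  have hlogM : 1 + Real.log M ≤ 3 * l := by
    rw [hM', Real.log_mul (by norm_num) (by linarith), ← hl]
    have : Real.log 3 ≤ 2 := by
      rw [Real.log_le_iff_le_exp (by norm_num)]
      linarith [Real.add_one_le_exp 2]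
    linarith
  obtain ⟨δ, hδ⟩ : ∃ δ, δ = R / N := ⟨_, rfl⟩
  have hδ0 : 0 < δ := by rw [hδ]; positivity
  have hdisj : ((arcCentres P : Finset _) : Set (Σ _ : ℕ, ℕ)).PairwiseDisjoint (arc M δ) := by
    intro z hz w hw hne
    rw [Function.onFun, disjoint_left]
    intro h h1 h2
    rw [arc, mem_filter] at h1 h2
    have h3 := (inv_mul_le_nearDist_centre hz hw hne).trans
      ((nearDist_sub_sub_le _ _ _).trans (add_le_add h1.2 h2.2))
    have hP0 : 0 < (P : ℝ) := Nat.cast_pos.2 (hP ▸ Nat.floor_pos.2 hR1)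
    rw [hδ, div_le_iff₀ (by positivity)] at h3
    have h4 : (R / N + R / N) * ((P : ℝ) * P) ≤ (R / N + R / N) * (R * R) :=
      mul_le_mul_of_nonneg_left (mul_le_mul hPR hPR hP0.le (by linarith)) (by positivity)
    have h5 : (R / N + R / N) * (R * R) < 1 := by
      rw [show (R / N + R / N) * (R * R) = 2 * R ^ 3 / N by ring, div_lt_one (by linarith)]
      exact hR3
    linarith
  obtain ⟨F, hF⟩ : ∃ F : ℕ → ℂ, F = fun h : ℕ =>
      twist ((h : ℝ) / M) Λ N ^ 3 * eAdd (-(N * ((h : ℝ) / M))) := ⟨_, rfl⟩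
  obtain ⟨minor, hminor⟩ : ∃ m, m = (range M) \ (arcCentres P).biUnion (arc M δ) := ⟨_, rfl⟩
  obtain ⟨c, hc⟩ : ∃ c : (Σ _ : ℕ, ℕ) → ℂ, c = fun z =>
      (((moebiusR z.1 / z.1.totient) ^ 3 : ℝ) : ℂ) * eAdd (-(N * centre z)) := ⟨_, rfl⟩
  -- the total
  have htotal : ∑ h ∈ range M, F h = M * tripleSum (fun n => (Λ n : ℂ)) N := by
    rw [← sum_cube_grid (fun n => (Λ n : ℂ)) (show 3 * N ≤ M by omega) 0, hF]
    refine sum_congr rfl fun h _ => ?_
    simp only [add_zero, twist_eq_trigSum]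
  have hdecomp : ∑ h ∈ range M, F h =
      ∑ h ∈ minor, F h + ∑ z ∈ arcCentres P, ∑ h ∈ arc M δ z, F h := by
    rw [← sum_biUnion hdisj, hminor, sum_sdiff]
    exact biUnion_subset.2 fun z _ => filter_subset _ _
  -- the minor arcs
  have p1 : ‖∑ h ∈ minor, F h‖ ≤ C₁ * (N * l ^ 4 / l ^ b) * (M * (6 * N * l)) := by
    refine (norm_sum_le _ _).trans ((sum_le_sum (g := fun h : ℕ =>
      C₁ * (N * l ^ 4 / l ^ b) * ‖twist ((h : ℝ) / M) Λ N‖ ^ 2) fun h hh => ?_).trans ?_)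
    · rw [hminor, mem_sdiff, mem_biUnion] at hh
      rw [hF, norm_mul, norm_eAdd, mul_one, norm_pow, pow_succ' _ 2]
      refine mul_le_mul_of_nonneg_right ?_ (sq_nonneg _)
      have := hmin N P ((h : ℝ) / M) (hl ▸ hl1) (hl ▸ hR ▸ hRN) (by rw [hP, hR, hl])
        fun z hz => ?_
      · rwa [← hl] at this
      · rw [← hl, ← hR, ← hδ]
        by_contra hle
        exact hh.2 ⟨z, hz, mem_filter.2 ⟨hh.1, not_lt.1 hle⟩⟩
    · rw [← mul_sum]
      refine mul_le_mul_of_nonneg_left ?_ (by positivity)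
      refine (sum_le_sum_of_subset_of_nonneg (hminor ▸ sdiff_subset)
        fun i _ _ => sq_nonneg _).trans ?_
      simp only [twist_eq_trigSum]
      rw [sum_norm_sq_grid (fun n => (Λ n : ℂ)) (show N < M by omega)]
      refine mul_le_mul_of_nonneg_left ?_ (Nat.cast_nonneg M)
      refine (sum_le_sum (g := fun n => l * Λ n) fun n hn => ?_).trans ?_
      · rw [mem_Icc] at hn
        rw [Complex.norm_real, Real.norm_eq_abs, sq_abs, sq, hl]
        exact mul_le_mul_of_nonneg_right (vonMangoldt_le_log.trans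
          (Real.log_le_log (Nat.cast_pos.2 hn.1) (Nat.cast_le.2 hn.2))) vonMangoldt_nonneg
      · rw [← mul_sum, mul_comm _ l]
        exact mul_le_mul_of_nonneg_left (sum_vonMangoldt_le N) hl0.le
  -- one major arc
  have p2 : ∀ z ∈ arcCentres P, ∀ h ∈ arc M δ z,
      ‖F h - c z * mainSummand N ((h : ℝ) / M + -centre z)‖ ≤
        108 * N ^ 2 * (C₂ * (N / l ^ (7 * b + 2))) := by
    rintro ⟨q, r⟩ hz h hh
    rw [mem_arcCentres] at hz
    obtain ⟨⟨hq1, hqP⟩, -, hcop⟩ := hz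
    simp only at hq1 hqP hcop
    have : NeZero q := ⟨by omega⟩
    rw [arc, mem_filter, nearDist] at hh
    obtain ⟨k, hk⟩ : ∃ k, k = round ((h : ℝ) / M - centre ⟨q, r⟩) := ⟨_, rfl⟩
    obtain ⟨β, hβ⟩ : ∃ β, β = (h : ℝ) / M - centre ⟨q, r⟩ - k := ⟨_, rfl⟩
    rw [← hk, ← hβ] at hh
    have hq0 : (q : ℝ) ≠ 0 := Nat.cast_ne_zero.2 (by omega)
    have hα : (h : ℝ) / M = (((r : ℤ) + k * q : ℤ) : ℝ) / q + β := by
      rw [hβ, centre]
      push_cast
      field_simp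
      ring
    have hunit : IsUnit (((r : ℤ) + k * q : ℤ) : ZMod q) := by
      push_cast
      rw [ZMod.natCast_self, mul_zero, add_zero]
      exact (ZMod.isUnit_iff_coprime r q).2 hcop.symm
    have happ := hmaj N q ((r : ℤ) + k * q) β (by omega) hunit
      (by rw [← hl, ← hR]; exact (Nat.cast_le.2 hqP).trans hPR)
      (by
        rw [← hl, ← hR, ← le_div_iff₀ (by linarith), ← hδ]
        exact hh.2)
    rw [← hα, ← hl] at happ
    rw [hF, hc]
    simp only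
    rw [mainSummand, ← sub_eq_add_neg, ← geomSum_sub_intCast N _ k, ← hβ]
    have e : eAdd (-((N : ℝ) * centre ⟨q, r⟩)) * eAdd (-(N * ((h : ℝ) / M - centre ⟨q, r⟩))) =
        eAdd (-(N * ((h : ℝ) / M))) := by
      rw [← eAdd_add]
      ring_nf
    rw [mul_mul_mul_comm, e, ← sub_mul, norm_mul, norm_eAdd, mul_one, Complex.ofReal_pow,
      ← mul_pow]
    refine (norm_cube_sub_le (R := 6 * N) (norm_twist_le _ _) ?_).trans ?_
    · rw [norm_mul, Complex.norm_real, Real.norm_eq_abs]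
      refine (mul_le_mul (show |moebiusR q / q.totient| ≤ 1 from ?_)
        (show ‖geomSum N β‖ ≤ 6 * N from ?_) (norm_nonneg _) zero_le_one).trans
          (le_of_eq (one_mul _))
      · rw [abs_div, Nat.abs_cast]
        exact div_le_one_of_le₀ ((abs_moebiusR_le q).trans
          (by exact_mod_cast Nat.totient_pos.2 hq1)) (Nat.cast_nonneg _)
      · refine (norm_sum_le _ _).trans ?_
        simp [norm_eAdd]
        linarith
    · refine (mul_le_mul_of_nonneg_left happ (by positivity)).trans (le_of_eq ?_)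
      ring
  have hpairs : ((arcCentres P).card : ℝ) ≤ R ^ 2 := by
    have h1 : (arcCentres P).card ≤ P * P := by
      rw [arcCentres, card_sigma]
      refine (sum_le_card_nsmul _ _ P fun q hq => ?_).trans (le_of_eq ?_)
      · rw [card_unitResidues]
        exact (Nat.totient_le q).trans (mem_Icc.1 hq).2
      · simp
    refine (Nat.cast_le.2 h1).trans ?_
    push_cast
    rw [sq]
    exact mul_le_mul hPR hPR (Nat.cast_nonneg P) (by linarith)
  have p3 : ‖∑ z ∈ arcCentres P, ∑ h ∈ arc M δ z,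
      (F h - c z * mainSummand N ((h : ℝ) / M + -centre z))‖ ≤
        R ^ 2 * (41 * R * l) * (108 * N ^ 2 * (C₂ * (N / l ^ (7 * b + 2)))) := by
    refine (norm_sum_le _ _).trans ((sum_le_card_nsmul _ _
      (41 * R * l * (108 * N ^ 2 * (C₂ * (N / l ^ (7 * b + 2))))) fun z hz => ?_).trans ?_)
    · refine (norm_sum_le _ _).trans ((sum_le_card_nsmul _ _ _ (p2 z hz)).trans ?_)
      rw [nsmul_eq_mul]
      refine mul_le_mul_of_nonneg_right ((card_arc_le hδ0 z).trans ?_) (by positivity)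
      have h1 : 4 * (M : ℝ) * δ * (1 + Real.log M) ≤ 12 * R * (3 * l) := by
        refine le_trans (le_of_eq ?_) (mul_le_mul_of_nonneg_left hlogM (by positivity))
        rw [hM', hδ]
        field_simp
        ring
      have h2 : 1 * 1 ≤ R * l := mul_le_mul hR1 hl1 zero_le_one (by linarith)
      linarith
    · rw [nsmul_eq_mul, mul_assoc (R ^ 2)]
      exact mul_le_mul_of_nonneg_right hpairs (by positivity)
  -- the tails of the main summand
  have hcsum : ∑ z ∈ arcCentres P, ‖c z‖ ≤ Z₀ := by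
    rw [arcCentres, sum_sigma, hZ₀, ← tsum_mul_left]
    refine le_trans (sum_le_sum (g := fun q : ℕ => 4 * (q : ℝ) ^ (-(3 / 2) : ℝ)) fun q hq => ?_)
      (Summable.sum_le_tsum _ (fun i _ => by positivity)
        ((Real.summable_nat_rpow.2 (by norm_num)).mul_left 4))
    rw [mem_Icc] at hq
    refine (sum_le_card_nsmul _ _ (1 / (q.totient : ℝ) ^ 3) fun r _ => ?_).trans ?_
    · rw [hc, norm_mul, norm_eAdd, mul_one, Complex.norm_real, Real.norm_eq_abs, div_pow,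
        abs_div, abs_pow, abs_pow, Nat.abs_cast]
      exact div_le_div_of_nonneg_right (pow_le_one₀ (abs_nonneg _) (abs_moebiusR_le q))
        (by positivity)
    · rw [card_unitResidues, nsmul_eq_mul]
      refine le_trans (le_of_eq ?_) (inv_totient_sq_le hq.1)
      have : (q.totient : ℝ) ≠ 0 := Nat.cast_ne_zero.2 (Nat.totient_pos.2 hq.1).ne'
      field_simp
  have p4 : ∀ z ∈ arcCentres P, ‖∑ h ∈ range M \ arc M δ z,
      mainSummand N ((h : ℝ) / M + -centre z)‖ ≤ 7 * N ^ 3 * l / R ^ 2 := by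
    intro z _
    obtain ⟨Z, hZ⟩ : ∃ Z, Z = 1 / (2 * δ) := ⟨_, rfl⟩
    have hZ0 : 0 < Z := by rw [hZ]; positivity
    refine (norm_sum_le _ _).trans ((sum_le_sum (g := fun h : ℕ =>
      Z ^ 2 * clip Z ((h : ℝ) / M - centre z)) fun h hh => ?_).trans ?_)
    · rw [mem_sdiff, arc, mem_filter, not_and, not_le] at hh
      have hd := hh.2 hh.1
      rw [← sub_eq_add_neg, mainSummand, norm_mul, norm_eAdd, mul_one, norm_pow]
      have h1 := norm_geom_le ((h : ℝ) / M - centre z) 0 N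
      have h2 : clip ((N - 0 : ℕ) : ℝ) ((h : ℝ) / M - centre z) ≤
          1 / (2 * nearDist ((h : ℝ) / M - centre z)) :=
        clip_le_inv (hδ0.trans hd) le_rfl
      have h3 : 1 / (2 * nearDist ((h : ℝ) / M - centre z)) ≤ Z :=
        hZ ▸ one_div_le_one_div_of_le (by positivity) (by linarith)
      have h4 : clip Z ((h : ℝ) / M - centre z) =
          1 / (2 * nearDist ((h : ℝ) / M - centre z)) := by
        rw [clip, if_neg (by linarith), min_eq_right h3]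
      rw [h4, pow_succ _ 2]
      have h5 : ‖geomSum N ((h : ℝ) / M - centre z)‖ ≤
          1 / (2 * nearDist ((h : ℝ) / M - centre z)) := h1.trans h2
      exact mul_le_mul (pow_le_pow_left₀ (norm_nonneg _) (h5.trans h3) 2) h5 (norm_nonneg _)
        (sq_nonneg _)
    · rw [← mul_sum]
      refine (mul_le_mul_of_nonneg_left ((sum_le_sum_of_subset_of_nonneg sdiff_subset
        fun i _ _ => clip_nonneg hZ0.le _).trans (sum_clip_grid_le (centre z) hZ0.le))
        (sq_nonneg Z)).trans ?_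
      have hZN : Z = N / (2 * R) := by
        rw [hZ, hδ]
        field_simp
      rw [hZN]
      calc ((N : ℝ) / (2 * R)) ^ 2 * (5 * (N / (2 * R)) + 2 * M * (1 + Real.log M))
          ≤ ((N : ℝ) / (2 * R)) ^ 2 * (5 * (N / 2) * l + 2 * (3 * N) * (3 * l)) := by
            refine mul_le_mul_of_nonneg_left (add_le_add ?_ ?_) (sq_nonneg _)
            · have h2 : (N : ℝ) / (2 * R) ≤ N / 2 :=
                div_le_div_of_nonneg_left (Nat.cast_nonneg N) two_pos (by linarith)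
              calc 5 * ((N : ℝ) / (2 * R)) ≤ 5 * (N / 2) * 1 := by linarith
                _ ≤ _ := mul_le_mul_of_nonneg_left hl1 (by positivity)
            · rw [← hM']
              exact mul_le_mul_of_nonneg_left hlogM (by positivity)
        _ = 41 / 8 * ((N : ℝ) ^ 3 * l / R ^ 2) := by field_simp; ring
        _ ≤ _ := by
            have : 0 ≤ (N : ℝ) ^ 3 * l / R ^ 2 := by positivity
            rw [show 7 * (N : ℝ) ^ 3 * l / R ^ 2 = 7 * ((N : ℝ) ^ 3 * l / R ^ 2) by ring]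
            linarith
  have p5 : ‖∑ z ∈ arcCentres P, c z *
      ∑ h ∈ range M \ arc M δ z, mainSummand N ((h : ℝ) / M + -centre z)‖ ≤
        Z₀ * (7 * N ^ 3 * l / R ^ 2) := by
    refine (norm_sum_le _ _).trans ((sum_le_sum fun z hz => ?_).trans
      ((sum_mul _ _ _).ge.trans (mul_le_mul_of_nonneg_right hcsum (by positivity))))
    rw [norm_mul]
    exact mul_le_mul_of_nonneg_left (p4 z hz) (norm_nonneg _)
  -- the singular series
  have hcval : ∑ z ∈ arcCentres P, c z = ((∑ q ∈ Icc 1 P, singularTerm N q : ℝ) : ℂ) := by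
    rw [arcCentres, sum_sigma, Complex.ofReal_sum]
    refine sum_congr rfl fun q hq => ?_
    rw [mem_Icc] at hq
    rw [hc]
    simp only
    rw [← mul_sum, singularTerm_apply, Complex.ofReal_div, Complex.ofReal_mul,
      ramanujan_eq hq.1, div_pow, moebiusR_cube, Complex.ofReal_div]
    rw [sum_congr rfl fun r _ => show eAdd (-((N : ℝ) * centre ⟨q, r⟩)) =
      eAdd (((-N : ℤ) : ℝ) * r / q) by simp only [centre]; push_cast; ring_nf]
    push_cast
    ring
  have hident : ∑ h ∈ range M, F h -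
      (M : ℂ) * tripleSum (fun _ => 1) N * ∑ z ∈ arcCentres P, c z =
      ∑ h ∈ minor, F h + ∑ z ∈ arcCentres P, ∑ h ∈ arc M δ z,
          (F h - c z * mainSummand N ((h : ℝ) / M + -centre z)) -
        ∑ z ∈ arcCentres P, c z *
          ∑ h ∈ range M \ arc M δ z, mainSummand N ((h : ℝ) / M + -centre z) := by
    have h1 : ∀ z ∈ arcCentres P, (M : ℂ) * tripleSum (fun _ => 1) N * c z =
        ∑ h ∈ arc M δ z, c z * mainSummand N ((h : ℝ) / M + -centre z) +
          c z * ∑ h ∈ range M \ arc M δ z, mainSummand N ((h : ℝ) / M + -centre z) := by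
      intro z _
      rw [← mul_sum, ← mul_add, add_comm (∑ h ∈ arc M δ z, _), sum_sdiff
        (show arc M δ z ⊆ range M from filter_subset _ _),
        sum_mainSummand_grid (show 3 * N ≤ M by omega)]
      ring
    rw [mul_sum, sum_congr rfl h1, sum_add_distrib, hdecomp]
    simp only [sum_sub_distrib]
    ring
  obtain ⟨E, hE⟩ : ∃ E : ℝ, E = (N : ℝ) ^ 2 / l ^ e := ⟨_, rfl⟩
  rw [← hE]
  have hE0 : 0 ≤ E := by rw [hE]; positivity
  have hM0 : (0 : ℝ) < M := Nat.cast_pos.2 (NeZero.pos M)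
  have q1 : C₁ * (N * l ^ 4 / l ^ b) * (M * (6 * N * l)) ≤ M * (6 * C₁ * E) := by
    rw [show C₁ * (N * l ^ 4 / l ^ b) * ((M : ℝ) * (6 * N * l)) =
      M * (6 * C₁ * ((N : ℝ) ^ 2 * l ^ 5 / l ^ b)) by ring, hE]
    refine mul_le_mul_of_nonneg_left (mul_le_mul_of_nonneg_left ?_ (by positivity)) hM0.le
    rw [div_le_div_iff₀ (by positivity) (by positivity), mul_assoc, ← pow_add]
    exact mul_le_mul_of_nonneg_left (pow_le_pow_right₀ hl1 (by omega)) (by positivity)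
  have q2 : R ^ 2 * (41 * R * l) * (108 * N ^ 2 * (C₂ * (N / l ^ (7 * b + 2)))) ≤
      M * (1500 * C₂ * E) := by
    have h1 : R ^ 3 * l / l ^ (7 * b + 2) ≤ 1 / l ^ e := by
      rw [hR, div_le_div_iff₀ (by positivity) (by positivity), ← pow_mul, ← pow_succ, ← pow_add,
        one_mul]
      exact pow_le_pow_right₀ hl1 (by omega)
    calc R ^ 2 * (41 * R * l) * (108 * (N : ℝ) ^ 2 * (C₂ * (N / l ^ (7 * b + 2))))
        = 4428 * C₂ * (N : ℝ) ^ 3 * (R ^ 3 * l / l ^ (7 * b + 2)) := by ring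
      _ ≤ 4500 * C₂ * (N : ℝ) ^ 3 * (1 / l ^ e) :=
          mul_le_mul (by gcongr; norm_num) h1 (by positivity) (by positivity)
      _ = _ := by rw [hM', hE]; ring
  have q3 : Z₀ * (7 * N ^ 3 * l / R ^ 2) ≤ M * (20 * Z₀ * E) := by
    have h1 : l / R ^ 2 ≤ 1 / l ^ e := by
      rw [hR, div_le_div_iff₀ (by positivity) (by positivity), ← pow_mul, ← pow_succ', one_mul]
      exact pow_le_pow_right₀ hl1 (by omega)
    calc Z₀ * (7 * (N : ℝ) ^ 3 * l / R ^ 2) = Z₀ * (7 * (N : ℝ) ^ 3) * (l / R ^ 2) := by ring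
      _ ≤ Z₀ * (60 * (N : ℝ) ^ 3) * (1 / l ^ e) :=
          mul_le_mul (by gcongr; norm_num) h1 (by positivity) (by positivity)
      _ = _ := by rw [hM', hE]; ring
  obtain ⟨S, hS⟩ : ∃ S, S = ∑ q ∈ Icc 1 P, singularTerm N q := ⟨_, rfl⟩
  have hmain : ‖tripleSum (fun n => (Λ n : ℂ)) N - tripleSum (fun _ => 1) N * (S : ℂ)‖ ≤
      (6 * C₁ + 1500 * C₂ + 20 * Z₀) * E := by
    refine le_of_mul_le_mul_left ?_ hM0
    rw [← Complex.norm_natCast M, ← norm_mul, mul_sub, ← mul_assoc, hS, ← hcval, ← htotal, hident,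
      Complex.norm_natCast]
    refine (norm_sub_le _ _).trans ((add_le_add
      ((norm_add_le _ _).trans (add_le_add p1 p3)) p5).trans
      ((add_le_add (add_le_add q1 q2) q3).trans (le_of_eq ?_)))
    ring
  obtain ⟨hst, hsb⟩ := hser N P
  rw [← hS] at hst
  have hPe : ((P + 1 : ℕ) : ℝ) ^ (-(1 / 4) : ℝ) ≤ 1 / l ^ e := by
    have h1 : l ^ (4 * e) ≤ ((P + 1 : ℕ) : ℝ) := by
      refine le_trans (pow_le_pow_right₀ hl1 (show 4 * e ≤ 2 * b by omega)) ?_
      push_cast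
      rw [← hR]
      exact (hP ▸ Nat.lt_floor_add_one R).le
    refine (Real.rpow_le_rpow_of_nonpos (by positivity) h1 (by norm_num)).trans (le_of_eq ?_)
    rw [one_div (l ^ e), ← Real.rpow_natCast, ← Real.rpow_mul hl0.le, ← Real.rpow_natCast,
      ← Real.rpow_neg hl0.le]
    push_cast
    ring_nf
  have hS2 : |S| ≤ 2 * Cs := by
    have h1 : ((P + 1 : ℕ) : ℝ) ^ (-(1 / 4) : ℝ) ≤ 1 :=
      Real.rpow_le_one_of_one_le_of_nonpos (by exact_mod_cast Nat.le_add_left 1 P) (by norm_num)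
    have h2 := mul_le_mul_of_nonneg_left h1 hCs.le
    have := abs_le.1 (hst.trans h2)
    have := abs_le.1 hsb
    rw [abs_le]
    constructor <;> linarith
  have hNl : (2 * N : ℝ) ≤ K' * E := by
    have hNe : l ^ e ≤ K' * √(N : ℝ) := hl ▸ hpow' N hN1
    rw [hE, mul_div_assoc', le_div_iff₀ (by positivity)]
    calc 2 * (N : ℝ) * l ^ e ≤ 2 * N * (K' * √(N : ℝ)) :=
          mul_le_mul_of_nonneg_left hNe (by positivity)
      _ ≤ _ := by
          have h2 : 2 * √(N : ℝ) ≤ N := by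
            have : 2 ≤ √(N : ℝ) := by
              rw [Real.le_sqrt two_pos.le (Nat.cast_nonneg N)]
              have : (8 : ℝ) ≤ N := by exact_mod_cast hN8
              linarith
            calc 2 * √(N : ℝ) ≤ √(N : ℝ) * √(N : ℝ) :=
                  mul_le_mul_of_nonneg_right this (Real.sqrt_nonneg _)
              _ = N := Real.mul_self_sqrt (Nat.cast_nonneg N)
          have := mul_le_mul_of_nonneg_left h2 (show 0 ≤ K' * (N : ℝ) by positivity)
          linarith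
  have hJ : ‖(tripleSum (fun _ => 1) N - (((N : ℝ) ^ 2 / 2 : ℝ) : ℂ)) * (S : ℂ)‖ ≤
      2 * Cs * K' * E := by
    rw [norm_mul, Complex.norm_real, Real.norm_eq_abs]
    refine (mul_le_mul ((abs_tripleSum_one_sub_le hN0).trans hNl) hS2 (abs_nonneg _)
      (by positivity)).trans (le_of_eq ?_)
    ring
  have hser' : ‖((((N : ℝ) ^ 2 / 2) * (S - singularSeries N) : ℝ) : ℂ)‖ ≤ Cs * E := by
    rw [Complex.norm_real, Real.norm_eq_abs, abs_mul, abs_of_nonneg (by positivity), abs_sub_comm,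
      hE]
    calc (N : ℝ) ^ 2 / 2 * |singularSeries N - S| ≤ (N : ℝ) ^ 2 * (Cs * (1 / l ^ e)) :=
          mul_le_mul (by linarith [sq_nonneg (N : ℝ)])
            (hst.trans (mul_le_mul_of_nonneg_left hPe hCs.le)) (abs_nonneg _) (by positivity)
      _ = _ := by ring
  rw [show tripleSum (fun n => (Λ n : ℂ)) N - ((singularSeries N * ((N : ℝ) ^ 2 / 2) : ℝ) : ℂ) =
      (tripleSum (fun n => (Λ n : ℂ)) N - tripleSum (fun _ => 1) N * (S : ℂ)) +
        (tripleSum (fun _ => 1) N - (((N : ℝ) ^ 2 / 2 : ℝ) : ℂ)) * (S : ℂ) +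
        ((((N : ℝ) ^ 2 / 2) * (S - singularSeries N) : ℝ) : ℂ) by push_cast; ring]
  refine (norm_add₃_le).trans ((add_le_add (add_le_add hmain hJ) hser').trans (le_of_eq ?_))
  ring

end FA.ThreePrimes
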