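import Fermat.Agent.ThreePrimes.Exponential
import Mathlib.NumberTheory.ArithmeticFunction.VonMangoldt
import Mathlib.NumberTheory.ArithmeticFunction.Moebius
import Mathlib.NumberTheory.Chebyshev
import Mathlib.Analysis.Complex.ExponentialBounds
import Mathlib.NumberTheory.ArithmeticFunction.Misc

/-!
# Vaughan's identity and the sum `∑ Λ n e (α n)`

`Λ = Λ_{≤ U} + μ_{≤ U} * log - Λ_{≤ U} * μ_{≤ U} * 1 + Λ_{> U} * (μ_{> U} * 1)` gives
`∑_{n ≤ N} Λ n e (α n) = O ((N / √q + N ^ (4/5) + √(N q)) (log N) ^ 4)` for `|α - a / q| ≤ 1 / q²`.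
-/

set_option autoImplicit false

noncomputable section

namespace FA.ThreePrimes

open Finset Complex ArithmeticFunction
open scoped Real ComplexConjugate ArithmeticFunction.Moebius ArithmeticFunction.zeta

/-- The part up to `U`. -/
def lowPart (U : ℕ) (f : ArithmeticFunction ℝ) : ArithmeticFunction ℝ :=
  ⟨fun n => if n ≤ U then f n else 0, by simp⟩

theorem lowPart_apply (U : ℕ) (f : ArithmeticFunction ℝ) (n : ℕ) :
    lowPart U f n = if n ≤ U then f n else 0 := rfl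

/-- The part beyond `U`. -/
def highPart (U : ℕ) (f : ArithmeticFunction ℝ) : ArithmeticFunction ℝ := f - lowPart U f

theorem highPart_apply (U : ℕ) (f : ArithmeticFunction ℝ) (n : ℕ) :
    highPart U f n = if n ≤ U then 0 else f n := by
  show (f - lowPart U f) n = _
  rw [sub_eq_add_neg, ArithmeticFunction.add_apply]
  show f n + -(lowPart U f n) = _
  rw [lowPart_apply]
  split_ifs <;> ring

/-- The Möbius function with real values. -/
def moebiusR : ArithmeticFunction ℝ := (μ : ArithmeticFunction ℝ)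

/-- The constant one with real values. -/
def oneR : ArithmeticFunction ℝ := (ζ : ArithmeticFunction ℝ)

theorem abs_moebiusR_le (n : ℕ) : |moebiusR n| ≤ 1 := by
  rw [moebiusR, intCoe_apply, ← Int.cast_abs]
  exact_mod_cast abs_moebius_le_one

/-- **Vaughan's identity.** -/
theorem vaughan (U : ℕ) : Λ = lowPart U Λ + lowPart U moebiusR * ArithmeticFunction.log -
    lowPart U Λ * lowPart U moebiusR * oneR +
      highPart U Λ * (highPart U moebiusR * oneR) := by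
  have h1 : Λ * oneR = ArithmeticFunction.log := vonMangoldt_mul_zeta
  have h2 : moebiusR * oneR = 1 := coe_moebius_mul_coe_zeta
  rw [← h1]
  unfold highPart
  linear_combination (-(Λ - lowPart U Λ)) * h2

/-- `∑_{n ≤ N} f n e (n α)`. -/
def twist (α : ℝ) (f : ArithmeticFunction ℝ) (N : ℕ) : ℂ :=
  ∑ n ∈ Ioc 0 N, (f n : ℂ) * eAdd (n * α)

theorem twist_add (α : ℝ) (f g : ArithmeticFunction ℝ) (N : ℕ) :
    twist α (f + g) N = twist α f N + twist α g N := by
  simp [twist, add_mul, sum_add_distrib]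

theorem twist_sub (α : ℝ) (f g : ArithmeticFunction ℝ) (N : ℕ) :
    twist α (f - g) N = twist α f N - twist α g N := by
  rw [eq_sub_iff_add_eq, ← twist_add, sub_add_cancel]

/-- The inner sum. -/
def innerSum (α : ℝ) (g : ArithmeticFunction ℝ) (N m : ℕ) : ℂ :=
  ∑ k ∈ Ioc 0 (N / m), (g k : ℂ) * eAdd ((k : ℕ) * (m * α))

theorem twist_mul (α : ℝ) (f g : ArithmeticFunction ℝ) (N : ℕ) :
    twist α (f * g) N = ∑ m ∈ Ioc 0 N, (f m : ℂ) * innerSum α g N m := by
  trans ∑ x ∈ Ioc 0 N ×ˢ Ioc 0 N with x.1 * x.2 ≤ N,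
    (f x.1 : ℂ) * g x.2 * eAdd ((x.1 * x.2 : ℕ) * α)
  · unfold twist
    trans ∑ n ∈ Ioc 0 N, ∑ x ∈ Ioc 0 N ×ˢ Ioc 0 N with x.1 * x.2 = n,
      (f x.1 : ℂ) * g x.2 * eAdd ((x.1 * x.2 : ℕ) * α)
    · refine sum_congr rfl fun n hn => ?_
      rw [mem_Ioc] at hn
      rw [mul_apply, Nat.divisorsAntidiagonal_eq_prod_filter_of_le hn.1.ne' hn.2,
        Complex.ofReal_sum, sum_mul]
      refine sum_congr rfl fun x hx => ?_
      rw [(mem_filter.1 hx).2]
      push_cast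
      rfl
    · simp_rw [sum_filter]
      rw [sum_comm]
      exact sum_congr rfl fun _ _ => (by simp_all)
  · rw [sum_filter, sum_product]
    refine sum_congr rfl fun m hm => ?_
    rw [mem_Ioc] at hm
    rw [innerSum, mul_sum, ← sum_filter]
    refine sum_congr ?_ fun k _ => ?_
    · ext k
      simp only [mem_filter, mem_Ioc, Nat.le_div_iff_mul_le hm.1, mul_comm m k]
      constructor
      · rintro ⟨⟨h1, -⟩, h2⟩
        exact ⟨h1, h2⟩
      · rintro ⟨h1, h2⟩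
        exact ⟨⟨h1, le_trans (Nat.le_mul_of_pos_right k hm.1) h2⟩, h2⟩
    · push_cast
      ring_nf

theorem norm_twist_low_le (α : ℝ) {U N : ℕ} :
    ‖twist α (lowPart U Λ) N‖ ≤ (Real.log 4 + 4) * U := by
  refine (norm_sum_le _ _).trans (le_trans ?_ (Chebyshev.psi_le_const_mul_self (Nat.cast_nonneg U)))
  rw [Chebyshev.psi, Nat.floor_natCast]
  refine le_trans (le_of_eq (sum_congr rfl fun n _ => ?_))
    (le_of_eq_of_le (sum_filter (fun n : ℕ => n ≤ U) fun n : ℕ => Λ n).symm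
      (sum_le_sum_of_subset_of_nonneg (fun n hn => ?_) fun n _ _ => vonMangoldt_nonneg))
  · rw [norm_mul, norm_eAdd, mul_one, Complex.norm_real, Real.norm_eq_abs, lowPart_apply]
    split_ifs
    · exact abs_of_nonneg vonMangoldt_nonneg
    · exact abs_zero
  · rw [mem_filter, mem_Ioc] at hn
    rw [mem_Ioc]
    omega

/-- Abel summation for `log k`. -/
theorem norm_innerSum_log_le (α : ℝ) (N m : ℕ) :
    ‖innerSum α ArithmeticFunction.log N m‖ ≤
      Real.log (N / m : ℕ) * clip (N / m : ℕ) (m * α) := by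
  obtain ⟨K, hK⟩ : ∃ K, K = N / m := ⟨_, rfl⟩
  obtain ⟨β, hβ⟩ : ∃ β : ℝ, β = m * α := ⟨_, rfl⟩
  rw [innerSum, ← hK, ← hβ]
  rcases Nat.eq_zero_or_pos K with rfl | hK1
  · simp
  obtain ⟨D, hD⟩ : ∃ D : ℕ → ℝ, D = fun j : ℕ => Real.log ((j + 1 : ℕ) : ℝ) - Real.log j :=
    ⟨_, rfl⟩
  have hD0 : ∀ j ∈ Ico 1 K, 0 ≤ D j := fun j hj => by
    rw [mem_Ico] at hj
    rw [hD]
    exact sub_nonneg.2 (Real.log_le_log (Nat.cast_pos.2 hj.1) (Nat.cast_le.2 (Nat.le_succ j)))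
  have e : ∑ k ∈ Ioc 0 K, (ArithmeticFunction.log k : ℂ) * eAdd (k * β) =
      ∑ j ∈ Ico 1 K, (D j : ℂ) * ∑ k ∈ Ioc j K, eAdd (k * β) := by
    simp only [mul_sum]
    rw [sum_comm' (t' := Ioc 0 K) (s' := fun k => Ico 1 k)]
    · refine sum_congr rfl fun k hk => ?_
      rw [mem_Ioc] at hk
      rw [← sum_mul, ← Complex.ofReal_sum, hD, sum_Ico_sub (fun j : ℕ => Real.log (j : ℝ)) hk.1]
      simp
    · intro j k
      simp only [mem_Ico, mem_Ioc]
      omega
  rw [e]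
  refine (norm_sum_le _ _).trans ((sum_le_sum (g := fun j => D j * clip (K : ℕ) β)
    fun j hj => ?_).trans (le_of_eq ?_))
  · rw [norm_mul, Complex.norm_real, Real.norm_eq_abs, abs_of_nonneg (hD0 j hj)]
    refine mul_le_mul_of_nonneg_left ((norm_geom_le β j K).trans (clip_mono ?_ β)) (hD0 j hj)
    exact Nat.cast_le.2 (Nat.sub_le K j)
  · rw [← sum_mul, hD, sum_Ico_sub (fun j : ℕ => Real.log (j : ℝ)) hK1]
    simp

theorem norm_innerSum_one_le (α : ℝ) (N m : ℕ) :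
    ‖innerSum α oneR N m‖ ≤ clip (N / m : ℕ) (m * α) := by
  have h := norm_geom_le (m * α) 0 (N / m)
  rw [Nat.sub_zero] at h
  refine le_trans (le_of_eq ?_) h
  rw [innerSum]
  congr 1
  refine sum_congr rfl fun k hk => ?_
  rw [mem_Ioc] at hk
  simp [oneR, zeta_apply, hk.1.ne']

variable {q : ℕ} [NeZero q] {a : ℤ} {α : ℝ} {N : ℕ}

/-- `1 + log N`. -/
def logOne (N : ℕ) : ℝ := 1 + Real.log N

theorem one_le_logOne (N : ℕ) : 1 ≤ logOne N := by
  unfold logOne
  linarith [Real.log_natCast_nonneg N]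

theorem log_le_logOne {n : ℕ} (h : n ≤ 2 * N) : Real.log n ≤ logOne N := by
  rcases Nat.eq_zero_or_pos n with rfl | hn
  · simp only [Nat.cast_zero, Real.log_zero]
    linarith [one_le_logOne N]
  have hN : 0 < N := by omega
  refine (Real.log_le_log (Nat.cast_pos.2 hn) (Nat.cast_le.2 h)).trans ?_
  rw [Nat.cast_mul, Real.log_mul (by norm_num) (Nat.cast_ne_zero.2 hN.ne'), logOne]
  have := Real.log_two_lt_d9
  push_cast
  linarith

/-- **Sums of type I.** -/
theorem norm_typeOne_le (ha : IsUnit (a : ZMod q)) (hα : |α - a / q| ≤ 1 / (q : ℝ) ^ 2)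
    (hqN : q ≤ N) {K : ℕ} (hK : K ≤ N) (f g : ArithmeticFunction ℝ) {B R : ℝ} (hB : 0 ≤ B)
    (hR : 0 ≤ R) (hf : ∀ m, m ≤ N → |f m| ≤ B) (hf0 : ∀ m, K < m → f m = 0)
    (hg : ∀ m, 0 < m → ‖innerSum α g N m‖ ≤ R * clip (N / m : ℕ) (m * α)) :
    ‖twist α (f * g) N‖ ≤ B * R * (((2 * K + 4 * q) + 20 * (N : ℝ) / q) * logOne N) := by
  have h1 : ∀ m ∈ Ioc 0 N, ‖(f m : ℂ) * innerSum α g N m‖ ≤
      if m ≤ K then B * R * clip ((N : ℝ) / m) (α * m) else 0 := by
    intro m hm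
    rw [mem_Ioc] at hm
    split_ifs with h
    · rw [norm_mul, Complex.norm_real, Real.norm_eq_abs, mul_assoc, mul_comm α]
      refine mul_le_mul (hf m hm.2) ((hg m hm.1).trans (mul_le_mul_of_nonneg_left ?_ hR))
        (norm_nonneg _) hB
      exact clip_mono Nat.cast_div_le _
    · simp [hf0 m (not_le.1 h)]
  rw [twist_mul]
  refine (norm_sum_le _ _).trans ((sum_le_sum h1).trans ?_)
  rw [← sum_filter, ← mul_sum, show (Ioc 0 N).filter (· ≤ K) = Icc 1 K by
    ext; simp; omega]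
  refine mul_le_mul_of_nonneg_left ((sum_clip_div_le ha hα (Nat.cast_nonneg N) K).trans ?_)
    (mul_nonneg hB hR)
  have h2 : 1 + Real.log q ≤ logOne N := by
    unfold logOne
    linarith [Real.log_le_log (Nat.cast_pos.2 (NeZero.pos q)) (Nat.cast_le (α := ℝ).2 hqN)]
  have h3 : 1 + Real.log ((K : ℝ) + 1) ≤ 2 * logOne N := by
    have hN := lt_of_lt_of_le (NeZero.pos q) hqN
    have := log_le_logOne (N := N) (n := K + 1) (by omega)
    push_cast at this
    linarith [one_le_logOne N]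
  have := mul_le_mul_of_nonneg_left h2 (show (0 : ℝ) ≤ 2 * K + 4 * q by positivity)
  have := mul_le_mul_of_nonneg_left h3 (show (0 : ℝ) ≤ 10 * N / q by positivity)
  rw [show ((2 * (K : ℝ) + 4 * q) + 20 * (N : ℝ) / q) * logOne N =
    (2 * (K : ℝ) + 4 * q) * logOne N + 10 * N / q * (2 * logOne N) by ring]
  linarith

theorem abs_low_mul_le (U : ℕ) (m : ℕ) : |(lowPart U Λ * lowPart U moebiusR) m| ≤ Real.log m := by
  rw [mul_apply]
  refine (abs_sum_le_sum_abs _ _).trans ((sum_le_sum (g := fun x => Λ x.1) fun x _ => ?_).trans ?_)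
  · rw [abs_mul, lowPart_apply, lowPart_apply]
    have := vonMangoldt_nonneg (n := x.1)
    split_ifs <;> simp [abs_of_nonneg this, mul_le_of_le_one_right this, abs_moebiusR_le, this]
  · rw [Nat.sum_divisorsAntidiagonal (fun d _ => Λ d), vonMangoldt_sum]

theorem low_mul_eq_zero {U m : ℕ} (h : U * U < m) :
    (lowPart U Λ * lowPart U moebiusR) m = 0 := by
  rw [mul_apply]
  refine sum_eq_zero fun x hx => ?_
  rw [Nat.mem_divisorsAntidiagonal] at hx
  rw [lowPart_apply, lowPart_apply]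
  split_ifs with h1 h2
  · exact absurd (hx.1 ▸ Nat.mul_le_mul h1 h2) (not_le.2 h)
  · exact mul_zero _
  · exact zero_mul _
  · exact zero_mul _

/-- `μ_{> U} * 1`. -/
def tailCoeff (U : ℕ) : ArithmeticFunction ℝ := highPart U moebiusR * oneR

theorem abs_tailCoeff_le (U k : ℕ) : |tailCoeff U k| ≤ (k.divisors.card : ℝ) := by
  rw [tailCoeff, oneR, coe_mul_zeta_apply]
  refine (abs_sum_le_sum_abs _ _).trans ((sum_le_sum (g := fun _ => (1 : ℝ)) fun d _ => ?_).trans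
    (le_of_eq (by simp)))
  rw [highPart_apply]
  split_ifs
  · simp
  · exact abs_moebiusR_le d

theorem tailCoeff_eq_zero {U k : ℕ} (h : k ≤ U) : tailCoeff U k = 0 := by
  rw [tailCoeff, oneR, coe_mul_zeta_apply]
  refine sum_eq_zero fun d hd => ?_
  rw [highPart_apply, if_pos ((Nat.divisor_le hd).trans h)]

/-- `∑_{n ≤ K} d (n)² ≤ K (1 + log K)³`. -/
theorem sum_card_divisors_sq_le (K : ℕ) :
    ∑ n ∈ Ioc 0 K, (n.divisors.card : ℝ) ^ 2 ≤ K * logOne K ^ 3 := by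
  obtain ⟨I, hI⟩ : ∃ I, I = Ioc 0 K := ⟨_, rfl⟩
  rw [← hI]
  have e : ∀ n ∈ I, (n.divisors.card : ℝ) ^ 2 =
      ∑ d ∈ I, ∑ e ∈ I, if Nat.lcm d e ∣ n then (1 : ℝ) else 0 := by
    intro n hn
    rw [hI, mem_Ioc] at hn
    have hdiv : n.divisors = I.filter (· ∣ n) := by
      ext d
      simp only [Nat.mem_divisors, mem_filter, hI, mem_Ioc]
      constructor
      · rintro ⟨h1, -⟩
        exact ⟨⟨Nat.pos_of_dvd_of_pos h1 hn.1, (Nat.le_of_dvd hn.1 h1).trans hn.2⟩, h1⟩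
      · rintro ⟨-, h1⟩
        exact ⟨h1, hn.1.ne'⟩
    simp only [Nat.lcm_dvd_iff, ite_and]
    rw [hdiv, sq, card_filter, Nat.cast_sum, sum_mul_sum]
    refine sum_congr rfl fun d _ => sum_congr rfl fun e _ => ?_
    push_cast
    split_ifs <;> simp
  rw [sum_congr rfl e, sum_comm]
  have h1 : ∀ d ∈ I, ∑ n ∈ I, ∑ e ∈ I, (if Nat.lcm d e ∣ n then (1 : ℝ) else 0) ≤
      ∑ e ∈ I, ∑ g ∈ I, (K : ℝ) *
        ((g : ℝ) * ((if g ∣ d then (d : ℝ)⁻¹ else 0) * (if g ∣ e then (e : ℝ)⁻¹ else 0))) := by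
    intro d hd
    rw [sum_comm]
    refine sum_le_sum fun e he => ?_
    rw [hI, mem_Ioc] at hd he
    rw [sum_boole, hI, Nat.Ioc_filter_dvd_card_eq_div, ← mul_sum]
    refine Nat.cast_div_le.trans ?_
    rw [div_eq_mul_inv]
    refine mul_le_mul_of_nonneg_left ?_ (Nat.cast_nonneg K)
    refine le_trans ?_ (single_le_sum (fun g _ => by positivity) (a := Nat.gcd d e) ?_)
    · rw [if_pos (Nat.gcd_dvd_left d e), if_pos (Nat.gcd_dvd_right d e)]
      refine le_of_eq ?_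
      have h2 : ((Nat.gcd d e : ℕ) : ℝ) * (Nat.lcm d e : ℕ) = d * e := by
        exact_mod_cast Nat.gcd_mul_lcm d e
      have hg : (0 : ℝ) < (Nat.gcd d e : ℕ) := Nat.cast_pos.2 (Nat.gcd_pos_of_pos_left e hd.1)
      have hl : (0 : ℝ) < (Nat.lcm d e : ℕ) := Nat.cast_pos.2 (Nat.lcm_pos hd.1 he.1)
      rw [← mul_inv, ← h2]
      field_simp
    · rw [mem_Ioc]
      exact ⟨Nat.gcd_pos_of_pos_left e hd.1,
        (Nat.le_of_dvd hd.1 (Nat.gcd_dvd_left d e)).trans hd.2⟩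
  refine (sum_le_sum h1).trans ?_
  rw [sum_congr rfl fun d _ => sum_comm, sum_comm]
  simp only [← mul_sum, ← sum_mul]
  have hh : ∀ g ∈ I, ∑ d ∈ I, (if g ∣ d then (d : ℝ)⁻¹ else 0) ≤ (g : ℝ)⁻¹ * logOne K := by
    intro g hg
    rw [hI, mem_Ioc] at hg
    rw [← sum_filter]
    refine (sum_le_sum_of_subset_of_nonneg (t := (Icc 1 K).image (g * ·)) ?_
      fun d _ _ => by positivity).trans ?_
    · intro d hd
      rw [mem_filter, hI, mem_Ioc] at hd
      obtain ⟨j, rfl⟩ := hd.2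
      refine mem_image.2 ⟨j, mem_Icc.2 ⟨Nat.pos_of_mul_pos_left hd.1.1, ?_⟩, rfl⟩
      exact (Nat.le_mul_of_pos_left j hg.1).trans hd.1.2
    · rw [sum_image fun x _ y _ h => Nat.eq_of_mul_eq_mul_left hg.1 h]
      push_cast
      simp only [mul_inv]
      rw [← mul_sum]
      refine mul_le_mul_of_nonneg_left ?_ (by positivity)
      have := harmonic_le_one_add_log K
      rw [harmonic_eq_sum_Icc] at this
      push_cast at this
      exact this
  refine mul_le_mul_of_nonneg_left ?_ (Nat.cast_nonneg K)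
  refine (sum_le_sum (g := fun g : ℕ => (g : ℝ)⁻¹ * logOne K ^ 2) fun g hg => ?_).trans ?_
  · have hg' := hg
    rw [hI, mem_Ioc] at hg'
    have h0 : (0 : ℝ) ≤ ∑ d ∈ I, (if g ∣ d then (d : ℝ)⁻¹ else 0) :=
      sum_nonneg fun d _ => by positivity
    have hL := one_le_logOne K
    refine (mul_le_mul_of_nonneg_left (mul_le_mul (hh g hg) (hh g hg) h0 (by positivity))
      (Nat.cast_nonneg g)).trans (le_of_eq ?_)
    have : (g : ℝ) ≠ 0 := Nat.cast_ne_zero.2 hg'.1.ne'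
    field_simp
  · rw [← sum_mul, pow_succ' _ 2]
    refine mul_le_mul_of_nonneg_right ?_ (sq_nonneg _)
    have := harmonic_le_one_add_log K
    rw [harmonic_eq_sum_Icc] at this
    push_cast at this
    rw [hI, show Ioc 0 K = Icc 1 K from rfl]
    exact this

theorem nearDist_neg (x : ℝ) : nearDist (-x) = nearDist x := by
  have h : ∀ y : ℝ, nearDist (-y) ≤ nearDist y := fun y => by
    refine (nearDist_le_abs_sub (-y) (-round y)).trans (le_of_eq ?_)
    rw [nearDist, Int.cast_neg, ← abs_neg]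
    ring_nf
  exact le_antisymm (h x) (by simpa using h (-x))

theorem clip_neg (Z x : ℝ) : clip Z (-x) = clip Z x := by
  unfold clip
  rw [nearDist_neg]

/-- **The mean square of the inner sums over `M < m ≤ 2 M`.** -/
theorem sum_norm_innerSum_sq_le (ha : IsUnit (a : ZMod q))
    (hα : |α - a / q| ≤ 1 / (q : ℝ) ^ 2) (g : ArithmeticFunction ℝ) {M : ℕ} (hM : 0 < M) :
    ∑ m ∈ Ioc M (2 * M), ‖innerSum α g N m‖ ^ 2 ≤
      (∑ k ∈ Ioc 0 (N / M), g k ^ 2) *
        ((((N / M : ℕ) : ℝ) / q + 1) * (5 * M + 2 * q * (1 + Real.log q))) := by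
  obtain ⟨K, hK⟩ : ∃ K, K = N / M := ⟨_, rfl⟩
  rw [← hK]
  have e : ∀ m ∈ Ioc M (2 * M), innerSum α g N m =
      ∑ k ∈ Ioc 0 K, if m * k ≤ N then (g k : ℂ) * eAdd ((k : ℕ) * (m * α)) else 0 := by
    intro m hm
    rw [mem_Ioc] at hm
    rw [innerSum, ← sum_filter]
    refine sum_congr ?_ fun k _ => rfl
    ext k
    simp only [mem_Ioc, mem_filter, hK, Nat.le_div_iff_mul_le (show 0 < m by omega),
      Nat.le_div_iff_mul_le hM]
    constructor
    · rintro ⟨h1, h2⟩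
      exact ⟨⟨h1, (Nat.mul_le_mul_left k hm.1.le).trans h2⟩, by rw [mul_comm]; exact h2⟩
    · rintro ⟨⟨h1, -⟩, h2⟩
      exact ⟨h1, by rw [mul_comm]; exact h2⟩
  obtain ⟨G, hG⟩ : ∃ G : ℕ → ℕ → ℝ, G = fun k l : ℕ => clip M ((k : ℝ) * α - l * α) := ⟨_, rfl⟩
  have hmain : ((∑ m ∈ Ioc M (2 * M), ‖innerSum α g N m‖ ^ 2 : ℝ) : ℂ) =
      ∑ k ∈ Ioc 0 K, ∑ l ∈ Ioc 0 K, (g k : ℂ) * g l *
        ∑ m ∈ Ioc M (min (2 * M) (N / max k l)), eAdd ((m : ℕ) * ((k : ℝ) * α - l * α)) := by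
    rw [Complex.ofReal_sum]
    trans ∑ m ∈ Ioc M (2 * M), ∑ k ∈ Ioc 0 K, ∑ l ∈ Ioc 0 K,
        if m * k ≤ N ∧ m * l ≤ N then
          (g k : ℂ) * g l * eAdd ((m : ℕ) * ((k : ℝ) * α - l * α)) else 0
    · refine sum_congr rfl fun m hm => ?_
      rw [Complex.ofReal_pow, ← Complex.mul_conj', e m hm, map_sum, sum_mul_sum]
      refine sum_congr rfl fun k _ => sum_congr rfl fun l _ => ?_
      by_cases h1 : m * k ≤ N <;> by_cases h2 : m * l ≤ N <;> simp [h1, h2]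
      rw [conj_eAdd, mul_mul_mul_comm, ← eAdd_add]
      ring_nf
    · rw [sum_comm]
      refine sum_congr rfl fun k hk => ?_
      rw [sum_comm]
      refine sum_congr rfl fun l hl => ?_
      rw [mem_Ioc] at hk hl
      rw [mul_sum, ← sum_filter]
      refine sum_congr ?_ fun m _ => rfl
      ext m
      simp only [mem_filter, mem_Ioc, le_min_iff,
        Nat.le_div_iff_mul_le (show 0 < max k l by omega)]
      rcases le_total k l with h | h
      · rw [max_eq_right h]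
        constructor
        · rintro ⟨⟨h1, h2⟩, -, h3⟩
          exact ⟨h1, h2, h3⟩
        · rintro ⟨h1, h2, h3⟩
          exact ⟨⟨h1, h2⟩, (Nat.mul_le_mul_left m h).trans h3, h3⟩
      · rw [max_eq_left h]
        constructor
        · rintro ⟨⟨h1, h2⟩, h3, -⟩
          exact ⟨h1, h2, h3⟩
        · rintro ⟨h1, h2, h3⟩
          exact ⟨⟨h1, h2⟩, h3, (Nat.mul_le_mul_left m h).trans h3⟩
  have hb : ∀ k ∈ Ioc 0 K, ∀ l ∈ Ioc 0 K, ‖(g k : ℂ) * g l *
      ∑ m ∈ Ioc M (min (2 * M) (N / max k l)), eAdd ((m : ℕ) * ((k : ℝ) * α - l * α))‖ ≤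
        g k ^ 2 / 2 * G k l + g l ^ 2 / 2 * G k l := by
    intro k _ l _
    rw [norm_mul, norm_mul, Complex.norm_real, Complex.norm_real, Real.norm_eq_abs,
      Real.norm_eq_abs, ← add_mul, hG]
    refine mul_le_mul ?_ ((norm_geom_le _ _ _).trans (clip_mono ?_ _)) (norm_nonneg _)
      (by positivity)
    · nlinarith [sq_nonneg (|g k| - |g l|), sq_abs (g k), sq_abs (g l)]
    · exact Nat.cast_le.2 (by omega)
  have hrow : ∀ k : ℕ, ∑ l ∈ Ioc 0 K, G k l ≤
      ((K : ℝ) / q + 1) * (5 * M + 2 * q * (1 + Real.log q)) := by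
    intro k
    refine le_trans (le_of_eq ?_)
      (sum_clip_range_le ha hα (α - k * α) (Nat.cast_nonneg M) K)
    rw [show Ioc 0 K = Ico 1 (K + 1) by ext; simp; omega, sum_Ico_eq_sum_range,
      Nat.add_sub_cancel, hG]
    refine sum_congr rfl fun i _ => ?_
    rw [← clip_neg]
    push_cast
    ring_nf
  have hcol : ∀ l : ℕ, ∑ k ∈ Ioc 0 K, G k l ≤
      ((K : ℝ) / q + 1) * (5 * M + 2 * q * (1 + Real.log q)) := by
    intro l
    refine le_trans (le_of_eq (sum_congr rfl fun k _ => ?_)) (hrow l)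
    rw [hG]
    simp only
    rw [← clip_neg]
    ring_nf
  have h0 : (0 : ℝ) ≤ ∑ m ∈ Ioc M (2 * M), ‖innerSum α g N m‖ ^ 2 :=
    sum_nonneg fun m _ => sq_nonneg _
  rw [← abs_of_nonneg h0, ← Real.norm_eq_abs, ← Complex.norm_real, hmain]
  refine (norm_sum_le _ _).trans ((sum_le_sum fun k hk => (norm_sum_le _ _).trans
    (sum_le_sum (hb k hk))).trans ?_)
  simp only [sum_add_distrib, ← mul_sum]
  rw [sum_comm (f := fun k l => g l ^ 2 / 2 * G k l)]
  simp only [← mul_sum]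
  refine (add_le_add (sum_le_sum fun k _ => mul_le_mul_of_nonneg_left (hrow k) (by positivity))
    (sum_le_sum fun l _ => mul_le_mul_of_nonneg_left (hcol l) (by positivity))).trans
    (le_of_eq ?_)
  rw [← sum_add_distrib, sum_mul]
  refine sum_congr rfl fun k _ => ?_
  ring

/-- The main quantity. -/
def mainTerm (q U N : ℕ) : ℝ := N / √(q : ℝ) + N / √(U : ℝ) + √((N : ℝ) * q)

/-- **A dyadic block of the sum of type II.** -/
theorem norm_block_le (ha : IsUnit (a : ZMod q)) (hα : |α - a / q| ≤ 1 / (q : ℝ) ^ 2)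
    (hqN : q ≤ N) {U M : ℕ} (hU : 0 < U) (hUM : U ≤ M) (f : ArithmeticFunction ℝ)
    (hf : ∀ M : ℕ, U ≤ M → M ≤ N → ∑ m ∈ Ioc M (2 * M), f m ^ 2 ≤ logOne N * (12 * M)) :
    ‖∑ m ∈ Ioc M (2 * M), (f m : ℂ) * innerSum α (tailCoeff U) N m‖ ≤
      22 * logOne N ^ 3 * mainTerm q U N := by
  obtain ⟨L, hL⟩ : ∃ L, L = logOne N := ⟨_, rfl⟩
  rw [← hL]
  have hL1 : 1 ≤ L := hL ▸ one_le_logOne N
  have hM : 0 < M := hU.trans_le hUM
  obtain ⟨K, hK⟩ : ∃ K, K = N / M := ⟨_, rfl⟩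
  have hmain0 : 0 ≤ 22 * L ^ 3 * mainTerm q U N := by
    unfold mainTerm
    positivity
  rcases le_or_gt K U with hKU | hKU
  · refine le_trans (le_of_eq (norm_eq_zero.2 (sum_eq_zero fun m hm => ?_))) hmain0
    rw [mem_Ioc] at hm
    rw [innerSum, sum_eq_zero, mul_zero]
    intro k hk
    rw [mem_Ioc] at hk
    have : N / m ≤ K := hK ▸ Nat.div_le_div_left hm.1.le hM
    simp [tailCoeff_eq_zero (show k ≤ U by omega)]
  have hKM : K * M ≤ N := hK ▸ Nat.div_mul_le_self N M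
  have hMUn : M * U ≤ N := le_trans (by rw [mul_comm K]; exact Nat.mul_le_mul_left M hKU.le) hKM
  have hK1 : 0 < K := hU.trans hKU
  have hMN : M ≤ N := le_trans (Nat.le_mul_of_pos_left M hK1) hKM
  have hKN : K ≤ N := le_trans (Nat.le_mul_of_pos_right K hM) hKM
  have hΛ : ∑ m ∈ Ioc M (2 * M), ‖(f m : ℂ)‖ ^ 2 ≤ L * (12 * M) := by
    simp only [Complex.norm_real, Real.norm_eq_abs, sq_abs]
    exact hL ▸ hf M hUM hMN
  have hc : ∑ k ∈ Ioc 0 K, tailCoeff U k ^ 2 ≤ K * L ^ 3 := by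
    refine (sum_le_sum fun k _ => ?_).trans ((sum_card_divisors_sq_le K).trans ?_)
    · exact sq_abs (tailCoeff U k) ▸ pow_le_pow_left₀ (abs_nonneg _) (abs_tailCoeff_le U k) 2
    · refine mul_le_mul_of_nonneg_left
        (pow_le_pow_left₀ (by linarith [one_le_logOne K]) ?_ 3) (Nat.cast_nonneg K)
      rw [hL, logOne, logOne]
      linarith [Real.log_le_log (Nat.cast_pos.2 hK1) (Nat.cast_le (α := ℝ).2 hKN)]
  have hI := (sum_norm_innerSum_sq_le (N := N) ha hα (tailCoeff U) hM).trans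
    (mul_le_mul_of_nonneg_right (hK ▸ hc) (by positivity [Real.log_natCast_nonneg q]))
  rw [← hK] at hI
  have hlq : 1 + Real.log q ≤ L := by
    rw [hL, logOne]
    linarith [Real.log_le_log (Nat.cast_pos.2 (NeZero.pos q)) (Nat.cast_le (α := ℝ).2 hqN)]
  have hq0 : (0 : ℝ) < q := Nat.cast_pos.2 (NeZero.pos q)
  have hfac : ((K : ℝ) / q + 1) * (5 * M + 2 * q * (1 + Real.log q)) ≤
      5 * L * ((N : ℝ) / q + K + M + q) := by
    calc ((K : ℝ) / q + 1) * (5 * M + 2 * q * (1 + Real.log q))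
        ≤ ((K : ℝ) / q + 1) * (5 * M + 2 * q * L) := by gcongr
      _ = 5 * ((K : ℝ) * M / q) + 2 * L * K + 5 * M + 2 * L * q := by field_simp; ring
      _ ≤ 5 * ((N : ℝ) / q) + 2 * L * K + 5 * M + 2 * L * q := by
          gcongr
          exact_mod_cast hKM
      _ ≤ _ := by
          have : 0 ≤ (N : ℝ) / q * (L - 1) := mul_nonneg (by positivity) (by linarith)
          have : 0 ≤ (M : ℝ) * (L - 1) := mul_nonneg (Nat.cast_nonneg M) (by linarith)
          have : 0 ≤ (K : ℝ) * L := by positivity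
          have : 0 ≤ (q : ℝ) * L := by positivity
          linarith
  obtain ⟨Y, hY⟩ : ∃ Y, Y = (N : ℝ) / q + K + M + q := ⟨_, rfl⟩
  rw [← hY] at hfac
  have hsq : ‖∑ m ∈ Ioc M (2 * M), (f m : ℂ) * innerSum α (tailCoeff U) N m‖ ^ 2 ≤
      8 ^ 2 * L ^ 6 * (N * Y) := by
    refine (pow_le_pow_left₀ (norm_nonneg _) (norm_sum_le _ _) 2).trans ?_
    simp only [norm_mul]
    refine (sum_mul_sq_le_sq_mul_sq _ _ _).trans ((mul_le_mul hΛ hI
      (sum_nonneg fun m _ => sq_nonneg _) (by positivity)).trans ?_)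
    have hY0 : 0 ≤ Y := hY ▸ by positivity
    calc L * (12 * (M : ℝ)) * ((K : ℝ) * L ^ 3 *
          (((K : ℝ) / q + 1) * (5 * M + 2 * q * (1 + Real.log q))))
        ≤ L * (12 * (M : ℝ)) * ((K : ℝ) * L ^ 3 * (5 * L * Y)) := by gcongr
      _ = 60 * L ^ 5 * (((K : ℝ) * M) * Y) := by ring
      _ ≤ 8 ^ 2 * L ^ 6 * (N * Y) := by
          refine mul_le_mul (mul_le_mul (by norm_num) (pow_le_pow_right₀ hL1 (by norm_num))
            (by positivity) (by norm_num)) ?_ (by positivity) (by positivity)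
          exact mul_le_mul_of_nonneg_right (by exact_mod_cast hKM) hY0
  have hY0 : 0 ≤ Y := hY ▸ by positivity
  have h8 := Real.abs_le_sqrt hsq
  rw [abs_norm, Real.sqrt_mul (by positivity),
    show (8 : ℝ) ^ 2 * L ^ 6 = (8 * L ^ 3) ^ 2 by ring, Real.sqrt_sq (by positivity)] at h8
  refine h8.trans ?_
  have hU0 : (0 : ℝ) < U := Nat.cast_pos.2 hU
  have hKU' : (K : ℝ) ≤ N / U := by
    rw [le_div_iff₀ hU0]
    exact_mod_cast le_trans (Nat.mul_le_mul_left K hUM) hKM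
  have hMU' : (M : ℝ) ≤ N / U := by
    rw [le_div_iff₀ hU0]
    exact_mod_cast hMUn
  have hNY : √((N : ℝ) * Y) ≤ 2 * mainTerm q U N := by
    rw [mainTerm, Real.sqrt_le_iff]
    refine ⟨by positivity, ?_⟩
    have s1 : ((N : ℝ) / √(q : ℝ)) ^ 2 = N * (N / q) := by
      rw [div_pow, Real.sq_sqrt hq0.le]
      ring
    have s2 : ((N : ℝ) / √(U : ℝ)) ^ 2 = N * (N / U) := by
      rw [div_pow, Real.sq_sqrt hU0.le]
      ring
    have s3 : √((N : ℝ) * q) ^ 2 = N * q := Real.sq_sqrt (by positivity)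
    obtain ⟨u, hu⟩ : ∃ u, u = (N : ℝ) / √(q : ℝ) := ⟨_, rfl⟩
    obtain ⟨v, hv⟩ : ∃ v, v = (N : ℝ) / √(U : ℝ) := ⟨_, rfl⟩
    obtain ⟨w, hw⟩ : ∃ w, w = √((N : ℝ) * q) := ⟨_, rfl⟩
    rw [← hu] at s1 ⊢
    rw [← hv] at s2 ⊢
    rw [← hw] at s3 ⊢
    have hu0 : 0 ≤ u := hu ▸ by positivity
    have hv0 : 0 ≤ v := hv ▸ by positivity
    have hw0 : 0 ≤ w := hw ▸ Real.sqrt_nonneg _
    calc (N : ℝ) * Y ≤ N * ((N : ℝ) / q + N / U + N / U + q) := by rw [hY]; gcongr
      _ = u ^ 2 + v ^ 2 + v ^ 2 + w ^ 2 := by rw [s1, s2, s3]; ring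
      _ ≤ (2 * (u + v + w)) ^ 2 := by nlinarith
  calc 8 * L ^ 3 * √((N : ℝ) * Y) ≤ 8 * L ^ 3 * (2 * mainTerm q U N) :=
        mul_le_mul_of_nonneg_left hNY (by positivity)
    _ ≤ _ := by
        have h0 : 0 ≤ L ^ 3 * mainTerm q U N := by unfold mainTerm; positivity
        linarith

/-- **The sum of type II.** -/
theorem norm_typeTwo_le (ha : IsUnit (a : ZMod q)) (hα : |α - a / q| ≤ 1 / (q : ℝ) ^ 2)
    (hqN : q ≤ N) {U : ℕ} (hU : 0 < U) (f : ArithmeticFunction ℝ) (hf0 : ∀ m ≤ U, f m = 0)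
    (hf : ∀ M : ℕ, U ≤ M → M ≤ N → ∑ m ∈ Ioc M (2 * M), f m ^ 2 ≤ logOne N * (12 * M)) :
    ‖twist α (f * tailCoeff U) N‖ ≤ 66 * logOne N ^ 4 * mainTerm q U N := by
  obtain ⟨F, hF⟩ : ∃ F : ℕ → ℂ,
      F = fun m => (f m : ℂ) * innerSum α (tailCoeff U) N m := ⟨_, rfl⟩
  obtain ⟨H, hH⟩ : ∃ H, H = Nat.log 2 N + 1 := ⟨_, rfl⟩
  have hUH : N ≤ U * 2 ^ H := by
    rw [hH]
    refine le_trans (Nat.lt_pow_succ_log_self one_lt_two N).le ?_
    exact Nat.le_mul_of_pos_left _ hU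
  have e : twist α (f * tailCoeff U) N = ∑ m ∈ Ioc U (U * 2 ^ H), F m := by
    rw [twist_mul, hF]
    refine sum_congr_of_eq_on_inter ?_ ?_ ?_
    · intro m hm hm'
      rw [mem_Ioc] at hm hm'
      rw [hf0 m (by omega)]
      simp
    · intro m hm hm'
      rw [mem_Ioc] at hm hm'
      rw [innerSum, Nat.div_eq_of_lt (by omega)]
      simp
    · intros
      rfl
  have key : ∀ H : ℕ, ‖∑ m ∈ Ioc U (U * 2 ^ H), F m‖ ≤
      H * (22 * logOne N ^ 3 * mainTerm q U N) := by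
    intro H
    induction H with
    | zero => simp
    | succ H ih =>
      have h1 : U ≤ U * 2 ^ H := Nat.le_mul_of_pos_right U (by positivity)
      rw [pow_succ, ← mul_assoc, mul_comm _ 2, ← sum_Ioc_consecutive F h1 (by omega),
        Nat.cast_succ, add_mul _ (1 : ℝ), one_mul]
      exact (norm_add_le _ _).trans (add_le_add ih (hF ▸ norm_block_le ha hα hqN hU h1 f hf))
  rw [e]
  refine (key H).trans ?_
  have hH2 : (H : ℝ) ≤ 3 * logOne N := by
    have hN := lt_of_lt_of_le (NeZero.pos q) hqN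
    have h3 : ((2 : ℝ) ^ Nat.log 2 N) ≤ N := by exact_mod_cast Nat.pow_log_le_self 2 hN.ne'
    have h4 := Real.log_le_log (by positivity) h3
    rw [Real.log_pow] at h4
    have h5 : (0 : ℝ) ≤ Nat.log 2 N := Nat.cast_nonneg _
    rw [hH, logOne]
    push_cast
    nlinarith [Real.log_two_gt_d9]
  have h0 : 0 ≤ 22 * logOne N ^ 3 * mainTerm q U N := by
    have := one_le_logOne N
    unfold mainTerm
    positivity
  calc (H : ℝ) * (22 * logOne N ^ 3 * mainTerm q U N)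
      ≤ 3 * logOne N * (22 * logOne N ^ 3 * mainTerm q U N) := mul_le_mul_of_nonneg_right hH2 h0
    _ = _ := by ring

theorem sum_sq_highPart_vonMangoldt_le {U M : ℕ} (hUM : U ≤ M) (hMN : M ≤ N) :
    ∑ m ∈ Ioc M (2 * M), highPart U Λ m ^ 2 ≤ logOne N * (12 * M) := by
  refine le_trans (sum_le_sum (g := fun m : ℕ => logOne N * Λ m) fun m hm => ?_) ?_
  · rw [mem_Ioc] at hm
    rw [highPart_apply, if_neg (by omega), sq]
    exact mul_le_mul_of_nonneg_right
      (vonMangoldt_le_log.trans (log_le_logOne (n := m) (by omega))) vonMangoldt_nonneg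
  · rw [← mul_sum]
    refine mul_le_mul_of_nonneg_left ?_ (by linarith [one_le_logOne N])
    refine (sum_le_sum_of_subset_of_nonneg (t := Ioc 0 ⌊((2 * M : ℕ) : ℝ)⌋₊) ?_
      fun n _ _ => vonMangoldt_nonneg).trans
      ((Chebyshev.psi_le_const_mul_self (Nat.cast_nonneg (2 * M))).trans ?_)
    · rw [Nat.floor_natCast]
      exact Ioc_subset_Ioc_left (Nat.zero_le M)
    · push_cast
      have h4 : Real.log 4 ≤ 2 := by
        rw [show (4 : ℝ) = 2 ^ 2 by norm_num, Real.log_pow]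
        have := Real.log_two_lt_d9
        push_cast
        linarith
      nlinarith [(Nat.cast_nonneg M : (0 : ℝ) ≤ M)]

/-- **The exponential sum over primes.** -/
theorem norm_vonMangoldt_twist_le (ha : IsUnit (a : ZMod q))
    (hα : |α - a / q| ≤ 1 / (q : ℝ) ^ 2) :
    ‖twist α Λ N‖ ≤ 350 * ((N : ℝ) / √(q : ℝ) + (N : ℝ) ^ (4 / 5 : ℝ) + √((N : ℝ) * q)) *
      logOne N ^ 4 := by
  obtain ⟨L, hL⟩ : ∃ L, L = logOne N := ⟨_, rfl⟩
  rw [← hL]
  have hL1 : 1 ≤ L := hL ▸ one_le_logOne N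
  have hq0 : (0 : ℝ) < q := Nat.cast_pos.2 (NeZero.pos q)
  have hq1 : (1 : ℝ) ≤ q := by exact_mod_cast NeZero.one_le
  obtain ⟨T, hT⟩ : ∃ T : ℝ,
      T = (N : ℝ) / √(q : ℝ) + (N : ℝ) ^ (4 / 5 : ℝ) + √((N : ℝ) * q) := ⟨_, rfl⟩
  rw [← hT]
  have hT0 : 0 ≤ T := by rw [hT]; positivity
  have h4 : Real.log 4 ≤ 2 := by
    rw [show (4 : ℝ) = 2 ^ 2 by norm_num, Real.log_pow]
    have := Real.log_two_lt_d9
    push_cast
    linarith
  rcases lt_or_ge N q with hNq | hqN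
  · refine (norm_sum_le _ _).trans ?_
    simp only [norm_mul, norm_eAdd, mul_one, Complex.norm_real, Real.norm_eq_abs,
      abs_of_nonneg vonMangoldt_nonneg]
    have h := Chebyshev.psi_le_const_mul_self (Nat.cast_nonneg N)
    rw [Chebyshev.psi, Nat.floor_natCast] at h
    refine h.trans ?_
    have h1 : (N : ℝ) ≤ T := by
      refine le_trans ?_ (le_trans (le_add_of_nonneg_left (by positivity)) hT.ge)
      rw [Real.le_sqrt (Nat.cast_nonneg N) (by positivity), sq]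
      exact mul_le_mul_of_nonneg_left (Nat.cast_le.2 hNq.le) (Nat.cast_nonneg N)
    calc (Real.log 4 + 4) * (N : ℝ) ≤ 6 * T :=
          mul_le_mul (by linarith) h1 (Nat.cast_nonneg N) (by norm_num)
      _ ≤ 350 * T * 1 := by linarith
      _ ≤ _ := mul_le_mul_of_nonneg_left (one_le_pow₀ hL1) (by positivity)
  have hN : 0 < N := lt_of_lt_of_le (NeZero.pos q) hqN
  have hN1 : (1 : ℝ) ≤ N := by exact_mod_cast hN
  obtain ⟨U, hU⟩ : ∃ U, U = ⌊(N : ℝ) ^ (2 / 5 : ℝ)⌋₊ := ⟨_, rfl⟩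
  have hU1 : 0 < U := hU ▸ Nat.floor_pos.2 (Real.one_le_rpow hN1 (by norm_num))
  have hUle : (U : ℝ) ≤ (N : ℝ) ^ (2 / 5 : ℝ) := hU ▸ Nat.floor_le (by positivity)
  have hUge : (N : ℝ) ^ (2 / 5 : ℝ) ≤ 2 * U := by
    have h1 := Nat.lt_floor_add_one ((N : ℝ) ^ (2 / 5 : ℝ))
    rw [← hU] at h1
    have : (1 : ℝ) ≤ U := by exact_mod_cast hU1
    linarith
  have hUU : ((U * U : ℕ) : ℝ) ≤ (N : ℝ) ^ (4 / 5 : ℝ) := by
    push_cast
    refine (mul_le_mul hUle hUle (Nat.cast_nonneg U) (by positivity)).trans (le_of_eq ?_)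
    rw [← Real.rpow_add (by linarith)]
    norm_num
  have hUUN : U * U ≤ N := by
    have := hUU.trans (Real.rpow_le_self_of_one_le hN1 (by norm_num))
    exact_mod_cast this
  have hUT : (U : ℝ) ≤ (N : ℝ) ^ (4 / 5 : ℝ) :=
    hUle.trans (Real.rpow_le_rpow_of_exponent_le hN1 (by norm_num))
  have hNU : (N : ℝ) / √(U : ℝ) ≤ 2 * (N : ℝ) ^ (4 / 5 : ℝ) := by
    rw [div_le_iff₀ (Real.sqrt_pos.2 (Nat.cast_pos.2 hU1))]
    have h1 : (N : ℝ) ^ (1 / 5 : ℝ) ≤ 2 * √(U : ℝ) := by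
      refine le_trans (le_of_eq ?_) ((Real.sqrt_le_sqrt hUge).trans ?_)
      · rw [Real.sqrt_eq_rpow, ← Real.rpow_mul (by linarith)]
        norm_num
      · rw [Real.sqrt_mul two_pos.le]
        refine mul_le_mul_of_nonneg_right ?_ (Real.sqrt_nonneg _)
        rw [Real.sqrt_le_left two_pos.le]
        norm_num
    calc (N : ℝ) = (N : ℝ) ^ (4 / 5 : ℝ) * (N : ℝ) ^ (1 / 5 : ℝ) := by
          rw [← Real.rpow_add (by linarith)]
          norm_num
      _ ≤ (N : ℝ) ^ (4 / 5 : ℝ) * (2 * √(U : ℝ)) := mul_le_mul_of_nonneg_left h1 (by positivity)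
      _ = _ := by ring
  have hq_le : (q : ℝ) ≤ √((N : ℝ) * q) := by
    rw [Real.le_sqrt hq0.le (by positivity), sq]
    exact mul_le_mul_of_nonneg_right (Nat.cast_le.2 hqN) hq0.le
  have hNq_le : (N : ℝ) / q ≤ N / √(q : ℝ) := by
    refine div_le_div_of_nonneg_left (by linarith) (Real.sqrt_pos.2 hq0) ?_
    rw [Real.sqrt_le_left hq0.le]
    nlinarith
  have p0 : ‖twist α (lowPart U Λ) N‖ ≤ 6 * T := by
    refine (norm_twist_low_le α).trans ?_
    refine mul_le_mul (by linarith) (hUT.trans ?_) (Nat.cast_nonneg U) (by norm_num)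
    rw [hT]
    linarith [Real.sqrt_nonneg ((N : ℝ) * q),
      div_nonneg (Nat.cast_nonneg (α := ℝ) N) (Real.sqrt_nonneg (q : ℝ))]
  have hbig : ∀ K : ℕ, (K : ℝ) ≤ (N : ℝ) ^ (4 / 5 : ℝ) →
      (2 * (K : ℝ) + 4 * q) + 20 * (N : ℝ) / q ≤ 20 * T := by
    intro K hK
    rw [hT, show 20 * (N : ℝ) / q = 20 * ((N : ℝ) / q) by ring]
    linarith [(Nat.cast_nonneg K : (0 : ℝ) ≤ K), Real.sqrt_nonneg ((N : ℝ) * q)]
  have p1 : ‖twist α (lowPart U moebiusR * ArithmeticFunction.log) N‖ ≤ 20 * T * L ^ 2 := by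
    refine (norm_typeOne_le ha hα hqN (le_trans (Nat.le_mul_of_pos_left U hU1) hUUN)
      (lowPart U moebiusR) ArithmeticFunction.log zero_le_one (show 0 ≤ L by linarith)
      (fun m _ => ?_) (fun m hm => ?_) (fun m _ => ?_)).trans ?_
    · rw [lowPart_apply]
      split_ifs
      · exact abs_moebiusR_le m
      · simp
    · rw [lowPart_apply, if_neg (by omega)]
    · refine (norm_innerSum_log_le α N m).trans
        (mul_le_mul_of_nonneg_right ?_ (clip_nonneg (Nat.cast_nonneg _) _))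
      exact hL ▸ log_le_logOne (n := N / m) ((Nat.div_le_self N m).trans (by omega))
    · rw [← hL, one_mul]
      refine (mul_le_mul_of_nonneg_left (mul_le_mul_of_nonneg_right (hbig U hUT) (by linarith))
        (by linarith)).trans (le_of_eq ?_)
      ring
  have p2 : ‖twist α (lowPart U Λ * lowPart U moebiusR * oneR) N‖ ≤ 20 * T * L ^ 2 := by
    refine (norm_typeOne_le ha hα hqN hUUN (lowPart U Λ * lowPart U moebiusR) oneR
      (show 0 ≤ L by linarith) zero_le_one (fun m hm => ?_) (fun m hm => low_mul_eq_zero hm)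
      (fun m _ => ?_)).trans ?_
    · exact (abs_low_mul_le U m).trans (hL ▸ log_le_logOne (n := m) (by omega))
    · rw [one_mul]
      exact norm_innerSum_one_le α N m
    · rw [← hL, mul_one]
      refine (mul_le_mul_of_nonneg_left (mul_le_mul_of_nonneg_right (hbig (U * U) hUU)
        (by linarith)) (by linarith)).trans (le_of_eq ?_)
      ring
  have p3 : ‖twist α (highPart U Λ * tailCoeff U) N‖ ≤ 66 * L ^ 4 * (2 * T) := by
    refine (norm_typeTwo_le ha hα hqN hU1 (highPart U Λ)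
      (fun m hm => by rw [highPart_apply, if_pos hm])
      fun M hUM hMN => sum_sq_highPart_vonMangoldt_le hUM hMN).trans ?_
    rw [← hL]
    refine mul_le_mul_of_nonneg_left ?_ (by positivity)
    rw [mainTerm, hT]
    linarith [Real.sqrt_nonneg ((N : ℝ) * q),
      div_nonneg (Nat.cast_nonneg (α := ℝ) N) (Real.sqrt_nonneg (q : ℝ))]
  rw [vaughan U, twist_add, twist_sub, twist_add]
  refine (norm_add_le _ _).trans ((add_le_add ((norm_sub_le _ _).trans
    (add_le_add (norm_add_le _ _) le_rfl)) le_rfl).trans ?_)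
  rw [show highPart U moebiusR * oneR = tailCoeff U from rfl]
  refine (add_le_add (add_le_add (add_le_add p0 p1) p2) p3).trans ?_
  have h2 : T * L ^ 2 ≤ T * L ^ 4 :=
    mul_le_mul_of_nonneg_left (pow_le_pow_right₀ hL1 (by norm_num)) hT0
  have h0 : T * 1 ≤ T * L ^ 4 := mul_le_mul_of_nonneg_left (one_le_pow₀ hL1) hT0
  linarith

end FA.ThreePrimes
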