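import Fermat.Agent.ThreePrimes.Singular
import Fermat.Agent.Root.SummarySiegelWalfisz

/-!
# The major arcs

For `q ≤ (log N) ^ B` and `|β| ≤ (log N) ^ B / N` the sum at `a / q + β` is
`μ q / φ q ∑_{n ≤ N} e (β n) + O (N / (log N) ^ D)`: the theorem of Siegel and Walfisz and partial
summation.
-/

set_option autoImplicit false

noncomputable section

namespace FA.ThreePrimes

open Finset Complex ArithmeticFunction
open scoped Real ArithmeticFunction.Moebius

/-- `∑_{n ≤ N} e (n x)`. -/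
def geomSum (N : ℕ) (x : ℝ) : ℂ := ∑ n ∈ Ioc 0 N, eAdd (n * x)

theorem norm_eAdd_sub_one_le (x : ℝ) : ‖eAdd x - 1‖ ≤ 2 * π * |x| := by
  rw [eAdd, mul_comm _ I]
  refine Real.norm_exp_I_mul_ofReal_sub_one_le.trans (le_of_eq ?_)
  rw [Real.norm_eq_abs, abs_mul, abs_mul, abs_two, abs_of_pos Real.pi_pos]

/-- Summation by parts. -/
theorem norm_sum_mul_eAdd_le (w : ℕ → ℂ) (β : ℝ) (N : ℕ) {E : ℝ}
    (h : ∀ j ≤ N, ‖∑ n ∈ Ioc 0 j, w n‖ ≤ E) :
    ‖∑ n ∈ Ioc 0 N, w n * eAdd (n * β)‖ ≤ E * (1 + 2 * π * |β| * N) := by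
  have hE : 0 ≤ E := (norm_nonneg _).trans (h N le_rfl)
  have key : ∀ k : ℕ, ∑ n ∈ Ioc 0 k, w n * eAdd (n * β) =
      (∑ n ∈ Ioc 0 k, w n) * eAdd (k * β) -
        ∑ j ∈ range k, (∑ n ∈ Ioc 0 j, w n) * (eAdd ((j + 1 : ℕ) * β) - eAdd (j * β)) := by
    intro k
    induction k with
    | zero => simp
    | succ k ih =>
      rw [sum_Ioc_succ_top (Nat.zero_le k), sum_Ioc_succ_top (Nat.zero_le k), sum_range_succ, ih]
      ring
  rw [key]
  refine (norm_sub_le _ _).trans ((add_le_add (b := E) ?_ ((norm_sum_le _ _).trans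
    (sum_le_card_nsmul _ _ (E * (2 * π * |β|)) fun j hj => ?_))).trans (le_of_eq ?_))
  · rw [norm_mul, norm_eAdd, mul_one]
    exact h N le_rfl
  · rw [norm_mul]
    refine mul_le_mul (h j (mem_range.1 hj).le) ?_ (norm_nonneg _) hE
    rw [show eAdd ((j + 1 : ℕ) * β) - eAdd (j * β) = eAdd (j * β) * (eAdd β - 1) by
      push_cast; rw [add_mul, one_mul, eAdd_add]; ring, norm_mul, norm_eAdd, one_mul]
    exact norm_eAdd_sub_one_le β
  · rw [card_range, nsmul_eq_mul]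
    ring

theorem eAdd_mod {q : ℕ} (hq : 0 < q) (a : ℤ) (n : ℕ) :
    eAdd ((a : ℝ) * n / q) = eAdd ((a : ℝ) * (n % q : ℕ) / q) := by
  have e : ((n : ℕ) : ℝ) = ((n % q : ℕ) : ℝ) + (q : ℝ) * ((n / q : ℕ) : ℝ) := by
    exact_mod_cast (Nat.mod_add_div n q).symm
  have hq0 : (q : ℝ) ≠ 0 := Nat.cast_ne_zero.2 hq.ne'
  obtain ⟨m, hm⟩ : ∃ m, m = n / q := ⟨_, rfl⟩
  rw [← hm] at e
  rw [e, show (a : ℝ) * (((n % q : ℕ) : ℝ) + (q : ℝ) * (m : ℝ)) / q =
      (a : ℝ) * ((n % q : ℕ) : ℝ) / q + ((a * m : ℤ) : ℝ) by push_cast; field_simp]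
  exact eAdd_add_intCast _ _

theorem sum_coprime_fiber {q : ℕ} [NeZero q] (a : ℤ) (j : ℕ) :
    ∑ n ∈ (Ioc 0 j).filter (fun n => q.Coprime n), (Λ n : ℂ) * eAdd ((a : ℝ) * n / q) =
      ∑ r ∈ unitResidues q, eAdd ((a : ℝ) * r / q) *
        ((∑ n ∈ (Ioc 0 j).filter (fun n : ℕ => (n : ZMod q) = (r : ZMod q)), Λ n : ℝ) : ℂ) := by
  rw [← sum_fiberwise_of_maps_to (g := fun n => n % q) (t := unitResidues q) fun n hn => ?_]
  · refine sum_congr rfl fun r hr => ?_
    rw [unitResidues, mem_filter, mem_range] at hr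
    rw [Complex.ofReal_sum, mul_sum]
    refine sum_congr ?_ fun n hn => ?_
    · ext n
      simp only [mem_filter, ZMod.natCast_eq_natCast_iff', Nat.mod_eq_of_lt hr.1]
      constructor
      · rintro ⟨⟨h1, -⟩, h2⟩
        exact ⟨h1, h2⟩
      · rintro ⟨h1, h2⟩
        refine ⟨⟨h1, ?_⟩, h2⟩
        have := hr.2
        rw [← h2, Nat.coprime_comm] at this
        rw [Nat.Coprime, Nat.gcd_rec]
        exact this
    · rw [mem_filter, ZMod.natCast_eq_natCast_iff', Nat.mod_eq_of_lt hr.1] at hn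
      rw [eAdd_mod (NeZero.pos q) a n, hn.2, mul_comm]
  · rw [mem_filter] at hn
    rw [unitResidues, mem_filter, mem_range]
    refine ⟨Nat.mod_lt _ (NeZero.pos q), ?_⟩
    have := hn.2
    rw [Nat.Coprime, Nat.gcd_rec] at this
    rw [Nat.Coprime, Nat.gcd_comm]
    exact this

theorem sum_vonMangoldt_le (j : ℕ) : ∑ n ∈ Ioc 0 j, Λ n ≤ 6 * j := by
  have h := Chebyshev.psi_le_const_mul_self (Nat.cast_nonneg j)
  rw [Chebyshev.psi, Nat.floor_natCast] at h
  refine h.trans (mul_le_mul_of_nonneg_right ?_ (Nat.cast_nonneg j))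
  rw [show (4 : ℝ) = 2 ^ 2 by norm_num, Real.log_pow]
  have := Real.log_two_lt_d9
  push_cast
  linarith

/-- Powers of `log N` against `√N`. -/
theorem exists_log_pow_le (n : ℕ) : ∃ K : ℝ, 0 < K ∧ ∀ x : ℝ, 1 ≤ x →
    Real.log x ^ n ≤ K * √x := by
  obtain ⟨e, he⟩ : ∃ e : ℝ, e = 1 / (2 * ((n : ℝ) + 1)) := ⟨_, rfl⟩
  have he0 : 0 < e := by rw [he]; positivity
  refine ⟨(1 / e) ^ n, by positivity, fun x hx => ?_⟩
  refine (pow_le_pow_left₀ (Real.log_nonneg hx)
    (Real.log_le_rpow_div (by linarith) he0) n).trans ?_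
  rw [div_pow, ← Real.rpow_natCast (x ^ e), ← Real.rpow_mul (by linarith), Real.sqrt_eq_rpow,
    one_div, inv_pow, inv_mul_eq_div]
  refine div_le_div_of_nonneg_right (Real.rpow_le_rpow_of_exponent_le hx ?_) (by positivity)
  rw [he, div_mul_eq_mul_div, one_mul, div_le_iff₀ (by positivity)]
  linarith

/-- The weights of the error. -/
def majorWeight (q : ℕ) (a : ℤ) (n : ℕ) : ℂ :=
  (Λ n : ℂ) * eAdd ((a : ℝ) * n / q) - ((moebiusR q / q.totient : ℝ) : ℂ)

theorem norm_majorWeight_sum_trivial {q : ℕ} [NeZero q] (a : ℤ) (j : ℕ) :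
    ‖∑ n ∈ Ioc 0 j, majorWeight q a n‖ ≤ 7 * j := by
  refine (norm_sum_le _ _).trans ((sum_le_sum (g := fun n => Λ n + 1) fun n _ => ?_).trans ?_)
  · refine (norm_sub_le _ _).trans (add_le_add (le_of_eq ?_) ?_)
    · rw [norm_mul, norm_eAdd, mul_one, Complex.norm_real, Real.norm_eq_abs,
        abs_of_nonneg vonMangoldt_nonneg]
    · rw [Complex.norm_real, Real.norm_eq_abs, abs_div, Nat.abs_cast]
      exact div_le_one_of_le₀ ((abs_moebiusR_le q).trans
        (by exact_mod_cast Nat.totient_pos.2 (NeZero.pos q))) (Nat.cast_nonneg _)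
  · rw [sum_add_distrib, sum_const, Nat.card_Ioc, Nat.sub_zero, nsmul_eq_mul, mul_one]
    linarith [sum_vonMangoldt_le j]

theorem exists_majorWeight_sum_le (B E : ℕ) : ∃ C : ℝ, 0 < C ∧
    ∀ (N q : ℕ) [NeZero q] (a : ℤ), 2 ≤ N → IsUnit (a : ZMod q) →
      (q : ℝ) ≤ Real.log N ^ B → ∀ j ≤ N,
        ‖∑ n ∈ Ioc 0 j, majorWeight q a n‖ ≤ C * (N / Real.log N ^ E) := by
  obtain ⟨C₀, hC₀, hSW⟩ := SiegelWalfisz.Summary.siegel_walfisz_log ((B : ℝ) + 1)
    ((E + B + 1 : ℕ) : ℝ) (by positivity) (by positivity)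
  obtain ⟨K₁, hK₁, hpow⟩ := exists_log_pow_le E
  obtain ⟨K₂, hK₂, hpow'⟩ := exists_log_pow_le (E + B + 2)
  obtain ⟨Q, hQ⟩ : ∃ Q : ℝ, Q = 2 * 2 ^ B := ⟨_, rfl⟩
  have hQ0 : 0 < Q := by rw [hQ]; positivity
  refine ⟨7 * K₁ + 7 * Q ^ E + C₀ * 2 ^ (E + B + 1) + 4 * K₂, by positivity,
    fun N q _ a hN ha hq j hj => ?_⟩
  obtain ⟨l, hl⟩ : ∃ l, l = Real.log N := ⟨_, rfl⟩
  rw [← hl] at hq ⊢
  have hN1 : (1 : ℝ) < N := by exact_mod_cast hN
  have hl0 : 0 < l := hl ▸ Real.log_pos hN1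
  have hq1 : (1 : ℝ) ≤ q := by exact_mod_cast NeZero.one_le
  obtain ⟨T, hT⟩ : ∃ T : ℝ, T = N / l ^ E := ⟨_, rfl⟩
  rw [← hT]
  have hT0 : 0 ≤ T := by rw [hT]; positivity
  have hnn : 0 ≤ C₀ * 2 ^ (E + B + 1) * T ∧ 0 ≤ K₁ * T ∧ 0 ≤ K₂ * T ∧ 0 ≤ Q ^ E * T :=
    ⟨by positivity, by positivity, by positivity, by rw [hQ]; positivity⟩
  have htriv := norm_majorWeight_sum_trivial (q := q) a j
  rcases lt_or_ge (j : ℝ) (√(N : ℝ)) with hjs | hjs
  · refine htriv.trans ?_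
    have h1 : √(N : ℝ) ≤ K₁ * T := by
      rw [hT, mul_div_assoc', le_div_iff₀ (by positivity)]
      calc √(N : ℝ) * l ^ E ≤ √(N : ℝ) * (K₁ * √(N : ℝ)) :=
            mul_le_mul_of_nonneg_left (hl ▸ hpow N hN1.le) (Real.sqrt_nonneg _)
        _ = K₁ * N := by rw [mul_left_comm, Real.mul_self_sqrt (Nat.cast_nonneg N)]
    linarith
  have hj1 : (1 : ℝ) < j := by
    refine lt_of_lt_of_le ?_ hjs
    rw [← Real.sqrt_one]
    exact Real.sqrt_lt_sqrt zero_le_one hN1
  have hlj : l ≤ 2 * Real.log j := by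
    have := Real.log_le_log (Real.sqrt_pos.2 (by linarith)) hjs
    rw [Real.log_sqrt (Nat.cast_nonneg N), ← hl] at this
    linarith
  have hjN : (j : ℝ) ≤ N := Nat.cast_le.2 hj
  rcases lt_or_ge (Real.log j) (2 ^ B) with hsmall | hbig
  · refine htriv.trans ?_
    have h2B : (1 : ℝ) ≤ 2 ^ B := one_le_pow₀ one_le_two
    have h1 : (N : ℝ) ≤ Q ^ E * T := by
      rw [hT, mul_div_assoc', le_div_iff₀ (by positivity), mul_comm]
      refine mul_le_mul_of_nonneg_right (pow_le_pow_left₀ hl0.le ?_ E) (Nat.cast_nonneg N)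
      have : l ≤ Real.log j + Real.log j := by linarith
      rw [hQ]
      linarith
    linarith
  have hlj1 : 1 ≤ Real.log j := (one_le_pow₀ one_le_two).trans hbig
  have hqj : (q : ℝ) ≤ Real.log j ^ ((B : ℝ) + 1) := by
    rw [Real.rpow_add (by linarith), Real.rpow_natCast, Real.rpow_one]
    calc (q : ℝ) ≤ l ^ B := hq
      _ ≤ (2 * Real.log j) ^ B := pow_le_pow_left₀ hl0.le hlj B
      _ = Real.log j ^ B * 2 ^ B := by rw [mul_pow]; ring
      _ ≤ _ := mul_le_mul_of_nonneg_left hbig (by positivity)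
  have hclass : ∀ r ∈ unitResidues q,
      |(∑ n ∈ (Ioc 0 j).filter (fun n : ℕ => (n : ZMod q) = (r : ZMod q)), Λ n) -
        (j : ℝ) / q.totient| ≤ C₀ * 2 ^ (E + B + 1) * T / l ^ B / l := by
    intro r hr
    rw [unitResidues, mem_filter] at hr
    have h := hSW q (r : ZMod q) ((ZMod.isUnit_iff_coprime r q).2 hr.2.symm) j
      (by exact_mod_cast (show 1 < j by exact_mod_cast hj1)) hqj
    rw [Nat.floor_natCast, Real.rpow_natCast] at h
    refine h.trans ?_
    rw [hT, mul_div_assoc', div_div, div_div, div_le_div_iff₀ (by positivity) (by positivity)]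
    have hp : l ^ E * l ^ B * l ≤ 2 ^ (E + B + 1) * Real.log j ^ (E + B + 1) := by
      rw [← pow_add, ← pow_succ, ← mul_pow]
      exact pow_le_pow_left₀ hl0.le hlj _
    calc C₀ * (j : ℝ) * (l ^ E * (l ^ B * l))
        ≤ C₀ * (N : ℝ) * (2 ^ (E + B + 1) * Real.log j ^ (E + B + 1)) := by
          rw [← mul_assoc (l ^ E)]
          exact mul_le_mul (mul_le_mul_of_nonneg_left hjN hC₀.le) hp (by positivity) (by positivity)
      _ = _ := by ring
  have hbad : ∑ n ∈ (Ioc 0 j).filter (fun n => ¬ q.Coprime n), Λ n ≤ 4 * K₂ * T := by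
    classical
    calc ∑ n ∈ (Ioc 0 j).filter (fun n => ¬ q.Coprime n), Λ n
        ≤ ∑ n ∈ (Icc 1 j).filter (fun n => IsPrimePow n ∧ ¬ n.Coprime q), l := by
          rw [show Icc 1 j = Ioc 0 j from rfl, sum_filter, sum_filter]
          refine sum_le_sum fun n hn => ?_
          rw [mem_Ioc] at hn
          by_cases hc : q.Coprime n
          · simp [hc, Nat.coprime_comm.1 hc]
          by_cases hp : IsPrimePow n
          · rw [if_pos hc, if_pos ⟨hp, fun h => hc h.symm⟩, hl]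
            exact vonMangoldt_le_log.trans (Real.log_le_log (Nat.cast_pos.2 hn.1)
              (Nat.cast_le.2 (hn.2.trans hj)))
          · rw [if_pos hc, vonMangoldt_eq_zero_iff.2 hp, if_neg fun h => hp h.1]
      _ ≤ (q : ℝ) * (2 * l) * l := by
          rw [sum_const, nsmul_eq_mul]
          refine mul_le_mul_of_nonneg_right ?_ hl0.le
          refine (Nat.cast_le.2 (SiegelWalfisz.card_bad_le q j)).trans ?_
          push_cast
          refine mul_le_mul_of_nonneg_left ?_ (Nat.cast_nonneg q)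
          have hj0 : j ≠ 0 := by
            rintro rfl
            norm_num at hj1
          have h3 : ((2 : ℝ) ^ Nat.log 2 j) ≤ N := by
            exact_mod_cast (Nat.pow_log_le_self 2 hj0).trans hj
          have h4 := Real.log_le_log (by positivity) h3
          rw [Real.log_pow, ← hl] at h4
          have h5 : (0 : ℝ) ≤ Nat.log 2 j := Nat.cast_nonneg _
          nlinarith [Real.log_two_gt_d9]
      _ ≤ 2 * (l ^ B * l ^ 2) := by
          have := mul_le_mul_of_nonneg_right hq (show 0 ≤ l ^ 2 by positivity)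
          linarith
      _ ≤ 4 * (K₂ * T) := by
          have h6 : l ^ B * l ^ 2 ≤ K₂ * T := by
            rw [hT, mul_div_assoc', le_div_iff₀ (by positivity), ← pow_add, ← pow_add,
              show B + 2 + E = E + B + 2 by ring]
            refine (hl ▸ hpow' N hN1.le : l ^ (E + B + 2) ≤ K₂ * √(N : ℝ)).trans
              (mul_le_mul_of_nonneg_left ?_ hK₂.le)
            rw [Real.sqrt_le_left (Nat.cast_nonneg N)]
            nlinarith
          linarith
      _ = _ := by ring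
  have hsplit : ∑ n ∈ Ioc 0 j, majorWeight q a n =
      ∑ r ∈ unitResidues q, eAdd ((a : ℝ) * r / q) *
        (((∑ n ∈ (Ioc 0 j).filter (fun n : ℕ => (n : ZMod q) = (r : ZMod q)), Λ n) -
          (j : ℝ) / q.totient : ℝ) : ℂ) +
      ∑ n ∈ (Ioc 0 j).filter (fun n => ¬ q.Coprime n),
        (Λ n : ℂ) * eAdd ((a : ℝ) * n / q) := by
    simp only [Complex.ofReal_sub, mul_sub, sum_sub_distrib, majorWeight]
    rw [← sum_coprime_fiber, ← sum_mul, sum_eAdd_unitResidues_of_isUnit (NeZero.pos q) ha,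
      ← sum_filter_add_sum_filter_not (Ioc 0 j) (fun n => q.Coprime n)
        (fun n => (Λ n : ℂ) * eAdd ((a : ℝ) * n / q)), sum_const, Nat.card_Ioc, Nat.sub_zero,
      nsmul_eq_mul]
    push_cast
    ring
  rw [hsplit]
  refine (norm_add_le _ _).trans ?_
  have hA : ‖∑ r ∈ unitResidues q, eAdd ((a : ℝ) * r / q) *
        (((∑ n ∈ (Ioc 0 j).filter (fun n : ℕ => (n : ZMod q) = (r : ZMod q)), Λ n) -
          (j : ℝ) / q.totient : ℝ) : ℂ)‖ ≤ C₀ * 2 ^ (E + B + 1) * T := by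
    refine (norm_sum_le _ _).trans ((sum_le_card_nsmul _ _
      (C₀ * 2 ^ (E + B + 1) * T / l ^ B / l) fun r hr => ?_).trans ?_)
    · rw [norm_mul, norm_eAdd, one_mul, Complex.norm_real]
      exact hclass r hr
    · rw [card_unitResidues, nsmul_eq_mul]
      have hl1 : 1 ≤ l := by
        rcases Nat.eq_zero_or_pos B with rfl | hB
        · have h3 : Real.log j ≤ l := hl ▸ Real.log_le_log (by linarith) hjN
          linarith
        · by_contra h
          have := pow_lt_one₀ hl0.le (not_le.1 h) hB.ne'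
          linarith
      have hφ : (q.totient : ℝ) ≤ l ^ B := (Nat.cast_le.2 (Nat.totient_le q)).trans hq
      calc (q.totient : ℝ) * (C₀ * 2 ^ (E + B + 1) * T / l ^ B / l)
          ≤ l ^ B * (C₀ * 2 ^ (E + B + 1) * T / l ^ B / l) :=
            mul_le_mul_of_nonneg_right hφ (by positivity)
        _ = C₀ * 2 ^ (E + B + 1) * T / l := by field_simp
        _ ≤ _ := div_le_self hnn.1 hl1
  have hB' : ‖∑ n ∈ (Ioc 0 j).filter (fun n => ¬ q.Coprime n),
      (Λ n : ℂ) * eAdd ((a : ℝ) * n / q)‖ ≤ 4 * K₂ * T := by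
    refine (norm_sum_le _ _).trans (le_of_eq_of_le (sum_congr rfl fun n _ => ?_) hbad)
    rw [norm_mul, norm_eAdd, mul_one, Complex.norm_real, Real.norm_eq_abs,
      abs_of_nonneg vonMangoldt_nonneg]
  linarith

/-- **The approximation on a major arc.** -/
theorem exists_major_approx (B D : ℕ) : ∃ C : ℝ, 0 < C ∧
    ∀ (N q : ℕ) [NeZero q] (a : ℤ) (β : ℝ), 2 ≤ N → IsUnit (a : ZMod q) →
      (q : ℝ) ≤ Real.log N ^ B → |β| * N ≤ Real.log N ^ B →
        ‖twist ((a : ℝ) / q + β) Λ N -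
          ((moebiusR q / q.totient : ℝ) : ℂ) * geomSum N β‖ ≤ C * (N / Real.log N ^ D) := by
  obtain ⟨C, hC, h⟩ := exists_majorWeight_sum_le B (D + B)
  refine ⟨9 * C, by positivity, fun N q _ a β hN ha hq hβ => ?_⟩
  have e : twist ((a : ℝ) / q + β) Λ N - ((moebiusR q / q.totient : ℝ) : ℂ) * geomSum N β =
      ∑ n ∈ Ioc 0 N, majorWeight q a n * eAdd (n * β) := by
    rw [twist, geomSum, mul_sum, ← sum_sub_distrib]
    refine sum_congr rfl fun n _ => ?_
    rw [majorWeight, mul_add, eAdd_add, show (n : ℝ) * ((a : ℝ) / q) = (a : ℝ) * n / q by ring]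
    ring
  rw [e]
  refine (norm_sum_mul_eAdd_le _ β N (h N q a hN ha hq)).trans ?_
  obtain ⟨l, hl⟩ : ∃ l, l = Real.log N := ⟨_, rfl⟩
  rw [← hl] at hq hβ ⊢
  have hl0 : 0 < l := hl ▸ Real.log_pos (by exact_mod_cast hN)
  have h1 : (1 : ℝ) ≤ l ^ B := le_trans (by exact_mod_cast NeZero.one_le) hq
  have h2 : 1 + 2 * π * |β| * N ≤ 9 * l ^ B := by
    have := mul_le_mul_of_nonneg_left hβ (show (0 : ℝ) ≤ 2 * π by positivity)
    have := mul_le_mul_of_nonneg_right Real.pi_le_four (show (0 : ℝ) ≤ l ^ B by positivity)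
    linarith
  refine (mul_le_mul_of_nonneg_left h2 (by positivity)).trans (le_of_eq ?_)
  rw [pow_add]
  field_simp

end FA.ThreePrimes
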