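import Mathlib.Analysis.SpecialFunctions.Trigonometric.Bounds
import Mathlib.Analysis.SpecialFunctions.Complex.Circle
import Mathlib.Data.ZMod.ValMinAbs
import Mathlib.NumberTheory.Harmonic.Bounds
import Mathlib.Algebra.Field.GeomSum

/-!
# Linear exponential sums

`eAdd x = exp (2 π i x)`, the bound `1 / (2 ‖x‖)` for geometric sums, Vinogradov's lemmas on sums
of `min (Z, 1 / (2 ‖c + α m‖))` for `α` near `a / q`, and orthogonality on the points `h / M`.
-/

set_option autoImplicit false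

noncomputable section

namespace FA.ThreePrimes

open Finset Complex
open scoped Real ComplexConjugate

/-- `exp (2 π i x)`. -/
def eAdd (x : ℝ) : ℂ := Complex.exp ((2 * π * x : ℝ) * I)

theorem eAdd_add (x y : ℝ) : eAdd (x + y) = eAdd x * eAdd y := by
  rw [eAdd, eAdd, eAdd, ← Complex.exp_add]
  push_cast
  ring_nf

@[simp] theorem eAdd_zero : eAdd 0 = 1 := by simp [eAdd]

theorem norm_eAdd (x : ℝ) : ‖eAdd x‖ = 1 := Complex.norm_exp_ofReal_mul_I _

theorem eAdd_intCast (k : ℤ) : eAdd (k : ℝ) = 1 := by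
  rw [eAdd, Complex.exp_eq_one_iff]
  exact ⟨k, by push_cast; ring⟩

theorem eAdd_natCast (k : ℕ) : eAdd (k : ℝ) = 1 := by simpa using eAdd_intCast (k : ℤ)

theorem eAdd_nat_mul (n : ℕ) (x : ℝ) : eAdd (n * x) = eAdd x ^ n := by
  rw [eAdd, eAdd, ← Complex.exp_nat_mul]
  push_cast
  ring_nf

theorem conj_eAdd (x : ℝ) : conj (eAdd x) = eAdd (-x) := by
  rw [eAdd, eAdd, ← Complex.exp_conj]
  simp [map_ofNat]

theorem eAdd_add_intCast (x : ℝ) (k : ℤ) : eAdd (x + k) = eAdd x := by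
  rw [eAdd_add, eAdd_intCast, mul_one]

/-- The distance to the nearest integer. -/
def nearDist (x : ℝ) : ℝ := |x - round x|

theorem nearDist_nonneg (x : ℝ) : 0 ≤ nearDist x := abs_nonneg _

theorem nearDist_le_abs_sub (x : ℝ) (k : ℤ) : nearDist x ≤ |x - k| := round_le x k

theorem nearDist_add_intCast (x : ℝ) (k : ℤ) : nearDist (x + k) = nearDist x := by
  unfold nearDist
  rw [round_add_intCast]
  push_cast
  ring_nf

theorem nearDist_sub_le (x y : ℝ) : nearDist x ≤ nearDist y + |x - y| := by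
  refine (nearDist_le_abs_sub x (round y)).trans ?_
  rw [nearDist]
  linarith [abs_sub_le x y (round y : ℝ)]

theorem nearDist_eq_abs {x : ℝ} (hx : |x| ≤ 1 / 2) : nearDist x = |x| := by
  refine le_antisymm (by simpa using nearDist_le_abs_sub x 0) ?_
  rcases eq_or_ne (round x) 0 with h | h
  · simp [nearDist, h]
  · have h1 : (1 : ℝ) ≤ |(round x : ℝ)| := by
      rw [← Int.cast_abs]
      exact_mod_cast Int.one_le_abs h
    have := abs_sub_abs_le_abs_sub (round x : ℝ) x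
    rw [abs_sub_comm] at this
    rw [nearDist]
    linarith

theorem four_nearDist_le (x : ℝ) : 4 * nearDist x ≤ ‖eAdd x - 1‖ := by
  obtain ⟨y, hy⟩ : ∃ y, y = x - round x := ⟨_, rfl⟩
  have e : eAdd x = eAdd y := by
    rw [← eAdd_add_intCast y (round x), hy, sub_add_cancel]
  have hy2 : |y| ≤ 1 / 2 := hy ▸ abs_sub_round x
  rw [e, nearDist, ← hy, eAdd, mul_comm _ I, Complex.norm_exp_I_mul_ofReal_sub_one,
    Real.norm_eq_abs, abs_mul, abs_two, show 2 * π * y / 2 = π * y by ring]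
  have h : |π * y| ≤ π / 2 := by
    rw [abs_mul, abs_of_pos Real.pi_pos]
    have := mul_le_mul_of_nonneg_left hy2 Real.pi_pos.le
    linarith
  have h2 := Real.mul_abs_le_abs_sin h
  rw [abs_mul, abs_of_pos Real.pi_pos, ← mul_assoc, div_mul_cancel₀ _ Real.pi_pos.ne'] at h2
  linarith

/-- `min (Z, 1 / (2 ‖x‖))`, read as `Z` at the integers. -/
def clip (Z x : ℝ) : ℝ := if nearDist x = 0 then Z else min Z (1 / (2 * nearDist x))

theorem clip_le (Z x : ℝ) : clip Z x ≤ Z := by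
  unfold clip
  split_ifs
  exacts [le_rfl, min_le_left _ _]

theorem clip_nonneg {Z : ℝ} (hZ : 0 ≤ Z) (x : ℝ) : 0 ≤ clip Z x := by
  unfold clip
  split_ifs
  exacts [hZ, le_min hZ (by positivity [nearDist_nonneg x])]

theorem clip_mono {Z Z' : ℝ} (h : Z ≤ Z') (x : ℝ) : clip Z x ≤ clip Z' x := by
  unfold clip
  split_ifs
  exacts [h, min_le_min_right _ h]

theorem clip_le_inv {Z x δ : ℝ} (hδ : 0 < δ) (h : δ ≤ nearDist x) :
    clip Z x ≤ 1 / (2 * δ) := by
  rw [clip, if_neg (by linarith)]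
  exact (min_le_right _ _).trans (one_div_le_one_div_of_le (by positivity) (by linarith))

theorem norm_geom_le (x : ℝ) (a b : ℕ) :
    ‖∑ n ∈ Ioc a b, eAdd (n * x)‖ ≤ clip ((b - a : ℕ) : ℝ) x := by
  have htriv : ‖∑ n ∈ Ioc a b, eAdd (n * x)‖ ≤ ((b - a : ℕ) : ℝ) := by
    refine (norm_sum_le _ _).trans (le_of_eq ?_)
    simp [norm_eAdd]
  unfold clip
  split_ifs with h
  · exact htriv
  refine le_min htriv ?_
  rcases lt_or_ge b a with hab | hab
  · rw [Ioc_eq_empty (by omega)]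
    simp [nearDist_nonneg]
  have hpos : 0 < nearDist x := lt_of_le_of_ne (nearDist_nonneg x) (Ne.symm h)
  have h4 := four_nearDist_le x
  have hne : eAdd x ≠ 1 := fun h1 => by
    rw [h1, sub_self, norm_zero] at h4
    linarith
  simp only [eAdd_nat_mul]
  rw [show Ioc a b = Ico (a + 1) (b + 1) by ext; simp,
    geom_sum_Ico hne (by omega), norm_div]
  refine (div_le_div₀ (c := 2) (d := 4 * nearDist x) two_pos.le ?_ (by positivity) h4).trans
    (le_of_eq ?_)
  · refine (norm_sub_le _ _).trans (le_of_eq ?_)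
    rw [norm_pow, norm_pow, norm_eAdd, one_pow, one_pow]
    norm_num
  · field_simp
    norm_num

/-- The reciprocals of `|j|` over `|j| ≤ q`. -/
theorem sum_inv_natAbs_le (q : ℕ) :
    ∑ j ∈ Icc (-(q : ℤ)) q, ((j.natAbs : ℝ))⁻¹ ≤ 2 * (1 + Real.log q) := by
  rw [← sum_fiberwise_of_maps_to (g := Int.natAbs) (t := Icc 0 q) (fun j hj => by
    rw [mem_Icc] at hj ⊢
    omega)]
  have h : ∀ n ∈ Icc 0 q, ∑ j ∈ (Icc (-(q : ℤ)) q).filter (fun j => j.natAbs = n),
      ((j.natAbs : ℝ))⁻¹ ≤ 2 * (n : ℝ)⁻¹ := by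
    intro n _
    rw [sum_congr rfl fun j hj => by rw [(mem_filter.1 hj).2], sum_const, nsmul_eq_mul]
    refine mul_le_mul_of_nonneg_right ?_ (by positivity)
    refine le_trans (Nat.cast_le.2 (card_le_card (t := {(n : ℤ), -(n : ℤ)}) fun j hj => ?_)) ?_
    · rw [mem_filter] at hj
      rw [mem_insert, mem_singleton]
      omega
    · exact_mod_cast card_le_two
  refine (sum_le_sum h).trans ?_
  rw [← mul_sum]
  refine mul_le_mul_of_nonneg_left ?_ two_pos.le
  have e : ∑ n ∈ Icc 0 q, (n : ℝ)⁻¹ = ∑ n ∈ Icc 1 q, (n : ℝ)⁻¹ := by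
    refine (sum_subset (Icc_subset_Icc_left zero_le_one) fun n hn hn' => ?_).symm
    rw [mem_Icc] at hn hn'
    obtain rfl : n = 0 := by omega
    simp
  rw [e]
  have := harmonic_le_one_add_log q
  rw [harmonic_eq_sum_Icc] at this
  push_cast at this
  exact this

theorem injOn_minAbs {q : ℕ} {a : ℤ} (ha : IsUnit (a : ZMod q)) (k : ℤ) :
    Set.InjOn (fun r : ℕ => ((k : ZMod q) + (a : ZMod q) * (r : ZMod q)).valMinAbs)
      (range q : Finset ℕ) := by
  intro r hr r' hr' h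
  rw [coe_range, Set.mem_Iio] at hr hr'
  have h1 := ha.mul_left_cancel (add_left_cancel (ZMod.injective_valMinAbs h))
  have h2 := congrArg ZMod.val h1
  rwa [ZMod.val_cast_of_lt hr, ZMod.val_cast_of_lt hr'] at h2

theorem exists_int_eq_minAbs {q : ℕ} [NeZero q] (a k : ℤ) (r : ℕ) : ∃ m : ℤ,
    ((k : ℝ) + a * r) / q =
      (((k : ZMod q) + (a : ZMod q) * (r : ZMod q)).valMinAbs : ℝ) / q + m := by
  obtain ⟨m, hm⟩ :
      (q : ℤ) ∣ k + a * r - ((k : ZMod q) + (a : ZMod q) * (r : ZMod q)).valMinAbs := by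
    rw [← ZMod.intCast_zmod_eq_zero_iff_dvd]
    push_cast
    simp
  refine ⟨m, ?_⟩
  have hq : (q : ℝ) ≠ 0 := Nat.cast_ne_zero.2 (NeZero.ne q)
  have h : (k : ℝ) + a * r - (((k : ZMod q) + (a : ZMod q) * (r : ZMod q)).valMinAbs : ℝ) =
      q * m := by
    exact_mod_cast hm
  field_simp
  linarith

/-- **A complete period**: at most five of the points `c + a r / q + δ r` are near an integer. -/
theorem sum_clip_period_le {q : ℕ} [NeZero q] {a : ℤ} (ha : IsUnit (a : ZMod q)) (c : ℝ)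
    {δ : ℕ → ℝ} (hδ : ∀ r < q, |δ r| ≤ 1 / q) {Z : ℝ} (hZ : 0 ≤ Z) :
    ∑ r ∈ range q, clip Z (c + a * r / q + δ r) ≤ 5 * Z + 2 * q * (1 + Real.log q) := by
  have hq : (0 : ℝ) < q := Nat.cast_pos.2 (NeZero.pos q)
  obtain ⟨k, hk⟩ : ∃ k, k = round (q * c) := ⟨_, rfl⟩
  obtain ⟨j, hj⟩ : ∃ j : ℕ → ℤ,
      j = fun r : ℕ => ((k : ZMod q) + (a : ZMod q) * (r : ZMod q)).valMinAbs :=
    ⟨_, rfl⟩
  obtain ⟨g, hg⟩ : ∃ g : ℤ → ℝ,
      g = fun i => (if i.natAbs ≤ 2 then Z else 0) + q * ((i.natAbs : ℝ))⁻¹ := ⟨_, rfl⟩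
  have hpt : ∀ r ∈ range q, clip Z (c + a * r / q + δ r) ≤ g (j r) := by
    intro r hr
    rw [hg]
    simp only
    rcases le_or_gt (j r).natAbs 2 with h | h
    · rw [if_pos h]
      exact (clip_le _ _).trans (le_add_of_nonneg_right (by positivity))
    rw [if_neg (by omega), zero_add]
    obtain ⟨m, hm⟩ := exists_int_eq_minAbs (q := q) a k r
    rw [show ((k : ZMod q) + (a : ZMod q) * (r : ZMod q)).valMinAbs = j r by rw [hj]] at hm
    have hhalf : |(j r : ℝ) / q| ≤ 1 / 2 := by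
      have h1 := ZMod.natAbs_valMinAbs_le ((k : ZMod q) + (a : ZMod q) * (r : ZMod q))
      rw [show ((k : ZMod q) + (a : ZMod q) * (r : ZMod q)).valMinAbs = j r by rw [hj]] at h1
      have h2 : 2 * (j r).natAbs ≤ q := by omega
      have h3 : 2 * ((j r).natAbs : ℝ) ≤ q := by exact_mod_cast h2
      rw [abs_div, abs_of_pos hq, div_le_iff₀ hq, ← Int.cast_abs, ← Nat.cast_natAbs]
      linarith
    have heps : |c + a * r / q + δ r - ((j r : ℝ) / q + m)| ≤ 3 / (2 * q) := by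
      rw [← hm, show c + a * r / q + δ r - (k + a * r) / q = (q * c - k) / q + δ r by
        field_simp; ring]
      refine (abs_add_le _ _).trans ((add_le_add (b := (1 / 2 : ℝ) / q) ?_
        (hδ r (mem_range.1 hr))).trans (le_of_eq ?_))
      · rw [abs_div, abs_of_pos hq, hk]
        exact div_le_div_of_nonneg_right (abs_sub_round _) hq.le
      · field_simp
        ring
    have h5 := nearDist_sub_le ((j r : ℝ) / q + m) (c + a * r / q + δ r)
    rw [nearDist_add_intCast, nearDist_eq_abs hhalf, abs_sub_comm, abs_div, abs_of_pos hq,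
      ← Int.cast_abs, ← Nat.cast_natAbs] at h5
    have h6 : (3 : ℝ) ≤ ((j r).natAbs : ℝ) := by exact_mod_cast h
    refine (clip_le_inv (δ := ((j r).natAbs : ℝ) / (2 * q)) (by positivity) ?_).trans (le_of_eq ?_)
    · have e : ((j r).natAbs : ℝ) / q = ((j r).natAbs : ℝ) / (2 * q) * 2 := by field_simp
      have e2 : 3 / (2 * (q : ℝ)) ≤ ((j r).natAbs : ℝ) / (2 * q) :=
        div_le_div_of_nonneg_right h6 (by positivity)
      linarith
    · field_simp
  refine (sum_le_sum hpt).trans ?_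
  rw [← sum_image (g := j) (hj ▸ injOn_minAbs ha k)]
  refine (sum_le_sum_of_subset_of_nonneg (t := Icc (-(q : ℤ)) q) ?_ fun i _ _ => ?_).trans ?_
  · intro i hi
    obtain ⟨r, -, rfl⟩ := mem_image.1 hi
    have h1 := ZMod.natAbs_valMinAbs_le ((k : ZMod q) + (a : ZMod q) * (r : ZMod q))
    rw [show ((k : ZMod q) + (a : ZMod q) * (r : ZMod q)).valMinAbs = j r by rw [hj]] at h1
    rw [mem_Icc]
    omega
  · rw [hg]
    positivity
  · rw [hg, sum_add_distrib, ← sum_filter, sum_const, nsmul_eq_mul, ← mul_sum]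
    refine add_le_add (mul_le_mul_of_nonneg_right ?_ hZ) ?_
    · refine (Nat.cast_le.2 (card_le_card (t := Icc (-2 : ℤ) 2) fun i hi => ?_)).trans
        (le_of_eq ?_)
      · rw [mem_filter] at hi
        rw [mem_Icc]
        omega
      · rw [Int.card_Icc]
        norm_cast
    · have := mul_le_mul_of_nonneg_left (sum_inv_natAbs_le q) hq.le
      linarith

variable {q : ℕ} [NeZero q] {a : ℤ} {α : ℝ}

theorem sum_clip_block_le (ha : IsUnit (a : ZMod q)) (hα : |α - a / q| ≤ 1 / (q : ℝ) ^ 2)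
    (c : ℝ) {Z : ℝ} (hZ : 0 ≤ Z) :
    ∑ r ∈ range q, clip Z (c + α * r) ≤ 5 * Z + 2 * q * (1 + Real.log q) := by
  have hq : (0 : ℝ) < q := Nat.cast_pos.2 (NeZero.pos q)
  refine le_trans (le_of_eq (sum_congr rfl fun r _ => ?_))
    (sum_clip_period_le ha c (δ := fun r => (α - a / q) * r) (fun r hr => ?_) hZ)
  · congr 1
    ring
  · rw [abs_mul, Nat.abs_cast]
    refine (mul_le_mul hα (Nat.cast_le.2 hr.le) (Nat.cast_nonneg r) (by positivity)).trans
      (le_of_eq ?_)
    field_simp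

/-- **Any `K` consecutive terms.** -/
theorem sum_clip_range_le (ha : IsUnit (a : ZMod q)) (hα : |α - a / q| ≤ 1 / (q : ℝ) ^ 2)
    (c : ℝ) {Z : ℝ} (hZ : 0 ≤ Z) (K : ℕ) :
    ∑ m ∈ range K, clip Z (c + α * m) ≤
      ((K : ℝ) / q + 1) * (5 * Z + 2 * q * (1 + Real.log q)) := by
  have hq : (0 : ℝ) < q := Nat.cast_pos.2 (NeZero.pos q)
  have hlt := Nat.lt_div_mul_add (a := K) (NeZero.pos q)
  refine (sum_le_sum_of_subset_of_nonneg (t := range ((K / q + 1) * q))
    (range_subset_range.2 ?_) fun m _ _ => clip_nonneg hZ _).trans ?_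
  · rw [add_mul, one_mul]
    exact hlt.le
  have key : ∀ H : ℕ, ∑ m ∈ range (H * q), clip Z (c + α * m) ≤
      H * (5 * Z + 2 * q * (1 + Real.log q)) := by
    intro H
    induction H with
    | zero => simp
    | succ H ih =>
      rw [add_mul, one_mul, sum_range_add, Nat.cast_succ, add_mul _ (1 : ℝ), one_mul]
      refine add_le_add ih (le_trans (le_of_eq (sum_congr rfl fun r _ => ?_))
        (sum_clip_block_le ha hα (c + α * (H * q : ℕ)) hZ))
      push_cast
      ring_nf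
  refine (key _).trans (mul_le_mul_of_nonneg_right ?_ (by positivity [Real.log_natCast_nonneg q]))
  push_cast
  linarith [Nat.cast_div_le (α := ℝ) (m := K) (n := q)]

/-- The first half period, without the largest term. -/
theorem sum_clip_low_le (ha : IsUnit (a : ZMod q)) (hα : |α - a / q| ≤ 1 / (q : ℝ) ^ 2)
    (Z : ℕ → ℝ) :
    ∑ m ∈ Icc 1 (q / 2), clip (Z m) (α * m) ≤ 2 * q * (1 + Real.log q) := by
  have hq : (0 : ℝ) < q := Nat.cast_pos.2 (NeZero.pos q)
  obtain ⟨j, hj⟩ : ∃ j : ℕ → ℤ,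
      j = fun r : ℕ => (((0 : ℤ) : ZMod q) + (a : ZMod q) * (r : ZMod q)).valMinAbs := ⟨_, rfl⟩
  have hsub : Icc 1 (q / 2) ⊆ range q := fun m hm => by
    rw [mem_Icc] at hm
    rw [mem_range]
    omega
  have hinj := injOn_minAbs ha (0 : ℤ)
  rw [← hj] at hinj
  have hpt : ∀ m ∈ Icc 1 (q / 2), clip (Z m) (α * m) ≤ q * ((j m).natAbs : ℝ)⁻¹ := by
    intro m hm
    have hm' := mem_range.1 (hsub hm)
    rw [mem_Icc] at hm
    have hne : j m ≠ 0 := by
      intro h
      rw [hj] at h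
      simp only [ZMod.valMinAbs_eq_zero, Int.cast_zero, zero_add] at h
      have h1 := congrArg ZMod.val (ha.mul_left_cancel (h.trans (mul_zero _).symm))
      rw [ZMod.val_cast_of_lt hm', ZMod.val_zero] at h1
      omega
    have hn1 : (1 : ℝ) ≤ ((j m).natAbs : ℝ) := by
      exact_mod_cast Int.natAbs_pos.2 hne
    obtain ⟨t, ht⟩ := exists_int_eq_minAbs (q := q) a 0 m
    rw [show (((0 : ℤ) : ZMod q) + (a : ZMod q) * (m : ZMod q)).valMinAbs = j m by rw [hj]] at ht
    have hhalf : |(j m : ℝ) / q| ≤ 1 / 2 := by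
      have h1 := ZMod.natAbs_valMinAbs_le (((0 : ℤ) : ZMod q) + (a : ZMod q) * (m : ZMod q))
      rw [show (((0 : ℤ) : ZMod q) + (a : ZMod q) * (m : ZMod q)).valMinAbs = j m by rw [hj]] at h1
      have h3 : 2 * ((j m).natAbs : ℝ) ≤ q := by
        exact_mod_cast (show 2 * (j m).natAbs ≤ q by omega)
      rw [abs_div, abs_of_pos hq, div_le_iff₀ hq, ← Int.cast_abs, ← Nat.cast_natAbs]
      linarith
    have heps : |α * m - ((j m : ℝ) / q + t)| ≤ 1 / (2 * q) := by
      rw [← ht, show α * m - (((0 : ℤ) : ℝ) + a * m) / q = (α - a / q) * m by push_cast; ring,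
        abs_mul, Nat.abs_cast]
      have h2 : (m : ℝ) ≤ q / 2 := by
        rw [le_div_iff₀ two_pos]
        exact_mod_cast (show m * 2 ≤ q by omega)
      refine (mul_le_mul hα h2 (Nat.cast_nonneg m) (by positivity)).trans (le_of_eq ?_)
      field_simp
    have h5 := nearDist_sub_le ((j m : ℝ) / q + t) (α * m)
    rw [nearDist_add_intCast, nearDist_eq_abs hhalf, abs_sub_comm, abs_div, abs_of_pos hq,
      ← Int.cast_abs, ← Nat.cast_natAbs] at h5
    refine (clip_le_inv (δ := ((j m).natAbs : ℝ) / (2 * q)) (by positivity) ?_).trans (le_of_eq ?_)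
    · have e : ((j m).natAbs : ℝ) / q = ((j m).natAbs : ℝ) / (2 * q) * 2 := by field_simp
      have e2 : 1 / (2 * (q : ℝ)) ≤ ((j m).natAbs : ℝ) / (2 * q) :=
        div_le_div_of_nonneg_right hn1 (by positivity)
      linarith
    · field_simp
  refine (sum_le_sum hpt).trans ?_
  rw [← mul_sum, ← sum_image (g := j) (f := fun i : ℤ => ((i.natAbs : ℝ))⁻¹)
    (hinj.mono (coe_subset.2 hsub))]
  refine (mul_le_mul_of_nonneg_left ((sum_le_sum_of_subset_of_nonneg (t := Icc (-(q : ℤ)) q) ?_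
    fun i _ _ => by positivity).trans (sum_inv_natAbs_le q)) hq.le).trans (le_of_eq (by ring))
  intro i hi
  obtain ⟨r, -, rfl⟩ := mem_image.1 hi
  have h1 := ZMod.natAbs_valMinAbs_le (((0 : ℤ) : ZMod q) + (a : ZMod q) * (r : ZMod q))
  rw [show (((0 : ℤ) : ZMod q) + (a : ZMod q) * (r : ZMod q)).valMinAbs = j r by rw [hj]] at h1
  rw [mem_Icc]
  omega

/-- **Vinogradov's lemma.** -/
theorem sum_clip_div_le (ha : IsUnit (a : ZMod q)) (hα : |α - a / q| ≤ 1 / (q : ℝ) ^ 2)
    {X : ℝ} (hX : 0 ≤ X) (K : ℕ) :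
    ∑ m ∈ Icc 1 K, clip (X / m) (α * m) ≤
      (2 * K + 4 * q) * (1 + Real.log q) + 10 * X / q * (1 + Real.log (K + 1)) := by
  have hq : (0 : ℝ) < q := Nat.cast_pos.2 (NeZero.pos q)
  obtain ⟨s, hs⟩ : ∃ s, s = q / 2 + 1 := ⟨_, rfl⟩
  have hnn : ∀ m : ℕ, 0 ≤ clip (X / m) (α * m) := fun m => clip_nonneg (by positivity) _
  have key : ∀ H : ℕ, ∑ m ∈ Icc 1 (q / 2 + H * q), clip (X / m) (α * m) ≤
      2 * q * (1 + Real.log q) +
        ∑ i ∈ range H, (5 * (2 * X / q * ((i + 1 : ℕ) : ℝ)⁻¹) + 2 * q * (1 + Real.log q)) := by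
    intro H
    induction H with
    | zero => simpa using sum_clip_low_le ha hα fun m => X / m
    | succ H ih =>
      have hI : Icc 1 (q / 2 + (H + 1) * q) =
          Icc 1 (q / 2 + H * q) ∪ Ico (s + H * q) (s + H * q + q) := by
        ext m
        simp only [mem_union, mem_Icc, mem_Ico, hs, add_mul, one_mul]
        omega
      rw [hI, sum_union (disjoint_left.2 fun m h1 h2 => by
        rw [mem_Icc] at h1
        rw [mem_Ico] at h2
        omega), sum_range_succ, ← add_assoc, sum_Ico_eq_sum_range, Nat.add_sub_cancel_left]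
      refine add_le_add ih ?_
      have hZ : (0 : ℝ) ≤ 2 * X / q * ((H + 1 : ℕ) : ℝ)⁻¹ := by positivity
      refine le_trans (sum_le_sum fun r _ => ?_)
        (sum_clip_block_le ha hα (α * (s + H * q : ℕ)) hZ)
      refine le_trans (clip_mono (Z' := 2 * X / q * ((H + 1 : ℕ) : ℝ)⁻¹) ?_ _) (le_of_eq ?_)
      · have h1 : ((H + 1 : ℕ) : ℝ) * q ≤ 2 * ((s + H * q + r : ℕ) : ℝ) := by
          exact_mod_cast (show (H + 1) * q ≤ 2 * (s + H * q + r) by
            rw [add_mul, one_mul]; omega)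
        have h2 : (0 : ℝ) < ((s + H * q + r : ℕ) : ℝ) := Nat.cast_pos.2 (by omega)
        rw [← div_eq_mul_inv, div_div, div_le_div_iff₀ h2 (by positivity)]
        nlinarith
      · push_cast
        ring_nf
  obtain ⟨H, hH⟩ : ∃ H, H = K / q + 1 := ⟨_, rfl⟩
  have hKH : K ≤ q / 2 + H * q := by
    have := Nat.lt_div_mul_add (a := K) (NeZero.pos q)
    rw [hH, add_mul, one_mul]
    omega
  refine (sum_le_sum_of_subset_of_nonneg (Icc_subset_Icc_right hKH) fun m _ _ => hnn m).trans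
    ((key H).trans ?_)
  rw [sum_add_distrib, sum_const, card_range, nsmul_eq_mul, ← mul_sum, ← mul_sum]
  have hharm : ∑ i ∈ range H, ((i + 1 : ℕ) : ℝ)⁻¹ ≤ 1 + Real.log (K + 1) := by
    have h1 := harmonic_le_one_add_log H
    simp only [harmonic, Rat.cast_sum, Rat.cast_inv, Rat.cast_natCast] at h1
    refine h1.trans (by
      have hHK : (H : ℝ) ≤ (K : ℝ) + 1 := by
        exact_mod_cast (show H ≤ K + 1 by have := Nat.div_le_self K q; omega)
      have := Real.log_le_log (Nat.cast_pos.2 (hH ▸ Nat.succ_pos _)) hHK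
      linarith)
  have hHq : (H : ℝ) * (2 * q) ≤ 2 * K + 2 * q := by
    have h1 : ((K / q : ℕ) : ℝ) * q ≤ K := by exact_mod_cast Nat.div_mul_le_self K q
    rw [hH]
    push_cast
    linarith
  have := mul_le_mul_of_nonneg_right hHq
    (show 0 ≤ 1 + Real.log q by linarith [Real.log_natCast_nonneg q])
  have h2 := mul_le_mul_of_nonneg_left hharm (show 0 ≤ 10 * X / q by positivity)
  rw [show ∀ S : ℝ, 5 * (2 * X / q * S) = 10 * X / q * S from fun S => by ring]
  linarith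

/-! ### Orthogonality -/

theorem sum_eAdd_grid {M : ℕ} (hM : 0 < M) (k : ℤ) :
    ∑ h ∈ range M, eAdd (k * h / M) = if (M : ℤ) ∣ k then (M : ℂ) else 0 := by
  have hM0 : (M : ℝ) ≠ 0 := Nat.cast_ne_zero.2 hM.ne'
  have e : ∀ h : ℕ, eAdd (k * h / M) = eAdd (k / M) ^ h := fun h => by
    rw [← eAdd_nat_mul]
    ring_nf
  simp only [e]
  split_ifs with hd
  · obtain ⟨m, rfl⟩ := hd
    rw [show ((((M : ℤ) * m : ℤ) : ℝ) / M) = ((m : ℤ) : ℝ) by push_cast; field_simp, eAdd_intCast]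
    simp
  · have hne : eAdd ((k : ℝ) / M) ≠ 1 := by
      rw [eAdd, Ne, Complex.exp_eq_one_iff]
      rintro ⟨n, hn⟩
      have h1 := congrArg Complex.im hn
      simp at h1
      refine hd ⟨n, ?_⟩
      have h2 : (k : ℝ) / M = n := by
        refine mul_left_cancel₀ (mul_ne_zero two_ne_zero Real.pi_ne_zero) ?_
        linarith
      rw [div_eq_iff hM0] at h2
      exact_mod_cast h2.trans (mul_comm _ _)
    rw [geom_sum_eq hne, ← eAdd_nat_mul, show (M : ℝ) * (k / M) = k by field_simp, eAdd_intCast,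
      sub_self, zero_div]

/-- `∑_{n ≤ N} f n e (n x)`. -/
def trigSum (f : ℕ → ℂ) (N : ℕ) (x : ℝ) : ℂ := ∑ n ∈ Icc 1 N, f n * eAdd (n * x)

/-- The weighted number of triples with sum `N`. -/
def tripleSum (f : ℕ → ℂ) (N : ℕ) : ℂ :=
  ∑ i ∈ Icc 1 N, ∑ j ∈ Icc 1 N, ∑ k ∈ Icc 1 N, if i + j + k = N then f i * f j * f k else 0

/-- **The cube on a translate of the grid.** -/
theorem sum_cube_grid (f : ℕ → ℂ) {N M : ℕ} (hM : 3 * N ≤ M) (θ : ℝ) :
    ∑ h ∈ range M, trigSum f N (h / M + θ) ^ 3 * eAdd (-(N * (h / M + θ))) =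
      M * tripleSum f N := by
  have e : ∀ x : ℝ, trigSum f N x ^ 3 * eAdd (-(N * x)) = ∑ i ∈ Icc 1 N, ∑ j ∈ Icc 1 N,
      ∑ k ∈ Icc 1 N, f i * f j * f k * eAdd ((((i : ℤ) + j + k - N : ℤ) : ℝ) * x) := by
    intro x
    rw [pow_three, trigSum, sum_mul_sum, sum_mul]
    simp only [sum_mul, mul_sum]
    refine sum_congr rfl fun i _ => sum_congr rfl fun j _ => sum_congr rfl fun k _ => ?_
    push_cast
    rw [show ((i : ℝ) + j + k - N) * x = i * x + j * x + k * x + -(N * x) by ring,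
      eAdd_add, eAdd_add, eAdd_add]
    ring
  simp only [e]
  rw [sum_comm, tripleSum, mul_sum]
  refine sum_congr rfl fun i hi => ?_
  rw [sum_comm, mul_sum]
  refine sum_congr rfl fun j hj => ?_
  rw [sum_comm, mul_sum]
  refine sum_congr rfl fun k hk => ?_
  rw [mem_Icc] at hi hj hk
  simp only [mul_add, eAdd_add, ← mul_assoc]
  rw [← sum_mul, ← mul_sum]
  simp only [← mul_div_assoc]
  rw [sum_eAdd_grid (by omega)]
  by_cases h : i + j + k = N
  · rw [if_pos h, show ((i : ℤ) + j + k - N) = 0 by omega, if_pos (dvd_zero _)]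
    simp
    ring
  · rw [if_neg h, if_neg]
    · simp
    · intro hd
      have := Int.le_of_dvd (abs_pos.2 (show ((i : ℤ) + j + k - N) ≠ 0 by omega))
        ((dvd_abs _ _).2 hd)
      have : |((i : ℤ) + j + k - N)| < M := abs_lt.2 ⟨by omega, by omega⟩
      omega

/-- **The mean square on the grid.** -/
theorem sum_norm_sq_grid (f : ℕ → ℂ) {N M : ℕ} (hM : N < M) :
    ∑ h ∈ range M, ‖trigSum f N (h / M)‖ ^ 2 = M * ∑ n ∈ Icc 1 N, ‖f n‖ ^ 2 := by
  have e : ∀ x : ℝ, ((‖trigSum f N x‖ ^ 2 : ℝ) : ℂ) = ∑ i ∈ Icc 1 N, ∑ j ∈ Icc 1 N,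
      f i * conj (f j) * eAdd ((((i : ℤ) - j : ℤ) : ℝ) * x) := by
    intro x
    rw [Complex.ofReal_pow, ← Complex.mul_conj', trigSum, map_sum, sum_mul_sum]
    refine sum_congr rfl fun i _ => sum_congr rfl fun j _ => ?_
    push_cast
    rw [map_mul, conj_eAdd, sub_mul, sub_eq_add_neg, eAdd_add]
    ring
  apply Complex.ofReal_injective
  rw [Complex.ofReal_sum, sum_congr rfl fun h _ => e _, Complex.ofReal_mul, Complex.ofReal_sum,
    Complex.ofReal_natCast, mul_sum, sum_comm]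
  refine sum_congr rfl fun i hi => ?_
  rw [sum_comm, sum_eq_single i]
  · simp only [sub_self, Int.cast_zero, zero_mul, eAdd_zero, mul_one, sum_const, card_range,
      nsmul_eq_mul]
    rw [Complex.ofReal_pow, ← Complex.mul_conj']
  · intro j hj hji
    rw [← mul_sum]
    simp only [← mul_div_assoc]
    rw [sum_eAdd_grid (by omega), if_neg, mul_zero]
    intro hd
    rw [mem_Icc] at hi hj
    have := Int.le_of_dvd (abs_pos.2 (show ((i : ℤ) - j) ≠ 0 by omega)) ((dvd_abs _ _).2 hd)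
    have : |((i : ℤ) - j)| < M := abs_lt.2 ⟨by omega, by omega⟩
    omega
  · exact fun h => absurd hi h

end FA.ThreePrimes
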