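import Fermat.Agent.ThreePrimes.Exponential
import Fermat.Agent.ThreePrimes.Vaughan
import Mathlib.NumberTheory.EulerProduct.Basic
import Mathlib.Data.Nat.Totient
import Mathlib.Analysis.PSeries
import Mathlib.Data.ZMod.Units

/-!
# Ramanujan sums and the singular series

`c_q (n) = ∑_{d ∣ (q, n)} μ (q / d) d`, and `∑_q μ q c_q (N) / φ (q) ^ 3` converges absolutely to a
number at least `1/2` for odd `N`.
-/

set_option autoImplicit false

noncomputable section

namespace FA.ThreePrimes

open Finset Complex ArithmeticFunction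
open scoped Real ArithmeticFunction.Moebius ArithmeticFunction.zeta

/-- The residues prime to `q`. -/
def unitResidues (q : ℕ) : Finset ℕ := (range q).filter fun r => q.Coprime r

theorem card_unitResidues (q : ℕ) : (unitResidues q).card = q.totient := by
  rw [unitResidues, Nat.totient_eq_card_coprime]

theorem sum_moebius_divisors (n : ℕ) :
    ∑ d ∈ n.divisors, moebiusR d = if n = 1 then 1 else 0 := by
  have h : (moebiusR * oneR) n = (1 : ArithmeticFunction ℝ) n := by
    rw [show moebiusR * oneR = 1 from coe_moebius_mul_coe_zeta]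
  rwa [oneR, coe_mul_zeta_apply, one_apply] at h

/-- **The Ramanujan sum.** -/
theorem sum_eAdd_unitResidues {q : ℕ} (hq : 0 < q) (n : ℤ) :
    ∑ r ∈ unitResidues q, eAdd ((n : ℝ) * r / q) =
      ((∑ d ∈ q.divisors, if (d : ℤ) ∣ n then moebiusR (q / d) * d else 0 : ℝ) : ℂ) := by
  classical
  have h1 : ∀ r ∈ range q, (if q.Coprime r then eAdd ((n : ℝ) * r / q) else 0) =
      ∑ d ∈ q.divisors, if d ∣ r then (moebiusR d : ℂ) * eAdd ((n : ℝ) * r / q) else 0 := by
    intro r _
    rw [← sum_filter, ← sum_mul, ← Complex.ofReal_sum]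
    have e : q.divisors.filter (· ∣ r) = (Nat.gcd q r).divisors := by
      ext d
      simp only [mem_filter, Nat.mem_divisors, Nat.dvd_gcd_iff]
      have : Nat.gcd q r ≠ 0 := (Nat.gcd_pos_of_pos_left r hq).ne'
      constructor
      · rintro ⟨⟨h1, -⟩, h2⟩
        exact ⟨⟨h1, h2⟩, this⟩
      · rintro ⟨⟨h1, h2⟩, -⟩
        exact ⟨⟨h1, hq.ne'⟩, h2⟩
    rw [e, sum_moebius_divisors]
    by_cases hc : q.Coprime r
    · rw [if_pos hc, if_pos hc.gcd_eq_one]
      simp
    · rw [if_neg hc, if_neg hc]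
      simp
  rw [unitResidues, sum_filter, sum_congr rfl h1, sum_comm, Complex.ofReal_sum,
    ← Nat.sum_div_divisors q
      (fun d => ((if (d : ℤ) ∣ n then moebiusR (q / d) * d else 0 : ℝ) : ℂ))]
  refine sum_congr rfl fun d hd => ?_
  rw [Nat.mem_divisors] at hd
  obtain ⟨j, hj⟩ := hd.1
  have hd0 : 0 < d := Nat.pos_of_dvd_of_pos hd.1 hq
  have hj0 : 0 < j := Nat.pos_of_mul_pos_left (hj ▸ hq)
  rw [show q / d = j by rw [hj, Nat.mul_div_cancel_left _ hd0],
    show q / j = d by rw [hj, Nat.mul_div_cancel _ hj0], ← sum_filter, ← mul_sum,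
    show (range q).filter (d ∣ ·) = (range j).image (d * ·) by
      ext r
      simp only [mem_filter, mem_range, mem_image]
      constructor
      · rintro ⟨h, i, rfl⟩
        exact ⟨i, Nat.lt_of_mul_lt_mul_left (a := d) (hj ▸ h), rfl⟩
      · rintro ⟨i, h, rfl⟩
        exact ⟨hj ▸ Nat.mul_lt_mul_of_pos_left h hd0, dvd_mul_right d i⟩,
    sum_image fun x _ y _ h => Nat.eq_of_mul_eq_mul_left hd0 h]
  have e2 : ∀ i : ℕ, eAdd ((n : ℝ) * (d * i : ℕ) / q) = eAdd (n * i / j) := fun i => by
    rw [hj]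
    push_cast
    have : (d : ℝ) ≠ 0 := Nat.cast_ne_zero.2 hd0.ne'
    congr 1
    field_simp
  rw [sum_congr rfl fun i _ => e2 i, sum_eAdd_grid hj0]
  split_ifs <;> simp

/-- For `n` prime to `q` it is `μ q`. -/
theorem sum_eAdd_unitResidues_of_isUnit {q : ℕ} (hq : 0 < q) {n : ℤ}
    (hn : IsUnit (n : ZMod q)) :
    ∑ r ∈ unitResidues q, eAdd ((n : ℝ) * r / q) = (moebiusR q : ℂ) := by
  rw [sum_eAdd_unitResidues hq, sum_eq_single 1]
  · simp
  · intro d hd hd1
    rw [if_neg]
    intro hdn
    rw [Nat.mem_divisors] at hd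
    have hc : IsCoprime n (q : ℤ) := by
      rwa [ZMod.coe_int_isUnit_iff_isCoprime, isCoprime_comm] at hn
    have := hc.isUnit_of_dvd' hdn (Int.natCast_dvd_natCast.2 hd.1)
    exact hd1 (Int.ofNat_isUnit.1 this |> Nat.isUnit_iff.1)
  · simp [hq.ne']

/-- `d` when it divides `N`. -/
def divPart (N : ℕ) : ArithmeticFunction ℝ :=
  ⟨fun d => if d ∣ N then (d : ℝ) else 0, by simp⟩

theorem divPart_apply (N d : ℕ) : divPart N d = if d ∣ N then (d : ℝ) else 0 := rfl

theorem divPart_isMultiplicative (N : ℕ) : (divPart N).IsMultiplicative := by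
  refine ⟨by simp [divPart_apply], fun {m n} h => ?_⟩
  simp only [divPart_apply]
  by_cases hm : m ∣ N
  · by_cases hn : n ∣ N
    · rw [if_pos hm, if_pos hn, if_pos (h.mul_dvd_of_dvd_of_dvd hm hn), Nat.cast_mul]
    · rw [if_neg hn, mul_zero, if_neg fun h' => hn (dvd_trans (dvd_mul_left n m) h')]
  · rw [if_neg hm, zero_mul, if_neg fun h' => hm (dvd_trans (dvd_mul_right m n) h')]

/-- `c_q (N)`. -/
def ramanujan (N : ℕ) : ArithmeticFunction ℝ := moebiusR * divPart N

theorem ramanujan_eq {q : ℕ} (hq : 0 < q) (N : ℕ) :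
    (ramanujan N q : ℂ) = ∑ r ∈ unitResidues q, eAdd (((-N : ℤ) : ℝ) * r / q) := by
  rw [sum_eAdd_unitResidues hq, ramanujan, mul_apply,
    Nat.sum_divisorsAntidiagonal' (fun x y => moebiusR x * divPart N y)]
  norm_cast
  refine sum_congr rfl fun d _ => ?_
  simp only [Int.dvd_neg, Int.natCast_dvd_natCast, divPart_apply]
  split_ifs <;> simp

theorem abs_ramanujan_le (N q : ℕ) : |ramanujan N q| ≤ q.totient := by
  rcases Nat.eq_zero_or_pos q with rfl | hq
  · simp
  rw [← Real.norm_eq_abs, ← Complex.norm_real, ramanujan_eq hq]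
  refine (norm_sum_le _ _).trans (le_of_eq ?_)
  simp [norm_eAdd, card_unitResidues]

/-- The terms of the singular series. -/
def singularTerm (N : ℕ) : ArithmeticFunction ℝ :=
  ⟨fun q => moebiusR q * ramanujan N q / (q.totient : ℝ) ^ 3, by simp⟩

theorem singularTerm_apply (N q : ℕ) :
    singularTerm N q = moebiusR q * ramanujan N q / (q.totient : ℝ) ^ 3 := rfl

theorem moebiusR_isMultiplicative : moebiusR.IsMultiplicative :=
  isMultiplicative_moebius.intCast

theorem singularTerm_isMultiplicative (N : ℕ) : (singularTerm N).IsMultiplicative := by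
  have hc : (ramanujan N).IsMultiplicative :=
    moebiusR_isMultiplicative.mul (divPart_isMultiplicative N)
  refine ⟨?_, fun {m n} h => ?_⟩
  · rw [singularTerm_apply, moebiusR_isMultiplicative.1, hc.1]
    simp
  · simp only [singularTerm_apply]
    rw [moebiusR_isMultiplicative.2 h, hc.2 h, Nat.totient_mul h, Nat.cast_mul]
    ring

/-- `8`, `2` at `2`, `3`. -/
def totientFactor (n : ℕ) : ℕ := (if 2 ∣ n then 8 else 1) * if 3 ∣ n then 2 else 1

theorem cube_le_totient (n : ℕ) : n ^ 3 ≤ totientFactor n * n.totient ^ 4 := by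
  induction n using Nat.recOnPosPrimePosCoprime with
  | prime_pow p k hp hk =>
    obtain ⟨i, rfl⟩ : ∃ i, k = i + 1 := ⟨k - 1, by omega⟩
    rw [Nat.totient_prime_pow_succ hp, mul_pow, pow_succ p i, mul_pow]
    have h1 : p ^ 3 ≤ totientFactor (p ^ (i + 1)) * (p - 1) ^ 4 := by
      have h2 : ∀ r : ℕ, r.Prime → (r ∣ p ^ (i + 1) ↔ r = p) := fun r hr => by
        rw [hr.prime.dvd_pow_iff_dvd (by omega), Nat.prime_dvd_prime_iff_eq hr hp]
      unfold totientFactor
      simp only [h2 2 Nat.prime_two, h2 3 Nat.prime_three]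
      rcases lt_or_ge p 5 with h5 | h5
      · have := hp.two_le
        interval_cases p <;> simp_all (config := {decide := true})
      · obtain ⟨t, rfl⟩ : ∃ t, p = t + 5 := ⟨p - 5, by omega⟩
        rw [if_neg (by omega), if_neg (by omega), one_mul, one_mul,
          show t + 5 - 1 = t + 4 by omega]
        nlinarith [pow_two_nonneg t, mul_nonneg (Nat.zero_le t) (pow_two_nonneg t)]
    calc (p ^ i) ^ 3 * p ^ 3 ≤ (p ^ i) ^ 4 * (totientFactor (p ^ (i + 1)) * (p - 1) ^ 4) :=
          Nat.mul_le_mul (Nat.pow_le_pow_right (pow_pos hp.pos i) (by norm_num)) h1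
      _ = _ := by rw [pow_succ]; ring
  | zero => simp
  | one => simp [totientFactor]
  | coprime a b ha hb hab iha ihb =>
    rw [Nat.totient_mul hab, mul_pow, mul_pow]
    refine (Nat.mul_le_mul iha ihb).trans (le_of_eq ?_)
    have h : totientFactor (a * b) = totientFactor a * totientFactor b := by
      have hr : ∀ r c : ℕ, r.Prime → (if r ∣ a * b then c else 1) =
          (if r ∣ a then c else 1) * if r ∣ b then c else 1 := fun r c hr => by
        have h2 : ¬ (r ∣ a ∧ r ∣ b) := fun h =>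
          Nat.not_coprime_of_dvd_of_dvd hr.one_lt h.1 h.2 hab
        simp only [hr.dvd_mul]
        by_cases ha' : r ∣ a <;> by_cases hb' : r ∣ b <;> simp [ha', hb'] at h2 ⊢
      unfold totientFactor
      rw [hr 2 8 Nat.prime_two, hr 3 2 Nat.prime_three]
      ring
    rw [h]
    ring

theorem inv_totient_sq_le {q : ℕ} (hq : 0 < q) :
    1 / (q.totient : ℝ) ^ 2 ≤ 4 * (q : ℝ) ^ (-(3 / 2) : ℝ) := by
  have h1 : ((q : ℝ)) ^ 3 ≤ 16 * (q.totient : ℝ) ^ 4 := by
    have h2 : q ^ 3 ≤ 16 * q.totient ^ 4 := (cube_le_totient q).trans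
      (Nat.mul_le_mul_right _ (by unfold totientFactor; split_ifs <;> norm_num))
    exact_mod_cast h2
  have hq0 : (0 : ℝ) < q := Nat.cast_pos.2 hq
  have hφ : (0 : ℝ) < q.totient := Nat.cast_pos.2 (Nat.totient_pos.2 hq)
  have h3 : (q : ℝ) ^ (3 / 2 : ℝ) ≤ 4 * (q.totient : ℝ) ^ 2 := by
    refine le_of_pow_le_pow_left₀ two_ne_zero (by positivity) ?_
    rw [← Real.rpow_natCast ((q : ℝ) ^ (3 / 2 : ℝ)), ← Real.rpow_mul hq0.le]
    norm_num
    linarith
  rw [Real.rpow_neg hq0.le, ← div_eq_mul_inv,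
    div_le_div_iff₀ (by positivity) (Real.rpow_pos_of_pos hq0 _), one_mul]
  exact h3

theorem abs_singularTerm_le (N q : ℕ) :
    |singularTerm N q| ≤ 4 * (q : ℝ) ^ (-(3 / 2) : ℝ) := by
  rcases Nat.eq_zero_or_pos q with rfl | hq
  · simp [Real.zero_rpow]
  refine le_trans ?_ (inv_totient_sq_le hq)
  have hφ : (0 : ℝ) < q.totient := Nat.cast_pos.2 (Nat.totient_pos.2 hq)
  rw [singularTerm_apply, abs_div, abs_mul, abs_of_pos (pow_pos hφ 3),
    show 1 / (q.totient : ℝ) ^ 2 = 1 * q.totient / (q.totient : ℝ) ^ 3 by field_simp]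
  exact div_le_div_of_nonneg_right
    (mul_le_mul (abs_moebiusR_le q) (abs_ramanujan_le N q) (abs_nonneg _) zero_le_one)
    (by positivity)

/-- The singular series. -/
def singularSeries (N : ℕ) : ℝ := ∑' q, singularTerm N q

theorem summable_singular (N : ℕ) : Summable fun q => ‖singularTerm N q‖ :=
  Summable.of_nonneg_of_le (fun _ => norm_nonneg _) (fun q => abs_singularTerm_le N q)
    ((Real.summable_nat_rpow.2 (by norm_num)).mul_left 4)

/-- The truncation error. -/
theorem exists_singular_tail : ∃ C : ℝ, 0 < C ∧ ∀ N K : ℕ,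
    |singularSeries N - ∑ q ∈ Icc 1 K, singularTerm N q| ≤
      C * ((K + 1 : ℕ) : ℝ) ^ (-(1 / 4) : ℝ) ∧ |singularSeries N| ≤ C := by
  obtain ⟨Z, hZ⟩ : ∃ Z : ℝ, Z = ∑' q : ℕ, (q : ℝ) ^ (-(5 / 4) : ℝ) := ⟨_, rfl⟩
  have hs : Summable fun q : ℕ => (q : ℝ) ^ (-(5 / 4) : ℝ) :=
    Real.summable_nat_rpow.2 (by norm_num)
  have hZ0 : 0 ≤ Z := hZ ▸ tsum_nonneg fun q => by positivity
  refine ⟨4 * Z + 1, by positivity, fun N K => ?_⟩
  have key : ∀ K : ℕ, |singularSeries N - ∑ q ∈ Icc 1 K, singularTerm N q| ≤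
      4 * Z * ((K + 1 : ℕ) : ℝ) ^ (-(1 / 4) : ℝ) := by
    intro K
    have h0 : ∑ q ∈ Icc 1 K, singularTerm N q = ∑ q ∈ range (K + 1), singularTerm N q := by
      refine sum_subset (fun q hq => ?_) fun q hq hq' => ?_
      · rw [mem_Icc] at hq
        rw [mem_range]
        omega
      · rw [mem_range] at hq
        rw [mem_Icc] at hq'
        obtain rfl : q = 0 := by omega
        simp
    have hsum : Summable fun q => singularTerm N q := (summable_singular N).of_norm
    rw [h0, singularSeries, ← Summable.sum_add_tsum_nat_add (K + 1) hsum, add_sub_cancel_left,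
      ← Real.norm_eq_abs]
    refine (norm_tsum_le_tsum_norm
      ((summable_nat_add_iff (f := fun q => ‖singularTerm N q‖) (K + 1)).2
        (summable_singular N))).trans
      ?_
    refine (Summable.tsum_le_tsum (g := fun i : ℕ => 4 * ((K + 1 : ℕ) : ℝ) ^ (-(1 / 4) : ℝ) *
      ((i + (K + 1) : ℕ) : ℝ) ^ (-(5 / 4) : ℝ)) (fun i => ?_)
      ((summable_nat_add_iff (f := fun q => ‖singularTerm N q‖) (K + 1)).2 (summable_singular N))
      (((summable_nat_add_iff (K + 1)).2 hs).mul_left _)).trans ?_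
    · refine (abs_singularTerm_le N _).trans ?_
      have hi : (0 : ℝ) < ((i + (K + 1) : ℕ) : ℝ) := Nat.cast_pos.2 (by omega)
      rw [show (-(3 / 2) : ℝ) = -(1 / 4) + -(5 / 4) by norm_num, Real.rpow_add hi, mul_assoc]
      refine mul_le_mul_of_nonneg_left (mul_le_mul_of_nonneg_right ?_ (by positivity)) (by norm_num)
      exact Real.rpow_le_rpow_of_nonpos (Nat.cast_pos.2 (by omega)) (Nat.cast_le.2 (by omega))
        (by norm_num)
    · rw [tsum_mul_left, mul_right_comm (4 : ℝ) Z]
      refine mul_le_mul_of_nonneg_left ?_ (by positivity)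
      rw [hZ, ← Summable.sum_add_tsum_nat_add (K + 1) hs]
      exact le_add_of_nonneg_left (sum_nonneg fun q _ => by positivity)
  refine ⟨(key K).trans (mul_le_mul_of_nonneg_right (by linarith) (by positivity)), ?_⟩
  have h := key 0
  simp at h
  linarith

theorem tsum_prime_pow (N : ℕ) {p : ℕ} (hp : p.Prime) :
    ∑' e, singularTerm N (p ^ e) = 1 + singularTerm N p := by
  rw [tsum_eq_sum (s := range 2) fun e he => ?_]
  · simp [sum_range_succ, (singularTerm_isMultiplicative N).1]
  · rw [mem_range] at he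
    rw [singularTerm_apply, moebiusR, intCoe_apply,
      moebius_apply_prime_pow hp (by omega), if_neg (by omega)]
    simp

theorem ramanujan_prime (N : ℕ) {p : ℕ} (hp : p.Prime) :
    ramanujan N p = if p ∣ N then (p : ℝ) - 1 else -1 := by
  rw [ramanujan, mul_apply, Nat.sum_divisorsAntidiagonal' (fun x y => moebiusR x * divPart N y),
    hp.divisors, sum_pair hp.ne_one.symm, Nat.div_one, Nat.div_self hp.pos, divPart_apply,
    divPart_apply, moebiusR, intCoe_apply, intCoe_apply, moebius_apply_prime hp, moebius_apply_one]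
  rw [if_pos (one_dvd N)]
  split_ifs <;> push_cast <;> ring

/-- The comparison factors. -/
def telescope (m : ℕ) : ℝ := if m < 3 then 1 else 1 - 1 / ((m : ℝ) - 1) ^ 2

theorem telescope_bounds (m : ℕ) : 0 < telescope m ∧ telescope m ≤ 1 := by
  unfold telescope
  split_ifs with h
  · norm_num
  · have h3 : (3 : ℝ) ≤ m := by exact_mod_cast not_lt.1 h
    have h4 : 1 / ((m : ℝ) - 1) ^ 2 ≤ 1 / 4 := one_div_le_one_div_of_le (by norm_num) (by nlinarith)
    have h5 : 0 ≤ 1 / ((m : ℝ) - 1) ^ 2 := by positivity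
    constructor <;> linarith

theorem half_le_prod_telescope (n : ℕ) : 1 / 2 ≤ ∏ m ∈ range n, telescope m := by
  have key : ∀ k : ℕ, ∏ m ∈ range (k + 3), telescope m = ((k : ℝ) + 2) / (2 * ((k : ℝ) + 1)) := by
    intro k
    induction k with
    | zero => norm_num [prod_range_succ, telescope]
    | succ k ih =>
      rw [show k + 1 + 3 = k + 3 + 1 by ring, prod_range_succ, ih, telescope, if_neg (by omega)]
      push_cast
      rw [show (k : ℝ) + 3 - 1 = k + 2 by ring]
      field_simp
      ring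
  have h1 : ∏ m ∈ range (n + 3), telescope m ≤ ∏ m ∈ range n, telescope m := by
    rw [prod_range_add]
    exact mul_le_of_le_one_right (prod_nonneg fun m _ => (telescope_bounds m).1.le)
      (prod_le_one (fun m _ => (telescope_bounds _).1.le) fun m _ => (telescope_bounds _).2)
  refine le_trans ?_ h1
  rw [key, div_le_div_iff₀ two_pos (by positivity)]
  linarith [(Nat.cast_nonneg n : (0 : ℝ) ≤ n)]

theorem telescope_le_factor {N : ℕ} (hN : Odd N) {p : ℕ} (hp : p.Prime) :
    telescope p ≤ 1 + singularTerm N p := by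
  rw [singularTerm_apply, ramanujan_prime N hp, moebiusR, intCoe_apply, moebius_apply_prime hp,
    Nat.totient_prime hp, Nat.cast_sub hp.one_lt.le]
  rcases lt_or_ge p 3 with h | h
  · obtain rfl : p = 2 := by have := hp.two_le; omega
    rw [if_neg (by rw [← even_iff_two_dvd, Nat.not_even_iff_odd]; exact hN)]
    norm_num [telescope]
  · have h3 : (3 : ℝ) ≤ p := by exact_mod_cast h
    rw [telescope, if_neg (by omega)]
    split_ifs
    · push_cast
      have e : ((p : ℝ) - 1) / ((p : ℝ) - 1) ^ 3 = 1 / ((p : ℝ) - 1) ^ 2 := by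
        have : (p : ℝ) - 1 ≠ 0 := by linarith
        field_simp
      rw [show (-1 : ℝ) * ((p : ℝ) - 1) = -((p : ℝ) - 1) by ring, neg_div, e]
      linarith
    · push_cast
      have : 0 ≤ 1 / ((p : ℝ) - 1) ^ 2 := by positivity
      have h1 : (0 : ℝ) < (p : ℝ) - 1 := by linarith
      have : 0 ≤ (-1 : ℝ) * -1 / ((p : ℝ) - 1) ^ 3 := by positivity
      linarith

/-- **The singular series is at least `1/2` for odd `N`.** -/
theorem half_le_singularSeries {N : ℕ} (hN : Odd N) : 1 / 2 ≤ singularSeries N := by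
  refine ge_of_tendsto ((singularTerm_isMultiplicative N).eulerProduct (summable_singular N))
    (Filter.Eventually.of_forall fun n => ?_)
  refine le_trans (half_le_prod_telescope n) ?_
  refine le_trans (prod_le_prod_of_subset_of_le_one (s := n.primesBelow)
    (fun p hp => (mem_filter.1 hp).1)
    (fun m _ => (telescope_bounds m).1.le) fun m _ _ => (telescope_bounds m).2) ?_
  · exact prod_le_prod (fun m _ => (telescope_bounds m).1.le) fun p hp => by
      rw [Nat.mem_primesBelow] at hp
      rw [tsum_prime_pow N hp.2]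
      exact telescope_le_factor hN hp.2

end FA.ThreePrimes
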